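import Fermat.Agent.E.Velu.XU
import Fermat.Agent.E.Velu.Fiber

/-!
# Vélu (E-V), leaf V1x: the finite sums and the explicit `x`-map

* the `finsum`s of `VeluSpec.lean` as `Finset` sums over `Cs`;
* `VeluXFormula` (pair formula `pair_addX` over `k`, pairing `T ↔ -T`).
-/

set_option autoImplicit false
set_option linter.unusedSectionVars false

open WeierstrassCurve

namespace Fermat.Agent.Velu

open Fermat.Agent.EV

variable {k : Type*} [Field k] [DecidableEq k] (W : Affine k)
  (C : AddSubgroup W.Point) (hC : (C : Set W.Point).Finite)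

theorem finsum_eq_sum_Cs {M : Type*} [AddCommMonoid M] (g : W.Point → M) :
    ∑ᶠ (Q : W.Point) (_ : Q ∈ (C : Set W.Point) ∧ Q ≠ 0), g Q = ∑ Q ∈ Cs C hC, g Q := by
  rw [← finsum_mem_coe_finset]
  refine finsum_congr (fun Q => ?_)
  refine finsum_congr_Prop (propext ?_) (fun _ => rfl)
  rw [Finset.mem_coe, mem_Cs]
  rfl

theorem veluSumT_eq : veluSumT W (C : Set W.Point) = (∑ T ∈ Cs C hC, veluT W T) / 2 := by
  unfold veluSumT
  rw [finsum_eq_sum_Cs W C hC]

theorem veluSumW_eq :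
    veluSumW W (C : Set W.Point) = (∑ T ∈ Cs C hC, (veluU W T + ptX T * veluT W T)) / 2 := by
  unfold veluSumW
  rw [finsum_eq_sum_Cs W C hC]

theorem veluX_eq (P : W.Point) :
    veluX W (C : Set W.Point) P = ptX P + ∑ Q ∈ Cs C hC, (ptX (P + Q) - ptX Q) := by
  unfold veluX
  rw [finsum_eq_sum_Cs W C hC]

theorem veluY_eq (P : W.Point) :
    veluY W (C : Set W.Point) P = ptY P + ∑ Q ∈ Cs C hC, (ptY (P + Q) - ptY Q) := by
  unfold veluY
  rw [finsum_eq_sum_Cs W C hC]

/-- the pair formula for points over `k` -/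
theorem ptX_add_add_ptX_sub {P Q : W.Point} (hP : P ≠ 0) (hQ : Q ≠ 0) (hx : ptX P ≠ ptX Q) :
    ptX (P + Q) + ptX (P - Q) = 2 * ptX Q + veluT W Q / (ptX P - ptX Q)
      + veluU W Q / (ptX P - ptX Q) ^ 2 := by
  cases P with
  | zero => exact absurd rfl hP
  | some x y h =>
    cases Q with
    | zero => exact absurd rfl hQ
    | some a b hq =>
      have hxa : x ≠ a := hx
      rw [sub_eq_add_neg, Affine.Point.neg_some, Affine.Point.add_of_X_ne hxa,
        Affine.Point.add_of_X_ne hxa]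
      show W.addX x a (W.slope x a y b) + W.addX x a (W.slope x a y (W.negY a b)) = _
      rw [Affine.slope_of_X_ne hxa, Affine.slope_of_X_ne hxa]
      exact pair_addX W h.1 hq.1 hxa

/-- **(V1x)** -/
theorem veluXFormula (hfin : (C : Set W.Point).Finite) (h2 : (2 : k) ≠ 0) :
    VeluXFormula W C := by
  intro x y h hP
  rw [veluX_eq W C hfin, finsum_eq_sum_Cs W C hfin]
  show x + ∑ Q ∈ Cs C hfin, (ptX (Affine.Point.some x y h + Q) - ptX Q)
    = x + (∑ Q ∈ Cs C hfin, (veluT W Q / (x - ptX Q) + veluU W Q / (x - ptX Q) ^ 2)) / 2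
  congr 1
  rw [eq_div_iff h2, mul_two,
    ← two_mul_sum_Cs C hfin (fun Q => ptX (Affine.Point.some x y h + Q) - ptX Q)]
  refine Finset.sum_congr rfl (fun Q hQ => ?_)
  have hQC : Q ∈ C := (mem_Cs.1 hQ).1
  have hQ0 : Q ≠ 0 := (mem_Cs.1 hQ).2
  have hP0 : (Affine.Point.some x y h : W.Point) ≠ 0 := Affine.Point.some_ne_zero h
  have hxne : ptX (Affine.Point.some x y h : W.Point) ≠ ptX Q := by
    intro hx
    rcases eq_or_eq_neg_of_ptX_eq hP0 hQ0 hx with h1 | h1
    · exact hP (h1 ▸ hQC)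
    · exact hP (h1 ▸ C.neg_mem hQC)
  have key := ptX_add_add_ptX_sub W hP0 hQ0 hxne
  have e : ptX (Affine.Point.some x y h : W.Point) = x := rfl
  rw [e] at key
  rw [ptX_neg, ← sub_eq_add_neg]
  linear_combination key

end Fermat.Agent.Velu
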