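import Mathlib

/-!
# Vélu (E-V), leaf L-S: the `x`-map takes every value

`k` algebraically closed, `xs` a finite set, `u a ≠ 0` for `a ∈ xs`.  Then
`x ↦ x + Σ_{a ∈ xs} (t a/(x - a) + u a/(x - a)²)` takes every value `X₀` at some `x ∉ xs`.
(The numerator `(X - X₀) D² + Σ_a (t a (X - a) + u a) ∏_{a' ≠ a} (X - a')²` is monic of degree
`2 #xs + 1` and does not vanish on `xs`.)
-/

set_option autoImplicit false

namespace Fermat.Agent.Velu

open Polynomial

variable {k : Type*} [Field k] [IsAlgClosed k] [DecidableEq k]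

/-- the numerator of `x + Σ_a (t a/(x - a) + u a/(x - a)²) - X₀` -/
noncomputable def veluNum (xs : Finset k) (t u : k → k) (X₀ : k) : k[X] :=
  (X - C X₀) * (∏ a ∈ xs, (X - C a)) ^ 2
    + ∑ a ∈ xs, (C (t a) * (X - C a) + C (u a)) * (∏ b ∈ xs.erase a, (X - C b)) ^ 2

omit [IsAlgClosed k] [DecidableEq k] in
theorem natDegree_prod_X_sub_C_velu (s : Finset k) :
    (∏ a ∈ s, (X - C a : k[X])).natDegree = s.card := by
  rw [natDegree_prod_of_monic _ _ (fun a _ => monic_X_sub_C a)]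
  simp

omit [IsAlgClosed k] [DecidableEq k] in
theorem monic_prod_X_sub_C_velu (s : Finset k) : (∏ a ∈ s, (X - C a : k[X])).Monic :=
  monic_prod_of_monic _ _ (fun a _ => monic_X_sub_C a)

omit [IsAlgClosed k] in
theorem natDegree_veluNum (xs : Finset k) (t u : k → k) (X₀ : k) :
    (veluNum xs t u X₀).natDegree = 2 * xs.card + 1 := by
  have hM : ((X - C X₀) * (∏ a ∈ xs, (X - C a : k[X])) ^ 2).natDegree = 2 * xs.card + 1 := by
    rw [(monic_X_sub_C X₀).natDegree_mul ((monic_prod_X_sub_C_velu xs).pow 2),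
      (monic_prod_X_sub_C_velu xs).natDegree_pow, natDegree_prod_X_sub_C_velu,
      natDegree_X_sub_C]
    ring
  have hR : (∑ a ∈ xs, (C (t a) * (X - C a) + C (u a))
      * (∏ b ∈ xs.erase a, (X - C b : k[X])) ^ 2).natDegree ≤ 2 * xs.card - 1 := by
    refine natDegree_sum_le_of_forall_le _ _ (fun a ha => ?_)
    have h1 : (C (t a) * (X - C a) + C (u a) : k[X]).natDegree ≤ 1 := by
      compute_degree
    have h2 : ((∏ b ∈ xs.erase a, (X - C b : k[X])) ^ 2).natDegree = 2 * (xs.card - 1) := by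
      rw [(monic_prod_X_sub_C_velu _).natDegree_pow, natDegree_prod_X_sub_C_velu,
        Finset.card_erase_of_mem ha]
    have hpos : 0 < xs.card := Finset.card_pos.mpr ⟨a, ha⟩
    calc ((C (t a) * (X - C a) + C (u a)) * (∏ b ∈ xs.erase a, (X - C b : k[X])) ^ 2).natDegree
        ≤ (C (t a) * (X - C a) + C (u a) : k[X]).natDegree
          + ((∏ b ∈ xs.erase a, (X - C b : k[X])) ^ 2).natDegree := natDegree_mul_le
      _ ≤ 1 + 2 * (xs.card - 1) := by rw [h2]; exact Nat.add_le_add_right h1 _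
      _ ≤ 2 * xs.card - 1 := by omega
  unfold veluNum
  rw [natDegree_add_eq_left_of_natDegree_lt, hM]
  rw [hM]
  omega

omit [IsAlgClosed k] in
theorem eval_veluNum (xs : Finset k) (t u : k → k) (X₀ x : k) :
    (veluNum xs t u X₀).eval x = (x - X₀) * (∏ a ∈ xs, (x - a)) ^ 2
      + ∑ a ∈ xs, (t a * (x - a) + u a) * (∏ b ∈ xs.erase a, (x - b)) ^ 2 := by
  unfold veluNum
  simp only [eval_add, eval_mul, eval_sub, eval_X, eval_C, eval_pow, eval_prod, eval_finsetSum]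

omit [IsAlgClosed k] in
theorem eval_veluNum_ne_zero (xs : Finset k) (t u : k → k) (hu : ∀ a ∈ xs, u a ≠ 0) (X₀ : k)
    {a : k} (ha : a ∈ xs) : (veluNum xs t u X₀).eval a ≠ 0 := by
  rw [eval_veluNum]
  have h1 : ∏ b ∈ xs, (a - b) = 0 := Finset.prod_eq_zero ha (sub_self a)
  have h2 : ∑ b ∈ xs, (t b * (a - b) + u b) * (∏ c ∈ xs.erase b, (a - c)) ^ 2
      = u a * (∏ c ∈ xs.erase a, (a - c)) ^ 2 := by
    rw [Finset.sum_eq_single_of_mem a ha]
    · rw [sub_self, mul_zero, zero_add]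
    · intro b _ hb
      have : ∏ c ∈ xs.erase b, (a - c) = 0 :=
        Finset.prod_eq_zero (Finset.mem_erase.mpr ⟨fun h => hb h.symm, ha⟩) (sub_self a)
      rw [this]
      ring
  rw [h1, h2]
  have h3 : ∏ c ∈ xs.erase a, (a - c) ≠ 0 := by
    rw [Finset.prod_ne_zero_iff]
    intro c hc
    exact sub_ne_zero.mpr (fun h => (Finset.mem_erase.mp hc).1 h.symm)
  simpa using mul_ne_zero (hu a ha) (pow_ne_zero 2 h3)

/-- **(L-S)** -/
theorem exists_velu_root (xs : Finset k) (t u : k → k) (hu : ∀ a ∈ xs, u a ≠ 0) (X₀ : k) :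
    ∃ x : k, x ∉ xs ∧ x + ∑ a ∈ xs, (t a / (x - a) + u a / (x - a) ^ 2) = X₀ := by
  have hdeg : (veluNum xs t u X₀).degree ≠ 0 := by
    have hpos : 0 < (veluNum xs t u X₀).natDegree := by
      rw [natDegree_veluNum]
      omega
    exact (natDegree_pos_iff_degree_pos.mp hpos).ne'
  obtain ⟨x, hx⟩ := IsAlgClosed.exists_root _ hdeg
  have hxs : x ∉ xs := fun hmem => eval_veluNum_ne_zero xs t u hu X₀ hmem hx
  refine ⟨x, hxs, ?_⟩
  have hne : ∀ a ∈ xs, x - a ≠ 0 := fun a ha => sub_ne_zero.mpr (fun h => hxs (h ▸ ha))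
  have hd : ∏ a ∈ xs, (x - a) ≠ 0 := Finset.prod_ne_zero_iff.mpr hne
  have hroot : (x - X₀) * (∏ a ∈ xs, (x - a)) ^ 2
      + ∑ a ∈ xs, (t a * (x - a) + u a) * (∏ b ∈ xs.erase a, (x - b)) ^ 2 = 0 := by
    rw [← eval_veluNum]
    exact hx
  have hsum : (∑ a ∈ xs, (t a / (x - a) + u a / (x - a) ^ 2)) * (∏ a ∈ xs, (x - a)) ^ 2
      = ∑ a ∈ xs, (t a * (x - a) + u a) * (∏ b ∈ xs.erase a, (x - b)) ^ 2 := by
    rw [Finset.sum_mul]
    refine Finset.sum_congr rfl (fun a ha => ?_)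
    rw [← Finset.mul_prod_erase xs (fun b => x - b) ha]
    have := hne a ha
    field_simp
  have key : (x + ∑ a ∈ xs, (t a / (x - a) + u a / (x - a) ^ 2) - X₀)
      * (∏ a ∈ xs, (x - a)) ^ 2 = 0 := by
    rw [← hroot, ← hsum]
    ring
  rcases mul_eq_zero.mp key with h | h
  · exact sub_eq_zero.mp h
  · exact absurd h (pow_ne_zero 2 hd)

end Fermat.Agent.Velu
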