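import Mathlib

/-!
# Vélu (E-V), leaf L-D: two-torsion and the discriminant

* a Weierstrass curve over a field of characteristic `≠ 2` with three distinct nonsingular points
  of order `2` has `Δ ≠ 0`;
* an elliptic curve over an algebraically closed field of characteristic `≠ 2` has three distinct
  points of order `2`.
-/

set_option autoImplicit false

open WeierstrassCurve

namespace Fermat.Agent.Velu

variable {k : Type*} [Field k] [DecidableEq k]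

/-- the `2`-division polynomial `4x³ + b₂x² + 2b₄x + b₆` -/
def twoDiv (W : Affine k) (x : k) : k := 4 * x ^ 3 + W.b₂ * x ^ 2 + 2 * W.b₄ * x + W.b₆

omit [DecidableEq k] in
/-- on the curve, `(2y + a₁x + a₃)² = 4x³ + b₂x² + 2b₄x + b₆` -/
lemma twoDiv_eq_sq (W : Affine k) {x y : k} (h : W.Equation x y) :
    twoDiv W x = (2 * y + W.a₁ * x + W.a₃) ^ 2 := by
  rw [Affine.equation_iff] at h
  simp only [twoDiv, WeierstrassCurve.b₂, WeierstrassCurve.b₄, WeierstrassCurve.b₆]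
  linear_combination (-4) * h

/-- a point of order `2` has `2y + a₁x + a₃ = 0` -/
lemma psi_eq_zero_of_add_self {W : Affine k} {x y : k} {h : W.Nonsingular x y}
    (t : (Affine.Point.some x y h : W.Point) + .some x y h = 0) :
    2 * y + W.a₁ * x + W.a₃ = 0 := by
  have h1 : (Affine.Point.some x y h : W.Point) = -(.some x y h) := add_eq_zero_iff_eq_neg.mp t
  rw [Affine.Point.neg_some] at h1
  simp only [Affine.Point.some.injEq, true_and] at h1
  rw [Affine.negY] at h1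
  linear_combination h1

/-- **(L-D1)** -/
theorem Δ_ne_zero_of_two_torsion (h2 : (2 : k) ≠ 0) (W : Affine k) {Q₁ Q₂ Q₃ : W.Point}
    (h₁ : Q₁ ≠ 0) (h₂ : Q₂ ≠ 0) (h₃ : Q₃ ≠ 0)
    (t₁ : Q₁ + Q₁ = 0) (t₂ : Q₂ + Q₂ = 0) (t₃ : Q₃ + Q₃ = 0)
    (h₁₂ : Q₁ ≠ Q₂) (h₁₃ : Q₁ ≠ Q₃) (h₂₃ : Q₂ ≠ Q₃) : W.Δ ≠ 0 := by
  -- the three `x`-coordinates
  have key : ∀ {Q : W.Point}, Q ≠ 0 → Q + Q = 0 →
      ∃ x y h, Q = .some x y h ∧ twoDiv W x = 0 := by
    intro Q h0 t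
    rcases Q with _ | ⟨x, y, h⟩
    · exact absurd rfl h0
    · refine ⟨x, y, h, rfl, ?_⟩
      rw [twoDiv_eq_sq W h.1, psi_eq_zero_of_add_self t]
      ring
  have inj : ∀ {Q Q' : W.Point} {x y y' : k} {h : W.Nonsingular x y} {h' : W.Nonsingular x y'},
      Q = .some x y h → Q' = .some x y' h' → Q + Q = 0 → Q' + Q' = 0 → Q = Q' := by
    intro Q Q' x y y' h h' e e' t t'
    subst e e'
    have hy := psi_eq_zero_of_add_self t
    have hy' := psi_eq_zero_of_add_self t'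
    have : y = y' := by
      have e : 2 * (y - y') = 0 := by linear_combination hy - hy'
      rcases mul_eq_zero.mp e with e | e
      · exact absurd e h2
      · exact sub_eq_zero.mp e
    subst this
    rfl
  obtain ⟨x₁, y₁, n₁, e₁, r₁⟩ := key h₁ t₁
  obtain ⟨x₂, y₂, n₂, e₂, r₂⟩ := key h₂ t₂
  obtain ⟨x₃, y₃, n₃, e₃, r₃⟩ := key h₃ t₃
  have d₁₂ : x₁ - x₂ ≠ 0 := by
    intro h
    have : x₁ = x₂ := sub_eq_zero.mp h
    subst this
    exact h₁₂ (inj e₁ e₂ t₁ t₂)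
  have d₁₃ : x₁ - x₃ ≠ 0 := by
    intro h
    have : x₁ = x₃ := sub_eq_zero.mp h
    subst this
    exact h₁₃ (inj e₁ e₃ t₁ t₃)
  have d₂₃ : x₂ - x₃ ≠ 0 := by
    intro h
    have : x₂ = x₃ := sub_eq_zero.mp h
    subst this
    exact h₂₃ (inj e₂ e₃ t₂ t₃)
  simp only [twoDiv] at r₁ r₂ r₃
  -- the coefficients in terms of the roots
  have A₁₂ : 4 * (x₁ ^ 2 + x₁ * x₂ + x₂ ^ 2) + W.b₂ * (x₁ + x₂) + 2 * W.b₄ = 0 := by
    have : (x₁ - x₂) * (4 * (x₁ ^ 2 + x₁ * x₂ + x₂ ^ 2) + W.b₂ * (x₁ + x₂) + 2 * W.b₄) = 0 := by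
      linear_combination r₁ - r₂
    exact (mul_eq_zero.mp this).resolve_left d₁₂
  have A₁₃ : 4 * (x₁ ^ 2 + x₁ * x₃ + x₃ ^ 2) + W.b₂ * (x₁ + x₃) + 2 * W.b₄ = 0 := by
    have : (x₁ - x₃) * (4 * (x₁ ^ 2 + x₁ * x₃ + x₃ ^ 2) + W.b₂ * (x₁ + x₃) + 2 * W.b₄) = 0 := by
      linear_combination r₁ - r₃
    exact (mul_eq_zero.mp this).resolve_left d₁₃
  have hb₂ : W.b₂ = -4 * (x₁ + x₂ + x₃) := by
    have : (x₂ - x₃) * (4 * (x₁ + x₂ + x₃) + W.b₂) = 0 := by
      linear_combination A₁₂ - A₁₃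
    have := (mul_eq_zero.mp this).resolve_left d₂₃
    linear_combination this
  have hb₄ : W.b₄ = 2 * (x₁ * x₂ + x₁ * x₃ + x₂ * x₃) := by
    have : 2 * (W.b₄ - 2 * (x₁ * x₂ + x₁ * x₃ + x₂ * x₃)) = 0 := by
      rw [hb₂] at A₁₂
      linear_combination A₁₂
    have := (mul_eq_zero.mp this).resolve_left h2
    linear_combination this
  have hb₆ : W.b₆ = -4 * (x₁ * x₂ * x₃) := by
    rw [hb₂, hb₄] at r₁
    linear_combination r₁
  have h16 : 16 * W.Δ = 256 * ((x₁ - x₂) * (x₁ - x₃) * (x₂ - x₃)) ^ 2 := by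
    rw [← twoTorsionPolynomial_discr]
    simp only [Cubic.discr, twoTorsionPolynomial]
    rw [hb₂, hb₄, hb₆]
    ring
  intro hΔ
  rw [hΔ, mul_zero] at h16
  have h256 : (256 : k) ≠ 0 := by
    have : (256 : k) = 2 ^ 8 := by norm_num
    rw [this]
    exact pow_ne_zero _ h2
  have := (mul_eq_zero.mp h16.symm).resolve_left h256
  have := pow_eq_zero_iff (two_ne_zero) |>.mp this
  rcases mul_eq_zero.mp this with h | h
  · rcases mul_eq_zero.mp h with h | h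
    · exact d₁₂ h
    · exact d₁₃ h
  · exact d₂₃ h

/-- **(L-D2)** -/
theorem exists_two_torsion [IsAlgClosed k] (h2 : (2 : k) ≠ 0) (W : Affine k) (hΔ : W.Δ ≠ 0) :
    ∃ P₁ P₂ P₃ : W.Point, P₁ ≠ 0 ∧ P₂ ≠ 0 ∧ P₃ ≠ 0 ∧ P₁ + P₁ = 0 ∧ P₂ + P₂ = 0 ∧ P₃ + P₃ = 0 ∧
      P₁ ≠ P₂ ∧ P₁ ≠ P₃ ∧ P₂ ≠ P₃ := by
  have h4 : (4 : k) ≠ 0 := by
    have : (4 : k) = 2 ^ 2 := by norm_num
    rw [this]
    exact pow_ne_zero _ h2
  have h16 : (16 : k) ≠ 0 := by
    have : (16 : k) = 2 ^ 4 := by norm_num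
    rw [this]
    exact pow_ne_zero _ h2
  set P : Cubic k := W.twoTorsionPolynomial with hP
  have ha : P.a ≠ 0 := h4
  have hsplit : (Polynomial.map (RingHom.id k) P.toPoly).Splits := IsAlgClosed.splits _
  obtain ⟨x₁, x₂, x₃, h3⟩ := (Cubic.splits_iff_roots_eq_three ha).mp hsplit
  have hdisc : P.discr ≠ 0 := by
    rw [hP, twoTorsionPolynomial_discr]
    exact mul_ne_zero h16 hΔ
  obtain ⟨n₁₂, n₁₃, n₂₃⟩ := (Cubic.discr_ne_zero_iff_roots_ne ha h3).mp hdisc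
  have hb := Cubic.b_eq_three_roots ha h3
  have hc := Cubic.c_eq_three_roots ha h3
  have hd := Cubic.d_eq_three_roots ha h3
  simp only [hP, twoTorsionPolynomial, RingHom.id_apply] at hb hc hd
  -- the roots
  have root : ∀ x : k, (x = x₁ ∨ x = x₂ ∨ x = x₃) → twoDiv W x = 0 := by
    intro x hx
    simp only [twoDiv]
    rw [hb, hc, hd]
    rcases hx with rfl | rfl | rfl <;> ring
  -- the points
  have pt : ∀ x : k, twoDiv W x = 0 → ∃ (y : k) (h : W.Nonsingular x y),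
      (Affine.Point.some x y h : W.Point) + .some x y h = 0 := by
    intro x hx
    set y : k := -(W.a₁ * x + W.a₃) / 2 with hy
    have hy2 : 2 * y + W.a₁ * x + W.a₃ = 0 := by
      rw [hy]
      field_simp
      ring
    have heq : W.Equation x y := by
      rw [Affine.equation_iff]
      have e1 : twoDiv W x = 0 := hx
      simp only [twoDiv, WeierstrassCurve.b₂, WeierstrassCurve.b₄, WeierstrassCurve.b₆] at e1
      have e2 : 4 * (y ^ 2 + W.a₁ * x * y + W.a₃ * y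
          - (x ^ 3 + W.a₂ * x ^ 2 + W.a₄ * x + W.a₆)) = 0 := by
        linear_combination (2 * y + W.a₁ * x + W.a₃) * hy2 - e1
      have := (mul_eq_zero.mp e2).resolve_left h4
      linear_combination this
    have : W.IsElliptic := ⟨isUnit_iff_ne_zero.mpr hΔ⟩
    have hns : W.Nonsingular x y := Affine.equation_iff_nonsingular.mp heq
    refine ⟨y, hns, ?_⟩
    apply Affine.Point.add_self_of_Y_eq
    rw [Affine.negY]
    linear_combination hy2
  obtain ⟨y₁, m₁, t₁⟩ := pt x₁ (root x₁ (Or.inl rfl))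
  obtain ⟨y₂, m₂, t₂⟩ := pt x₂ (root x₂ (Or.inr (Or.inl rfl)))
  obtain ⟨y₃, m₃, t₃⟩ := pt x₃ (root x₃ (Or.inr (Or.inr rfl)))
  refine ⟨.some x₁ y₁ m₁, .some x₂ y₂ m₂, .some x₃ y₃ m₃, Affine.Point.some_ne_zero _,
    Affine.Point.some_ne_zero _, Affine.Point.some_ne_zero _, t₁, t₂, t₃, ?_, ?_, ?_⟩
  · intro h
    simp only [Affine.Point.some.injEq] at h
    exact n₁₂ h.1
  · intro h
    simp only [Affine.Point.some.injEq] at h
    exact n₁₃ h.1
  · intro h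
    simp only [Affine.Point.some.injEq] at h
    exact n₂₃ h.1

end Fermat.Agent.Velu
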