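import Fermat.Agent.E.Velu.CoFormula
import Fermat.Agent.E.Velu.TwoTors
import Fermat.Agent.E.Velu.Surj
import Fermat.Agent.E.Velu.Fiber
import Fermat.Agent.E.Velu.V1x

/-!
# Vélu (E-V): the final statements

* `veluCurve_Δ_ne_zero`: `exists_two_torsion` for `W`, `φ` is injective on them (`ker φ = C` has odd
  order: `eq_zero_of_add_self`), `Δ_ne_zero_of_two_torsion`.
* `phi_surjective`: `exists_velu_root` with `xs = xsOf`, `t a = 6a² + b₂a + b₄`,
  `u a = 4a³ + b₂a² + 2b₄a + b₆` (`veluU_ne_zero`), `veluXFormula`, `sum_Cs_ptX`, `phi_eq_some`;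
  two points with the same `x` are equal or opposite.
* `veluStatement : VeluStatement`.
-/

set_option autoImplicit false
set_option linter.unusedSectionVars false

open WeierstrassCurve
open scoped WeierstrassCurve.Affine

namespace Fermat.Agent.Velu

open Fermat.Agent.EV

variable {k : Type*} [Field k] [DecidableEq k] [IsAlgClosed k] [CharZero k]
  (W : Affine k) [W.IsElliptic]
  (C : AddSubgroup W.Point) (hC : (C : Set W.Point).Finite)

/-- over an algebraically closed field of characteristic `≠ 2`, every `x` is the `x`-coordinate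
of a point of the cubic -/
theorem exists_equation_of_x (W : Affine k) (x : k) : ∃ y : k, W.Equation x y := by
  obtain ⟨s, hs⟩ := IsAlgClosed.exists_pow_nat_eq
    ((W.a₁ * x + W.a₃) ^ 2 + 4 * (x ^ 3 + W.a₂ * x ^ 2 + W.a₄ * x + W.a₆)) (n := 2) (by norm_num)
  refine ⟨(s - (W.a₁ * x + W.a₃)) / 2, ?_⟩
  rw [Affine.equation_iff]
  have h2 : (2 : k) ≠ 0 := two_ne_zero
  field_simp
  linear_combination hs

theorem veluCurve_Δ_ne_zero (hfin : (C : Set W.Point).Finite) (hodd : Odd (Nat.card C)) :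
    (veluCurve W (C : Set W.Point)).Δ ≠ 0 := by
  have h2 : (2 : k) ≠ 0 := two_ne_zero
  have hΔ : W.Δ ≠ 0 := (WeierstrassCurve.IsElliptic.isUnit (W := W)).ne_zero
  obtain ⟨P₁, P₂, P₃, h₁, h₂, h₃, t₁, t₂, t₃, h₁₂, h₁₃, h₂₃⟩ := exists_two_torsion h2 W hΔ
  have hker : ∀ P : W.Point, P + P = 0 → phi W C hfin P = 0 → P = 0 := by
    intro P hP h0
    exact eq_zero_of_add_self C hodd ((phi_eq_zero_iff W C hfin P).mp h0) hP
  have htor : ∀ P : W.Point, P + P = 0 → phi W C hfin P + phi W C hfin P = 0 := by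
    intro P hP
    rw [← map_add, hP, map_zero]
  have hinj : ∀ P Q : W.Point, P + P = 0 → Q + Q = 0 → phi W C hfin P = phi W C hfin Q →
      P = Q := by
    intro P Q hP hQ h
    have h1 : (P - Q) + (P - Q) = 0 := by
      have : (P - Q) + (P - Q) = (P + P) - (Q + Q) := by abel
      rw [this, hP, hQ, sub_zero]
    have h2 : phi W C hfin (P - Q) = 0 := by rw [map_sub, h, sub_self]
    exact sub_eq_zero.mp (hker _ h1 h2)
  exact Δ_ne_zero_of_two_torsion h2 (veluCurve W (C : Set W.Point))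
    (Q₁ := phi W C hfin P₁) (Q₂ := phi W C hfin P₂) (Q₃ := phi W C hfin P₃)
    (fun h => h₁ (hker P₁ t₁ h)) (fun h => h₂ (hker P₂ t₂ h)) (fun h => h₃ (hker P₃ t₃ h))
    (htor P₁ t₁) (htor P₂ t₂) (htor P₃ t₃)
    (fun h => h₁₂ (hinj P₁ P₂ t₁ t₂ h)) (fun h => h₁₃ (hinj P₁ P₃ t₁ t₃ h))
    (fun h => h₂₃ (hinj P₂ P₃ t₂ t₃ h))

theorem phi_surjective (hodd : Odd (Nat.card C)) : Function.Surjective (phi W C hC) := by
  have h2 : (2 : k) ≠ 0 := two_ne_zero
  intro Q'
  cases Q' with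
  | zero => exact ⟨0, map_zero _⟩
  | some X₀ Y₀ h' =>
    -- a root of the `x`-map
    obtain ⟨x, hx, hroot⟩ := exists_velu_root ((Cs C hC).image ptX)
      (fun a => 6 * a ^ 2 + W.b₂ * a + W.b₄)
      (fun a => 4 * a ^ 3 + W.b₂ * a ^ 2 + 2 * W.b₄ * a + W.b₆)
      (by
        intro a ha
        obtain ⟨T, hT, rfl⟩ := Finset.mem_image.mp ha
        exact veluU_ne_zero C hC hodd hT) X₀
    obtain ⟨y, hy⟩ := exists_equation_of_x W x
    have hns : W.Nonsingular x y := Affine.equation_iff_nonsingular.mp hy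
    have hT : (Affine.Point.some x y hns : W.Point) ∉ C := by
      intro hmem
      apply hx
      refine Finset.mem_image.mpr ⟨Affine.Point.some x y hns, ?_, rfl⟩
      exact mem_Cs.mpr ⟨hmem, Affine.Point.some_ne_zero hns⟩
    obtain ⟨hφ, hφeq⟩ := phi_eq_some W C hC hT
    -- the `x`-coordinate of the image
    have hX : veluX W (C : Set W.Point) (Affine.Point.some x y hns) = X₀ := by
      rw [veluXFormula W C hC h2 x y hns hT, finsum_eq_sum_Cs W C hC
        (fun Q => veluT W Q / (x - ptX Q) + veluU W Q / (x - ptX Q) ^ 2)]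
      have hsum := sum_Cs_ptX C hC hodd
        (fun a => (6 * a ^ 2 + W.b₂ * a + W.b₄) / (x - a)
          + (4 * a ^ 3 + W.b₂ * a ^ 2 + 2 * W.b₄ * a + W.b₆) / (x - a) ^ 2)
      have e : ∑ Q ∈ Cs C hC, (veluT W Q / (x - ptX Q) + veluU W Q / (x - ptX Q) ^ 2)
          = ∑ a ∈ (Cs C hC).image ptX,
            (((6 * a ^ 2 + W.b₂ * a + W.b₄) / (x - a)
              + (4 * a ^ 3 + W.b₂ * a ^ 2 + 2 * W.b₄ * a + W.b₆) / (x - a) ^ 2)
            + ((6 * a ^ 2 + W.b₂ * a + W.b₄) / (x - a)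
              + (4 * a ^ 3 + W.b₂ * a ^ 2 + 2 * W.b₄ * a + W.b₆) / (x - a) ^ 2)) := hsum
      have e2 : ∑ a ∈ (Cs C hC).image ptX,
            (((6 * a ^ 2 + W.b₂ * a + W.b₄) / (x - a)
              + (4 * a ^ 3 + W.b₂ * a ^ 2 + 2 * W.b₄ * a + W.b₆) / (x - a) ^ 2)
            + ((6 * a ^ 2 + W.b₂ * a + W.b₄) / (x - a)
              + (4 * a ^ 3 + W.b₂ * a ^ 2 + 2 * W.b₄ * a + W.b₆) / (x - a) ^ 2))
          = 2 * ∑ a ∈ (Cs C hC).image ptX,
            ((6 * a ^ 2 + W.b₂ * a + W.b₄) / (x - a)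
              + (4 * a ^ 3 + W.b₂ * a ^ 2 + 2 * W.b₄ * a + W.b₆) / (x - a) ^ 2) := by
        rw [Finset.mul_sum]
        exact Finset.sum_congr rfl (fun a _ => (two_mul _).symm)
      rw [e, e2, mul_div_cancel_left₀ _ h2]
      exact hroot
    have hne : phi W C hC (Affine.Point.some x y hns) ≠ 0 := by
      rw [hφeq]
      exact Affine.Point.some_ne_zero _
    have hxeq : ptX (phi W C hC (Affine.Point.some x y hns))
        = ptX (Affine.Point.some X₀ Y₀ h' : (veluCurve W (C : Set W.Point)).Point) := by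
      rw [hφeq]
      exact hX
    rcases eq_or_eq_neg_of_ptX_eq hne (Affine.Point.some_ne_zero h') hxeq with h1 | h1
    · exact ⟨_, h1⟩
    · exact ⟨-(Affine.Point.some x y hns), by rw [map_neg, h1, neg_neg]⟩

theorem veluHom (hfin : (C : Set W.Point).Finite) (hodd : Odd (Nat.card C)) : VeluHom W C :=
  ⟨veluCurve_Δ_ne_zero W C hfin hodd, phi W C hfin, phi_surjective W C hfin hodd,
    ker_phi W C hfin, fun _ hP => phi_eq_some W C hfin hP⟩

/-- **(V1)** Vélu's theorem -/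
theorem veluStatement : VeluStatement := by
  intro k _ _ _ _ W hΔ C hfin hodd
  have : W.IsElliptic := ⟨isUnit_iff_ne_zero.mpr hΔ⟩
  exact veluHom W C hfin hodd

end Fermat.Agent.Velu
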