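import Mathlib

/-!
# Vélu (E-V), leaf A4: the invariant differential is additive (chord case)

`W` a Weierstrass curve over `k`, `F ⊇ k` a field with a `k`-derivation `D`.  For two points
`P₁, P₂` of `W` over `F` with `x₁ ≠ x₂` and `D P_i = u_i · (invariant vector field at P_i)`, the sum
`P₃ = P₁ + P₂` satisfies `D P₃ = (u₁ + u₂) · (invariant vector field at P₃)`.

(stub: helper52; proof: helper72.  The two polynomial certificates were produced by a script: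
`d³ (D x₃ − (u₁ + u₂) ψ₃)` and `d⁴ (D y₃ − (u₁ + u₂) B₃)` lie in the ideal of the two curve
equations.)
-/

set_option autoImplicit false

open WeierstrassCurve
open scoped WeierstrassCurve.Affine

namespace Fermat.Agent.Velu

section Alg

variable {F : Type*} [Field F]

/-- Abel's identity for the `x`-coordinate, purely algebraic form. -/
theorem abel_alg_x (A₁ A₂ A₃ A₄ A₆ x₁ y₁ x₂ y₂ u₁ u₂ : F)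
    (h₁ : y₁ ^ 2 + A₁ * x₁ * y₁ + A₃ * y₁ = x₁ ^ 3 + A₂ * x₁ ^ 2 + A₄ * x₁ + A₆)
    (h₂ : y₂ ^ 2 + A₁ * x₂ * y₂ + A₃ * y₂ = x₂ ^ 3 + A₂ * x₂ ^ 2 + A₄ * x₂ + A₆)
    (hx : x₁ ≠ x₂) :
    (2 * ((y₁ - y₂) / (x₁ - x₂)) + A₁) *
        (((u₁ * (3 * x₁ ^ 2 + 2 * A₂ * x₁ + A₄ - A₁ * y₁)
            - u₂ * (3 * x₂ ^ 2 + 2 * A₂ * x₂ + A₄ - A₁ * y₂))
          - ((y₁ - y₂) / (x₁ - x₂)) *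
            (u₁ * (2 * y₁ + A₁ * x₁ + A₃) - u₂ * (2 * y₂ + A₁ * x₂ + A₃)))
          / (x₁ - x₂))
        - u₁ * (2 * y₁ + A₁ * x₁ + A₃) - u₂ * (2 * y₂ + A₁ * x₂ + A₃)
      = (u₁ + u₂) * (2 * (-(((y₁ - y₂) / (x₁ - x₂)) *
            ((((y₁ - y₂) / (x₁ - x₂)) ^ 2 + A₁ * ((y₁ - y₂) / (x₁ - x₂)) - A₂ - x₁ - x₂) - x₁)
              + y₁)
            - A₁ * (((y₁ - y₂) / (x₁ - x₂)) ^ 2 + A₁ * ((y₁ - y₂) / (x₁ - x₂)) - A₂ - x₁ - x₂)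
            - A₃)
          + A₁ * (((y₁ - y₂) / (x₁ - x₂)) ^ 2 + A₁ * ((y₁ - y₂) / (x₁ - x₂)) - A₂ - x₁ - x₂)
          + A₃) := by
  have hd : x₁ - x₂ ≠ 0 := sub_ne_zero.mpr hx
  field_simp
  linear_combination ((-1) * x₁ * u₁ * A₁ + x₁ * u₂ * A₁ + (-2) * y₁ * u₁ + 2 * y₁ * u₂ + x₂ * u₁ * A₁ +
        (-1) * x₂ * u₂ * A₁ + 2 * y₂ * u₁ + (-2) * y₂ * u₂) * h₁ +
      (x₁ * u₁ * A₁ + (-1) * x₁ * u₂ * A₁ + 2 * y₁ * u₁ + (-2) * y₁ * u₂ + (-1) * x₂ * u₁ * A₁ +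
        x₂ * u₂ * A₁ + (-2) * y₂ * u₁ + 2 * y₂ * u₂) * h₂

/-- Abel's identity for the `y`-coordinate, purely algebraic form (`DX` stands for `D x₃`). -/
theorem abel_alg_y (A₁ A₂ A₃ A₄ A₆ x₁ y₁ x₂ y₂ u₁ u₂ : F)
    (h₁ : y₁ ^ 2 + A₁ * x₁ * y₁ + A₃ * y₁ = x₁ ^ 3 + A₂ * x₁ ^ 2 + A₄ * x₁ + A₆)
    (h₂ : y₂ ^ 2 + A₁ * x₂ * y₂ + A₃ * y₂ = x₂ ^ 3 + A₂ * x₂ ^ 2 + A₄ * x₂ + A₆)
    (hx : x₁ ≠ x₂) :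
    -((((u₁ * (3 * x₁ ^ 2 + 2 * A₂ * x₁ + A₄ - A₁ * y₁)
            - u₂ * (3 * x₂ ^ 2 + 2 * A₂ * x₂ + A₄ - A₁ * y₂))
          - ((y₁ - y₂) / (x₁ - x₂)) *
            (u₁ * (2 * y₁ + A₁ * x₁ + A₃) - u₂ * (2 * y₂ + A₁ * x₂ + A₃)))
          / (x₁ - x₂)) *
          ((((y₁ - y₂) / (x₁ - x₂)) ^ 2 + A₁ * ((y₁ - y₂) / (x₁ - x₂)) - A₂ - x₁ - x₂) - x₁)
        + ((y₁ - y₂) / (x₁ - x₂)) *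
          (((2 * ((y₁ - y₂) / (x₁ - x₂)) + A₁) *
            (((u₁ * (3 * x₁ ^ 2 + 2 * A₂ * x₁ + A₄ - A₁ * y₁)
                - u₂ * (3 * x₂ ^ 2 + 2 * A₂ * x₂ + A₄ - A₁ * y₂))
              - ((y₁ - y₂) / (x₁ - x₂)) *
                (u₁ * (2 * y₁ + A₁ * x₁ + A₃) - u₂ * (2 * y₂ + A₁ * x₂ + A₃)))
              / (x₁ - x₂))
            - u₁ * (2 * y₁ + A₁ * x₁ + A₃) - u₂ * (2 * y₂ + A₁ * x₂ + A₃))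
            - u₁ * (2 * y₁ + A₁ * x₁ + A₃))
        + u₁ * (3 * x₁ ^ 2 + 2 * A₂ * x₁ + A₄ - A₁ * y₁))
      - A₁ * ((2 * ((y₁ - y₂) / (x₁ - x₂)) + A₁) *
            (((u₁ * (3 * x₁ ^ 2 + 2 * A₂ * x₁ + A₄ - A₁ * y₁)
                - u₂ * (3 * x₂ ^ 2 + 2 * A₂ * x₂ + A₄ - A₁ * y₂))
              - ((y₁ - y₂) / (x₁ - x₂)) *
                (u₁ * (2 * y₁ + A₁ * x₁ + A₃) - u₂ * (2 * y₂ + A₁ * x₂ + A₃)))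
              / (x₁ - x₂))
            - u₁ * (2 * y₁ + A₁ * x₁ + A₃) - u₂ * (2 * y₂ + A₁ * x₂ + A₃))
      = (u₁ + u₂) * (3 * (((y₁ - y₂) / (x₁ - x₂)) ^ 2 + A₁ * ((y₁ - y₂) / (x₁ - x₂))
              - A₂ - x₁ - x₂) ^ 2
          + 2 * A₂ * (((y₁ - y₂) / (x₁ - x₂)) ^ 2 + A₁ * ((y₁ - y₂) / (x₁ - x₂)) - A₂ - x₁ - x₂)
          + A₄
          - A₁ * (-(((y₁ - y₂) / (x₁ - x₂)) *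
            ((((y₁ - y₂) / (x₁ - x₂)) ^ 2 + A₁ * ((y₁ - y₂) / (x₁ - x₂)) - A₂ - x₁ - x₂) - x₁)
              + y₁)
            - A₁ * (((y₁ - y₂) / (x₁ - x₂)) ^ 2 + A₁ * ((y₁ - y₂) / (x₁ - x₂)) - A₂ - x₁ - x₂)
            - A₃)) := by
  have hd : x₁ - x₂ ≠ 0 := sub_ne_zero.mpr hx
  field_simp
  linear_combination (3 * x₁ ^ 3 * u₂ + (-3) * x₁ ^ 2 * x₂ * u₁ + (-6) * x₁ ^ 2 * x₂ * u₂ + x₁ ^ 2 * u₁ * A₁ ^ 2 +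
        (-1) * x₁ ^ 2 * u₁ * A₂ + (-1) * x₁ ^ 2 * u₂ * A₁ ^ 2 + x₁ ^ 2 * u₂ * A₂ +
        4 * x₁ * y₁ * u₁ * A₁ + (-4) * x₁ * y₁ * u₂ * A₁ + 6 * x₁ * x₂ ^ 2 * u₁ +
        3 * x₁ * x₂ ^ 2 * u₂ + (-2) * x₁ * x₂ * u₁ * A₁ ^ 2 + 2 * x₁ * x₂ * u₁ * A₂ +
        2 * x₁ * x₂ * u₂ * A₁ ^ 2 + (-2) * x₁ * x₂ * u₂ * A₂ + (-4) * x₁ * y₂ * u₁ * A₁ +
        4 * x₁ * y₂ * u₂ * A₁ + 3 * y₁ ^ 2 * u₁ + (-3) * y₁ ^ 2 * u₂ + (-4) * y₁ * x₂ * u₁ * A₁ +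
        4 * y₁ * x₂ * u₂ * A₁ + (-6) * y₁ * y₂ * u₁ + 6 * y₁ * y₂ * u₂ + (-3) * x₂ ^ 3 * u₂ +
        x₂ ^ 2 * u₁ * A₁ ^ 2 + 2 * x₂ ^ 2 * u₁ * A₂ + (-1) * x₂ ^ 2 * u₂ * A₁ ^ 2 +
        (-2) * x₂ ^ 2 * u₂ * A₂ + x₂ * y₂ * u₁ * A₁ + (-1) * x₂ * y₂ * u₂ * A₁ + 3 * x₂ * u₁ * A₄ +
        (-3) * x₂ * u₂ * A₄ + (-3) * y₂ * u₁ * A₃ + 3 * y₂ * u₂ * A₃ + 3 * u₁ * A₆ +
        (-3) * u₂ * A₆) * h₁ +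
      ((-3) * x₁ ^ 3 * u₁ + 3 * x₁ ^ 2 * x₂ * u₁ + 6 * x₁ ^ 2 * x₂ * u₂ +
        (-1) * x₁ ^ 2 * u₁ * A₁ ^ 2 + (-2) * x₁ ^ 2 * u₁ * A₂ + x₁ ^ 2 * u₂ * A₁ ^ 2 +
        2 * x₁ ^ 2 * u₂ * A₂ + (-1) * x₁ * y₁ * u₁ * A₁ + x₁ * y₁ * u₂ * A₁ +
        (-6) * x₁ * x₂ ^ 2 * u₁ + (-3) * x₁ * x₂ ^ 2 * u₂ + 2 * x₁ * x₂ * u₁ * A₁ ^ 2 +
        (-2) * x₁ * x₂ * u₁ * A₂ + (-2) * x₁ * x₂ * u₂ * A₁ ^ 2 + 2 * x₁ * x₂ * u₂ * A₂ +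
        4 * x₁ * y₂ * u₁ * A₁ + (-4) * x₁ * y₂ * u₂ * A₁ + (-3) * x₁ * u₁ * A₄ + 3 * x₁ * u₂ * A₄ +
        4 * y₁ * x₂ * u₁ * A₁ + (-4) * y₁ * x₂ * u₂ * A₁ + 6 * y₁ * y₂ * u₁ + (-6) * y₁ * y₂ * u₂ +
        3 * y₁ * u₁ * A₃ + (-3) * y₁ * u₂ * A₃ + 3 * x₂ ^ 3 * u₁ + (-1) * x₂ ^ 2 * u₁ * A₁ ^ 2 +
        x₂ ^ 2 * u₁ * A₂ + x₂ ^ 2 * u₂ * A₁ ^ 2 + (-1) * x₂ ^ 2 * u₂ * A₂ +
        (-4) * x₂ * y₂ * u₁ * A₁ + 4 * x₂ * y₂ * u₂ * A₁ + (-3) * y₂ ^ 2 * u₁ + 3 * y₂ ^ 2 * u₂ +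
        (-3) * u₁ * A₆ + 3 * u₂ * A₆) * h₂

end Alg

variable {k F : Type*} [Field k] [Field F] [Algebra k F]

/-- **(A4)** Abel / translation invariance of the invariant differential, chord case. -/
theorem abel_chord (W : Affine k) (D : Derivation k F F) {x₁ y₁ x₂ y₂ u₁ u₂ : F}
    (h₁ : (W⁄F).Equation x₁ y₁) (h₂ : (W⁄F).Equation x₂ y₂) (hx : x₁ ≠ x₂)
    (hx₁ : D x₁ = u₁ * (2 * y₁ + (W⁄F).a₁ * x₁ + (W⁄F).a₃))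
    (hy₁ : D y₁ = u₁ * (3 * x₁ ^ 2 + 2 * (W⁄F).a₂ * x₁ + (W⁄F).a₄ - (W⁄F).a₁ * y₁))
    (hx₂ : D x₂ = u₂ * (2 * y₂ + (W⁄F).a₁ * x₂ + (W⁄F).a₃))
    (hy₂ : D y₂ = u₂ * (3 * x₂ ^ 2 + 2 * (W⁄F).a₂ * x₂ + (W⁄F).a₄ - (W⁄F).a₁ * y₂)) :
    D ((W⁄F).addX x₁ x₂ ((y₁ - y₂) / (x₁ - x₂)))
        = (u₁ + u₂) * (2 * (W⁄F).addY x₁ x₂ y₁ ((y₁ - y₂) / (x₁ - x₂))
            + (W⁄F).a₁ * (W⁄F).addX x₁ x₂ ((y₁ - y₂) / (x₁ - x₂)) + (W⁄F).a₃) ∧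
      D ((W⁄F).addY x₁ x₂ y₁ ((y₁ - y₂) / (x₁ - x₂)))
        = (u₁ + u₂) * (3 * (W⁄F).addX x₁ x₂ ((y₁ - y₂) / (x₁ - x₂)) ^ 2
            + 2 * (W⁄F).a₂ * (W⁄F).addX x₁ x₂ ((y₁ - y₂) / (x₁ - x₂)) + (W⁄F).a₄
            - (W⁄F).a₁ * (W⁄F).addY x₁ x₂ y₁ ((y₁ - y₂) / (x₁ - x₂))) := by
  have hd : x₁ - x₂ ≠ 0 := sub_ne_zero.mpr hx
  have hA₁ : D (W⁄F).a₁ = 0 := D.map_algebraMap W.a₁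
  have hA₂ : D (W⁄F).a₂ = 0 := D.map_algebraMap W.a₂
  have hA₃ : D (W⁄F).a₃ = 0 := D.map_algebraMap W.a₃
  have e₁ := (Affine.equation_iff _ _).mp h₁
  have e₂ := (Affine.equation_iff _ _).mp h₂
  generalize hA₁' : (W⁄F).a₁ = A₁ at *
  generalize hA₂' : (W⁄F).a₂ = A₂ at *
  generalize hA₃' : (W⁄F).a₃ = A₃ at *
  generalize hA₄' : (W⁄F).a₄ = A₄ at *
  generalize hA₆' : (W⁄F).a₆ = A₆ at *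
  -- the slope and its derivative
  have hDℓ : D ((y₁ - y₂) / (x₁ - x₂))
      = ((u₁ * (3 * x₁ ^ 2 + 2 * A₂ * x₁ + A₄ - A₁ * y₁)
            - u₂ * (3 * x₂ ^ 2 + 2 * A₂ * x₂ + A₄ - A₁ * y₂))
          - ((y₁ - y₂) / (x₁ - x₂)) *
            (u₁ * (2 * y₁ + A₁ * x₁ + A₃) - u₂ * (2 * y₂ + A₁ * x₂ + A₃))) / (x₁ - x₂) := by
    have h1 : (y₁ - y₂) / (x₁ - x₂) * (x₁ - x₂) = y₁ - y₂ := div_mul_cancel₀ _ hd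
    have h2 := congrArg D h1
    rw [D.leibniz, map_sub, map_sub, smul_eq_mul, smul_eq_mul, hx₁, hx₂, hy₁, hy₂] at h2
    rw [eq_div_iff hd]
    linear_combination h2
  have hDX : D ((W⁄F).addX x₁ x₂ ((y₁ - y₂) / (x₁ - x₂)))
      = (2 * ((y₁ - y₂) / (x₁ - x₂)) + A₁) * D ((y₁ - y₂) / (x₁ - x₂))
        - u₁ * (2 * y₁ + A₁ * x₁ + A₃) - u₂ * (2 * y₂ + A₁ * x₂ + A₃) := by
    simp only [Affine.addX, hA₁', hA₂', map_sub, map_add, D.leibniz, D.leibniz_pow, hA₁, hA₂,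
      smul_eq_mul, hx₁, hx₂]
    simp only [nsmul_eq_mul]
    push_cast
    ring
  have hX : (W⁄F).addX x₁ x₂ ((y₁ - y₂) / (x₁ - x₂))
      = ((y₁ - y₂) / (x₁ - x₂)) ^ 2 + A₁ * ((y₁ - y₂) / (x₁ - x₂)) - A₂ - x₁ - x₂ := by
    simp only [Affine.addX, hA₁', hA₂']
  have hY : (W⁄F).addY x₁ x₂ y₁ ((y₁ - y₂) / (x₁ - x₂))
      = -(((y₁ - y₂) / (x₁ - x₂)) *
            ((((y₁ - y₂) / (x₁ - x₂)) ^ 2 + A₁ * ((y₁ - y₂) / (x₁ - x₂)) - A₂ - x₁ - x₂) - x₁)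
              + y₁)
            - A₁ * (((y₁ - y₂) / (x₁ - x₂)) ^ 2 + A₁ * ((y₁ - y₂) / (x₁ - x₂)) - A₂ - x₁ - x₂)
            - A₃ := by
    simp only [Affine.addY, Affine.negAddY, Affine.negY, Affine.addX, hA₁', hA₂', hA₃']
  have hDY : D ((W⁄F).addY x₁ x₂ y₁ ((y₁ - y₂) / (x₁ - x₂)))
      = -(D ((y₁ - y₂) / (x₁ - x₂)) *
            ((W⁄F).addX x₁ x₂ ((y₁ - y₂) / (x₁ - x₂)) - x₁)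
          + ((y₁ - y₂) / (x₁ - x₂)) *
            (D ((W⁄F).addX x₁ x₂ ((y₁ - y₂) / (x₁ - x₂))) - u₁ * (2 * y₁ + A₁ * x₁ + A₃))
          + u₁ * (3 * x₁ ^ 2 + 2 * A₂ * x₁ + A₄ - A₁ * y₁))
        - A₁ * D ((W⁄F).addX x₁ x₂ ((y₁ - y₂) / (x₁ - x₂))) := by
    have hYX : (W⁄F).addY x₁ x₂ y₁ ((y₁ - y₂) / (x₁ - x₂))
        = -(((y₁ - y₂) / (x₁ - x₂)) * ((W⁄F).addX x₁ x₂ ((y₁ - y₂) / (x₁ - x₂)) - x₁) + y₁)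
          - A₁ * (W⁄F).addX x₁ x₂ ((y₁ - y₂) / (x₁ - x₂)) - A₃ := by
      simp only [Affine.addY, Affine.negAddY, Affine.negY, hA₁', hA₃']
    rw [hYX]
    simp only [map_sub, map_add, map_neg, D.leibniz, hA₁, hA₃, smul_eq_mul, hx₁, hy₁]
    ring
  refine ⟨?_, ?_⟩
  · rw [hDX, hDℓ, hY, hX]
    exact abel_alg_x A₁ A₂ A₃ A₄ A₆ x₁ y₁ x₂ y₂ u₁ u₂ e₁ e₂ hx
  · rw [hDY, hDX, hDℓ, hY, hX]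
    exact abel_alg_y A₁ A₂ A₃ A₄ A₆ x₁ y₁ x₂ y₂ u₁ u₂ e₁ e₂ hx

end Fermat.Agent.Velu
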