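import Mathlib

/-!
# Vélu (E-V), leaf L-B: the asymptotic identity at `O`

`F ⊇ k` a field with a valuation `v`, `v ≤ 1` on `k`, `x ∈ F` with a pole (`1 < v x`).
For arbitrary finite data `a_i, t_i, u_i ∈ k` put
`ρ = (1/2) Σ (t_i/(x - a_i) + u_i/(x - a_i)²)`, `ρ' = -(1/2) Σ (t_i/(x - a_i)² + 2u_i/(x - a_i)³)`,
`t = (1/2) Σ t_i`, `w = (1/2) Σ (u_i + a_i t_i)`.  Then
`f(x) (1 + ρ')² - f_new(x + ρ)` vanishes at the place, where `f = 4x³ + b₂x² + 2b₄x + b₆` and
`f_new = 4X³ + b₂X² + 2(b₄ - 10t)X + (b₆ - 4b₂t - 28w)`.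
(Proof: `x²ρ - tx - w` and `x³ρ' + tx + 2w` are small; expand.)
-/

set_option autoImplicit false

namespace Fermat.Agent.Velu

variable {k F Γ₀ : Type*} [Field k] [Field F] [Algebra k F]
  [LinearOrderedCommGroupWithZero Γ₀]

/-- `ρ` as an element of `F` -/
noncomputable def rhoOf {ι : Type*} (s : Finset ι) (a t u : ι → k) (x : F) : F :=
  (∑ i ∈ s, (algebraMap k F (t i) / (x - algebraMap k F (a i))
    + algebraMap k F (u i) / (x - algebraMap k F (a i)) ^ 2)) / 2

/-- `ρ'` (the formal derivative of `ρ`) as an element of `F` -/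
noncomputable def rhoDerivOf {ι : Type*} (s : Finset ι) (a t u : ι → k) (x : F) : F :=
  -(∑ i ∈ s, (algebraMap k F (t i) / (x - algebraMap k F (a i)) ^ 2
    + 2 * algebraMap k F (u i) / (x - algebraMap k F (a i)) ^ 3)) / 2

/-- small times integral is small -/
theorem asym_small_mul (v : Valuation F Γ₀) {a b : F} (ha : v a < 1) (hb : b ∈ v.integer) :
    v (a * b) < 1 := by
  rw [map_mul]
  have hb' : v b ≤ 1 := (Valuation.mem_integer_iff _ _).1 hb
  calc v a * v b ≤ v a * 1 := mul_le_mul' le_rfl hb'
    _ = v a := mul_one _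
    _ < 1 := ha

/-- integral times small is small -/
theorem asym_mul_small (v : Valuation F Γ₀) {a b : F} (ha : a ∈ v.integer) (hb : v b < 1) :
    v (a * b) < 1 := by
  rw [mul_comm]; exact asym_small_mul v hb ha

theorem asym_small_mem (v : Valuation F Γ₀) {a : F} (ha : v a < 1) : a ∈ v.integer :=
  (Valuation.mem_integer_iff _ _).2 ha.le

theorem asym_val_sub_const (v : Valuation F Γ₀) (hv : ∀ c : k, v (algebraMap k F c) ≤ 1)
    {x : F} (hx : 1 < v x) (a : k) : v (x - algebraMap k F a) = v x := by
  rw [sub_eq_add_neg]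
  apply Valuation.map_add_eq_of_lt_left
  rw [Valuation.map_neg]
  exact lt_of_le_of_lt (hv a) hx

theorem asym_val_inv_lt (v : Valuation F Γ₀) {y : F} (hy : 1 < v y) : v y⁻¹ < 1 := by
  rw [map_inv₀]
  exact inv_lt_one_of_one_lt₀ hy

/-- the local term of `x²ρ - tx - w` -/
theorem asym_termA (v : Valuation F Γ₀) (hv : ∀ c : k, v (algebraMap k F c) ≤ 1)
    {x : F} (hx : 1 < v x) (a t u : k) :
    v (x ^ 2 * (algebraMap k F t / (x - algebraMap k F a)
          + algebraMap k F u / (x - algebraMap k F a) ^ 2)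
        - algebraMap k F t * x - algebraMap k F (u + a * t)) < 1 := by
  have hk : ∀ c : k, algebraMap k F c ∈ v.integer :=
    fun c => (Valuation.mem_integer_iff _ _).2 (hv c)
  have hvy : 1 < v (x - algebraMap k F a) := by rw [asym_val_sub_const v hv hx]; exact hx
  have hy0 : x - algebraMap k F a ≠ 0 := by
    intro h; rw [h, map_zero] at hvy; exact not_lt.2 zero_le hvy
  have hz := asym_val_inv_lt v hvy
  have hzO := asym_small_mem v hz
  have key : x ^ 2 * (algebraMap k F t / (x - algebraMap k F a)
          + algebraMap k F u / (x - algebraMap k F a) ^ 2)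
        - algebraMap k F t * x - algebraMap k F (u + a * t)
      = (x - algebraMap k F a)⁻¹ * (algebraMap k F t * algebraMap k F a ^ 2
          + 2 * algebraMap k F u * algebraMap k F a
          + algebraMap k F u * algebraMap k F a ^ 2 * (x - algebraMap k F a)⁻¹) := by
    rw [map_add, map_mul]
    field_simp
    ring
  rw [key]
  apply asym_small_mul v hz
  repeat' first
    | assumption
    | exact hk _
    | exact ofNat_mem _ _
    | apply Subring.sub_mem
    | apply Subring.add_mem
    | apply Subring.neg_mem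
    | apply Subring.mul_mem
    | apply Subring.pow_mem

/-- the local term of `x³ρ' + tx + 2w` -/
theorem asym_termB (v : Valuation F Γ₀) (hv : ∀ c : k, v (algebraMap k F c) ≤ 1)
    {x : F} (hx : 1 < v x) (a t u : k) :
    v (-(x ^ 3 * (algebraMap k F t / (x - algebraMap k F a) ^ 2
          + 2 * algebraMap k F u / (x - algebraMap k F a) ^ 3))
        + algebraMap k F t * x + 2 * algebraMap k F (u + a * t)) < 1 := by
  have hk : ∀ c : k, algebraMap k F c ∈ v.integer :=
    fun c => (Valuation.mem_integer_iff _ _).2 (hv c)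
  have hvy : 1 < v (x - algebraMap k F a) := by rw [asym_val_sub_const v hv hx]; exact hx
  have hy0 : x - algebraMap k F a ≠ 0 := by
    intro h; rw [h, map_zero] at hvy; exact not_lt.2 zero_le hvy
  have hz := asym_val_inv_lt v hvy
  have hzO := asym_small_mem v hz
  have key : -(x ^ 3 * (algebraMap k F t / (x - algebraMap k F a) ^ 2
          + 2 * algebraMap k F u / (x - algebraMap k F a) ^ 3))
        + algebraMap k F t * x + 2 * algebraMap k F (u + a * t)
      = (x - algebraMap k F a)⁻¹ * (algebraMap k F t * (-3 * algebraMap k F a ^ 2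
            - algebraMap k F a ^ 3 * (x - algebraMap k F a)⁻¹)
          + 2 * algebraMap k F u * (-3 * algebraMap k F a
            - 3 * algebraMap k F a ^ 2 * (x - algebraMap k F a)⁻¹
            - algebraMap k F a ^ 3 * ((x - algebraMap k F a)⁻¹) ^ 2)) := by
    rw [map_add, map_mul]
    field_simp
    ring
  rw [key]
  apply asym_small_mul v hz
  repeat' first
    | assumption
    | exact hk _
    | exact ofNat_mem _ _
    | apply Subring.sub_mem
    | apply Subring.add_mem
    | apply Subring.neg_mem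
    | apply Subring.mul_mem
    | apply Subring.pow_mem

/-- the algebraic core: if `x²ρ - tx - w` and `x³ρ' + tx + 2w` are small then so is
`f(x)(1+ρ')² - f_new(x+ρ)` -/
theorem asym_core (v : Valuation F Γ₀) (hv : ∀ c : k, v (algebraMap k F c) ≤ 1)
    {x ρ ρ' : F} (hx : 1 < v x) (tk wk b₂ b₄ b₆ : k)
    (hA : v (x ^ 2 * ρ - algebraMap k F tk * x - algebraMap k F wk) < 1)
    (hB : v (x ^ 3 * ρ' + algebraMap k F tk * x + 2 * algebraMap k F wk) < 1) :
    v ((4 * x ^ 3 + algebraMap k F b₂ * x ^ 2 + 2 * algebraMap k F b₄ * x + algebraMap k F b₆)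
          * (1 + ρ') ^ 2
        - (4 * (x + ρ) ^ 3 + algebraMap k F b₂ * (x + ρ) ^ 2
            + 2 * algebraMap k F (b₄ - 10 * tk) * (x + ρ)
            + algebraMap k F (b₆ - 4 * b₂ * tk - 28 * wk))) < 1 := by
  have hk : ∀ c : k, algebraMap k F c ∈ v.integer :=
    fun c => (Valuation.mem_integer_iff _ _).2 (hv c)
  have hx0 : x ≠ 0 := by
    intro h; rw [h, map_zero] at hx; exact not_lt.2 zero_le hx
  have hz : v x⁻¹ < 1 := asym_val_inv_lt v hx
  have hzO := asym_small_mem v hz
  have hAO := asym_small_mem v hA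
  have hBO := asym_small_mem v hB
  set A : F := x ^ 2 * ρ - algebraMap k F tk * x - algebraMap k F wk with hAdef
  set B : F := x ^ 3 * ρ' + algebraMap k F tk * x + 2 * algebraMap k F wk with hBdef
  set z : F := x⁻¹ with hzdef
  -- `r = xρ` and `r' = x²ρ'` are integral
  have hr : x * ρ = algebraMap k F tk + (algebraMap k F wk + A) * z := by
    rw [hAdef, hzdef]; field_simp; ring
  have hr' : x ^ 2 * ρ' = -algebraMap k F tk + (-2 * algebraMap k F wk + B) * z := by
    rw [hBdef, hzdef]; field_simp; ring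
  have hrO : x * ρ ∈ v.integer := by
    rw [hr]
    repeat' first
      | assumption
      | exact hk _
      | exact ofNat_mem _ _
      | apply Subring.sub_mem
      | apply Subring.add_mem
      | apply Subring.neg_mem
      | apply Subring.mul_mem
      | apply Subring.pow_mem
  have hr'O : x ^ 2 * ρ' ∈ v.integer := by
    rw [hr']
    repeat' first
      | assumption
      | exact hk _
      | exact ofNat_mem _ _
      | apply Subring.sub_mem
      | apply Subring.add_mem
      | apply Subring.neg_mem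
      | apply Subring.mul_mem
      | apply Subring.pow_mem
  set r : F := x * ρ with hrdef
  set r' : F := x ^ 2 * ρ' with hr'def
  have key : (4 * x ^ 3 + algebraMap k F b₂ * x ^ 2 + 2 * algebraMap k F b₄ * x
            + algebraMap k F b₆) * (1 + ρ') ^ 2
        - (4 * (x + ρ) ^ 3 + algebraMap k F b₂ * (x + ρ) ^ 2
            + 2 * algebraMap k F (b₄ - 10 * tk) * (x + ρ)
            + algebraMap k F (b₆ - 4 * b₂ * tk - 28 * wk))
      = B * 8 + A * (-12) + z * (2 * algebraMap k F b₂ * (-2 * algebraMap k F wk + B)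
          + 4 * algebraMap k F b₄ * r' + 2 * algebraMap k F b₆ * z * r'
          - 4 * algebraMap k F tk * r' + 4 * (-2 * algebraMap k F wk + B) * z * r'
          + algebraMap k F b₂ * r' ^ 2 * z + 2 * algebraMap k F b₄ * z ^ 2 * r' ^ 2
          + algebraMap k F b₆ * z ^ 3 * r' ^ 2 - 12 * r ^ 2 - 4 * z ^ 2 * r ^ 3
          - 2 * algebraMap k F b₂ * (algebraMap k F wk + A) - algebraMap k F b₂ * z * r ^ 2
          - 2 * algebraMap k F b₄ * r + 20 * algebraMap k F tk * r) := by
    rw [hrdef, hr'def, hAdef, hBdef, hzdef]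
    simp only [map_sub, map_mul, map_ofNat]
    field_simp
    ring
  rw [key]
  refine Valuation.map_add_lt _ (Valuation.map_add_lt _ ?_ ?_) ?_
  · exact asym_small_mul v hB (ofNat_mem _ _)
  · exact asym_small_mul v hA (Subring.neg_mem _ (ofNat_mem _ _))
  · apply asym_small_mul v hz
    repeat' first
      | assumption
      | exact hk _
      | exact ofNat_mem _ _
      | apply Subring.sub_mem
      | apply Subring.add_mem
      | apply Subring.neg_mem
      | apply Subring.mul_mem
      | apply Subring.pow_mem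

/-- **(L-B)** -/
theorem asym_Z (v : Valuation F Γ₀) (hv : ∀ c : k, v (algebraMap k F c) ≤ 1) (h2 : (2 : k) ≠ 0)
    {x : F} (hx : 1 < v x) {ι : Type*} (s : Finset ι) (a t u : ι → k) (b₂ b₄ b₆ : k) :
    v ((4 * x ^ 3 + algebraMap k F b₂ * x ^ 2 + 2 * algebraMap k F b₄ * x + algebraMap k F b₆)
          * (1 + rhoDerivOf s a t u x) ^ 2
        - (4 * (x + rhoOf s a t u x) ^ 3 + algebraMap k F b₂ * (x + rhoOf s a t u x) ^ 2
            + 2 * algebraMap k F (b₄ - 10 * ((∑ i ∈ s, t i) / 2)) * (x + rhoOf s a t u x)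
            + algebraMap k F (b₆ - 4 * b₂ * ((∑ i ∈ s, t i) / 2)
                - 28 * ((∑ i ∈ s, (u i + a i * t i)) / 2)))) < 1 := by
  have h2F : (2 : F) ≠ 0 := by
    have := (map_ne_zero (algebraMap k F)).2 h2
    rwa [map_ofNat] at this
  have hv2 : v (2 : F) = 1 := by
    apply le_antisymm
    · have := hv 2; rwa [map_ofNat] at this
    · have h := hv (2⁻¹)
      rw [map_inv₀, map_ofNat, map_inv₀] at h
      have hpos : 0 < v (2 : F) := by
        rw [Valuation.pos_iff]; exact h2F
      by_contra hlt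
      rw [not_le] at hlt
      have : 1 < (v (2 : F))⁻¹ := (one_lt_inv₀ hpos).2 hlt
      exact not_lt.2 h this
  have hhalf : ∀ y : F, v y < 1 → v (y / 2) < 1 := by
    intro y hy
    rw [map_div₀, hv2, div_one]; exact hy
  apply asym_core v hv hx
  · -- `A`
    have : x ^ 2 * rhoOf s a t u x - algebraMap k F ((∑ i ∈ s, t i) / 2) * x
          - algebraMap k F ((∑ i ∈ s, (u i + a i * t i)) / 2)
        = (∑ i ∈ s, (x ^ 2 * (algebraMap k F (t i) / (x - algebraMap k F (a i))
            + algebraMap k F (u i) / (x - algebraMap k F (a i)) ^ 2)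
          - algebraMap k F (t i) * x - algebraMap k F (u i + a i * t i))) / 2 := by
      rw [rhoOf, Finset.sum_sub_distrib, Finset.sum_sub_distrib, ← Finset.mul_sum,
        ← Finset.sum_mul, map_div₀, map_div₀, map_sum, map_sum, map_ofNat]
      ring
    rw [this]
    apply hhalf
    apply Valuation.map_sum_lt _ one_ne_zero
    intro i _
    exact asym_termA v hv hx (a i) (t i) (u i)
  · -- `B`
    have : x ^ 3 * rhoDerivOf s a t u x + algebraMap k F ((∑ i ∈ s, t i) / 2) * x
          + 2 * algebraMap k F ((∑ i ∈ s, (u i + a i * t i)) / 2)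
        = (∑ i ∈ s, (-(x ^ 3 * (algebraMap k F (t i) / (x - algebraMap k F (a i)) ^ 2
            + 2 * algebraMap k F (u i) / (x - algebraMap k F (a i)) ^ 3))
          + algebraMap k F (t i) * x + 2 * algebraMap k F (u i + a i * t i))) / 2 := by
      rw [rhoDerivOf]
      simp only [Finset.sum_add_distrib, Finset.sum_neg_distrib, ← Finset.mul_sum,
        ← Finset.sum_mul, map_div₀, map_sum, map_ofNat, map_add, map_mul]
      ring
    rw [this]
    apply hhalf
    apply Valuation.map_sum_lt _ one_ne_zero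
    intro i _
    exact asym_termB v hv hx (a i) (t i) (u i)

end Fermat.Agent.Velu
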