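import Mathlib

/-!
# Vélu (E-V), leaves A1, A2: the pair formulas

For two affine points `P = (x, y)`, `Q = (a, b)` of a Weierstrass curve over a field, `x ≠ a`:
* `x(P + Q) + x(P - Q) = 2a + t/(x - a) + u/(x - a)²`,
* `η(P + Q) + η(P - Q) = -η(P) (t/(x - a)² + 2u/(x - a)³)`,  `η = 2y + a₁x + a₃`,
where `t = 6a² + b₂a + b₄`, `u = 4a³ + b₂a² + 2b₄a + b₆`.
-/

set_option autoImplicit false

open WeierstrassCurve

namespace Fermat.Agent.Velu

variable {F : Type*} [Field F]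

/-- **(A1)** the pair formula for `x`. -/
theorem pair_addX (W : Affine F) {x y a b : F} (h : W.Equation x y) (hq : W.Equation a b)
    (hx : x ≠ a) :
    W.addX x a ((y - b) / (x - a)) + W.addX x a ((y - W.negY a b) / (x - a))
      = 2 * a + (6 * a ^ 2 + W.b₂ * a + W.b₄) / (x - a)
          + (4 * a ^ 3 + W.b₂ * a ^ 2 + 2 * W.b₄ * a + W.b₆) / (x - a) ^ 2 := by
  have hd : x - a ≠ 0 := sub_ne_zero.2 hx
  rw [Affine.equation_iff] at h hq
  simp only [Affine.addX, Affine.negY, WeierstrassCurve.b₂, WeierstrassCurve.b₄,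
    WeierstrassCurve.b₆]
  field_simp
  linear_combination 2 * h + 2 * hq

/-- **(A2)** the pair formula for `η = 2y + a₁x + a₃`. -/
theorem pair_eta (W : Affine F) {x y a b : F} (h : W.Equation x y) (hq : W.Equation a b)
    (hx : x ≠ a) :
    (2 * W.addY x a y ((y - b) / (x - a)) + W.a₁ * W.addX x a ((y - b) / (x - a)) + W.a₃)
        + (2 * W.addY x a y ((y - W.negY a b) / (x - a))
            + W.a₁ * W.addX x a ((y - W.negY a b) / (x - a)) + W.a₃)
      = -(2 * y + W.a₁ * x + W.a₃) * ((6 * a ^ 2 + W.b₂ * a + W.b₄) / (x - a) ^ 2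
          + 2 * (4 * a ^ 3 + W.b₂ * a ^ 2 + 2 * W.b₄ * a + W.b₆) / (x - a) ^ 3) := by
  have hd : x - a ≠ 0 := sub_ne_zero.2 hx
  rw [Affine.equation_iff] at h hq
  simp only [Affine.addY, Affine.negAddY, Affine.addX, Affine.negY, WeierstrassCurve.b₂,
    WeierstrassCurve.b₄, WeierstrassCurve.b₆]
  field_simp
  linear_combination (-4 * y - 2 * x * W.a₁ - 2 * W.a₃) * h
    + (-12 * y - 6 * x * W.a₁ - 6 * W.a₃) * hq

end Fermat.Agent.Velu
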