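import Fermat.Agent.E.Velu.Lift

/-!
# Vélu (V1), infrastructure I1b: translations of the function field

For `T : W.Point` (over the algebraically closed field `k`), `translHom W T : F →ₐ[k] F` is the
`k`-algebra homomorphism with `(x, y) ↦` coordinates of `genPt + constPt T`, computed with
Mathlib's group law on `(W⁄F).Point`.
-/

set_option autoImplicit false

open WeierstrassCurve Polynomial
open scoped Polynomial.Bivariate WeierstrassCurve.Affine

namespace Fermat.Agent.Velu

noncomputable section

variable {k : Type*} [Field k] (W : Affine k)

/-- `x`-coordinate of a point over the function field (`0` at the origin). -/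
def ptXF : (W⁄W.FunctionField).Point → W.FunctionField
  | .zero => 0
  | .some x _ _ => x

/-- `y`-coordinate of a point over the function field (`0` at the origin). -/
def ptYF : (W⁄W.FunctionField).Point → W.FunctionField
  | .zero => 0
  | .some _ y _ => y

variable {W} in
theorem nonsingular_ptXF_ptYF {Q : (W⁄W.FunctionField).Point} (hQ : Q ≠ 0) :
    (W⁄W.FunctionField).Nonsingular (ptXF W Q) (ptYF W Q) := by
  cases Q with
  | zero => exact absurd rfl hQ
  | some x y h => exact h

variable {W} in
theorem eq_some_ptXF_ptYF {Q : (W⁄W.FunctionField).Point} (hQ : Q ≠ 0) :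
    Q = .some (ptXF W Q) (ptYF W Q) (nonsingular_ptXF_ptYF hQ) := by
  cases Q with
  | zero => exact absurd rfl hQ
  | some x y h => rfl

theorem aeval_xg (p : k[X]) : aeval (xg W) p = algebraMap k[X] W.FunctionField p := by
  have : xg W = algebraMap k[X] W.FunctionField X := by
    rw [IsScalarTower.algebraMap_apply k[X] W.CoordinateRing W.FunctionField]
    rfl
  rw [this, aeval_algebraMap_apply, aeval_X_left_apply]

theorem algebraMap_polynomial_injective :
    Function.Injective (algebraMap k[X] W.FunctionField) := by
  rw [IsScalarTower.algebraMap_eq k[X] W.CoordinateRing W.FunctionField]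
  exact (IsFractionRing.injective W.CoordinateRing W.FunctionField).comp
    (FaithfulSMul.algebraMap_injective k[X] W.CoordinateRing)

theorem xg_transcendental : Transcendental k (xg W) := by
  rw [transcendental_iff_injective]
  intro p q hpq
  rw [aeval_xg, aeval_xg] at hpq
  exact algebraMap_polynomial_injective W hpq

theorem xg_ne_algebraMap (c : k) : xg W ≠ algebraMap k W.FunctionField c := by
  intro h
  exact xg_transcendental W (h ▸ isAlgebraic_algebraMap c)

section AlgClosed

variable [IsAlgClosed k]

/-- Algebraic elements of the function field are constants. -/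
theorem exists_eq_algebraMap_of_isAlgebraic {f : W.FunctionField} (hf : IsAlgebraic k f) :
    ∃ c : k, f = algebraMap k W.FunctionField c := by
  have hint : IsIntegral k f := hf.isIntegral
  have hdeg := IsAlgClosed.degree_eq_one_of_irreducible k (minpoly.irreducible hint)
  obtain ⟨c, hc⟩ := minpoly.mem_range_of_degree_eq_one k f hdeg
  exact ⟨c, hc.symm⟩

variable [DecidableEq k] [W.IsElliptic]

/-- A point over the function field with algebraic `x`-coordinate is constant. -/
theorem exists_constPt_of_isAlgebraic {x' y' : W.FunctionField}
    (h : (W⁄W.FunctionField).Nonsingular x' y') (hx : IsAlgebraic k x') :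
    ∃ P : W.Point, Affine.Point.some x' y' h = constPt W P := by
  obtain ⟨c, rfl⟩ := exists_eq_algebraMap_of_isAlgebraic W hx
  have heq := (Affine.equation_iff _ _).1 h.1
  have hy : IsAlgebraic k y' := by
    refine ⟨X ^ 2 + C (W.a₁ * c + W.a₃) * X - C (c ^ 3 + W.a₂ * c ^ 2 + W.a₄ * c + W.a₆), ?_, ?_⟩
    · intro h0
      have hd : (X ^ 2 + C (W.a₁ * c + W.a₃) * X
          - C (c ^ 3 + W.a₂ * c ^ 2 + W.a₄ * c + W.a₆) : k[X]).natDegree = 2 := by
        have e : (X ^ 2 + C (W.a₁ * c + W.a₃) * X
            - C (c ^ 3 + W.a₂ * c ^ 2 + W.a₄ * c + W.a₆) : k[X])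
            = C 1 * X ^ 2 + C (W.a₁ * c + W.a₃) * X
              + C (-(c ^ 3 + W.a₂ * c ^ 2 + W.a₄ * c + W.a₆)) := by
          rw [C_1, one_mul, C_neg]; ring
        rw [e]
        exact natDegree_quadratic one_ne_zero
      rw [h0, natDegree_zero] at hd
      exact absurd hd (by norm_num)
    · have e1 : (W⁄W.FunctionField).a₁ = algebraMap k _ W.a₁ := rfl
      have e2 : (W⁄W.FunctionField).a₂ = algebraMap k _ W.a₂ := rfl
      have e3 : (W⁄W.FunctionField).a₃ = algebraMap k _ W.a₃ := rfl
      have e4 : (W⁄W.FunctionField).a₄ = algebraMap k _ W.a₄ := rfl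
      have e6 : (W⁄W.FunctionField).a₆ = algebraMap k _ W.a₆ := rfl
      rw [e1, e2, e3, e4, e6] at heq
      simp only [map_sub, map_add, map_mul, map_pow, aeval_X, aeval_C]
      linear_combination heq
  obtain ⟨d, rfl⟩ := exists_eq_algebraMap_of_isAlgebraic W hy
  have h0 : W.Nonsingular c d :=
    (Affine.map_nonsingular W (algebraMap k W.FunctionField).injective c d).1 h
  exact ⟨.some c d h0, rfl⟩

theorem genPt_ne_constPt (P : W.Point) : genPt W ≠ constPt W P := by
  cases P with
  | zero => intro h; cases h
  | some c d h0 =>
    intro h
    rw [constPt_some] at h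
    have := (Affine.Point.some.inj h).1
    exact xg_ne_algebraMap W c this

theorem genPt_add_constPt_ne_zero (T : W.Point) : genPt W + constPt W T ≠ 0 := by
  intro h
  have : genPt W = constPt W (-T) := by
    rw [map_neg]; exact eq_neg_of_add_eq_zero_left h
  exact genPt_ne_constPt W _ this

theorem transcendental_ptXF_add (T : W.Point) :
    Transcendental k (ptXF W (genPt W + constPt W T)) := by
  intro halg
  have hne := genPt_add_constPt_ne_zero W T
  obtain ⟨P, hP⟩ := exists_constPt_of_isAlgebraic W (nonsingular_ptXF_ptYF hne) halg
  rw [← eq_some_ptXF_ptYF hne] at hP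
  have : genPt W = constPt W (P - T) := by
    rw [map_sub, ← hP, add_sub_cancel_right]
  exact genPt_ne_constPt W _ this

/-- Translation by `T` as a `k`-algebra endomorphism of the function field. -/
def translHom (T : W.Point) : W.FunctionField →ₐ[k] W.FunctionField :=
  liftF (W := W) (nonsingular_ptXF_ptYF (genPt_add_constPt_ne_zero W T)).1
    (transcendental_ptXF_add W T)

theorem translHom_xg (T : W.Point) :
    translHom W T (xg W) = ptXF W (genPt W + constPt W T) := liftF_xg _ _

theorem translHom_yg (T : W.Point) :
    translHom W T (yg W) = ptYF W (genPt W + constPt W T) := liftF_yg _ _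

/-- The translate of the generic point. -/
theorem map_translHom_genPt (T : W.Point) :
    Affine.Point.map (W' := W) (translHom W T) (genPt W) = genPt W + constPt W T := by
  rw [eq_some_ptXF_ptYF (genPt_add_constPt_ne_zero W T)]
  show Affine.Point.map (W' := W) (translHom W T) (.some (xg W) (yg W) (nonsingular_gen W)) = _
  rw [Affine.Point.map_some]
  congr 1
  · exact translHom_xg W T
  · exact translHom_yg W T

theorem ptXF_map (f : W.FunctionField →ₐ[k] W.FunctionField) (Q : (W⁄W.FunctionField).Point) :
    ptXF W (Affine.Point.map (W' := W) f Q) = f (ptXF W Q) := by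
  cases Q with
  | zero => exact (map_zero f).symm
  | some x y h => rfl

theorem ptYF_map (f : W.FunctionField →ₐ[k] W.FunctionField) (Q : (W⁄W.FunctionField).Point) :
    ptYF W (Affine.Point.map (W' := W) f Q) = f (ptYF W Q) := by
  cases Q with
  | zero => exact (map_zero f).symm
  | some x y h => rfl

theorem map_translHom_add (S T : W.Point) :
    Affine.Point.map (W' := W) (translHom W S) (genPt W + constPt W T)
      = genPt W + constPt W (S + T) := by
  rw [map_add, map_translHom_genPt, map_constPt, map_add, add_assoc]

theorem translHom_comp (S T : W.Point) :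
    (translHom W S).comp (translHom W T) = translHom W (S + T) := by
  apply algHom_ext_gen
  · rw [AlgHom.comp_apply, translHom_xg, ← ptXF_map, map_translHom_add, translHom_xg]
  · rw [AlgHom.comp_apply, translHom_yg, ← ptYF_map, map_translHom_add, translHom_yg]

theorem translHom_zero : translHom W (0 : W.Point) = AlgHom.id k W.FunctionField := by
  apply algHom_ext_gen
  · rw [translHom_xg, map_zero, add_zero]; rfl
  · rw [translHom_yg, map_zero, add_zero]; rfl

/-- Translation by `T` on the function field: `(transl T f)(P) = f(P + T)`. -/
def transl (T : W.Point) : W.FunctionField ≃ₐ[k] W.FunctionField :=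
  AlgEquiv.ofAlgHom (translHom W T) (translHom W (-T))
    (by rw [translHom_comp, add_neg_cancel, translHom_zero])
    (by rw [translHom_comp, neg_add_cancel, translHom_zero])

theorem transl_apply (T : W.Point) (f : W.FunctionField) : transl W T f = translHom W T f := rfl

theorem coe_transl (T : W.Point) :
    ((transl W T : W.FunctionField ≃ₐ[k] W.FunctionField) : W.FunctionField →ₐ[k] W.FunctionField)
      = translHom W T := rfl

theorem transl_zero : transl W (0 : W.Point) = AlgEquiv.refl := by
  ext f
  rw [transl_apply, translHom_zero]; rfl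

/-- `τ_S ∘ τ_T = τ_{S+T}`. -/
theorem transl_transl (S T : W.Point) (f : W.FunctionField) :
    transl W S (transl W T f) = transl W (S + T) f := by
  rw [transl_apply, transl_apply, transl_apply, ← translHom_comp]; rfl

theorem transl_neg_transl (T : W.Point) (f : W.FunctionField) :
    transl W (-T) (transl W T f) = f := by
  rw [transl_transl, neg_add_cancel, transl_zero]; rfl

theorem transl_transl_neg (T : W.Point) (f : W.FunctionField) :
    transl W T (transl W (-T) f) = f := by
  rw [transl_transl, add_neg_cancel, transl_zero]; rfl

/-- The translate of the generic point. -/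
theorem map_transl_genPt (T : W.Point) :
    Affine.Point.map (W' := W) (transl W T : W.FunctionField →ₐ[k] W.FunctionField) (genPt W)
      = genPt W + constPt W T :=
  map_translHom_genPt W T

/-- Coordinates of the translate of the generic point by an affine point. -/
theorem genPt_add_constPt_some {a b : k} (h : W.Nonsingular a b) :
    genPt W + constPt W (.some a b h) = .some _ _
      (Affine.nonsingular_add (nonsingular_gen W)
        ((Affine.map_nonsingular W (algebraMap k W.FunctionField).injective a b).2 h)
        (fun hxy => xg_ne_algebraMap W a hxy.1)) :=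
  Affine.Point.add_of_X_ne (W := W⁄W.FunctionField) (h₁ := nonsingular_gen W)
    (h₂ := (Affine.map_nonsingular W (algebraMap k W.FunctionField).injective a b).2 h)
    (xg_ne_algebraMap W a)

theorem transl_xg' {a b : k} (h : W.Nonsingular a b) :
    transl W (.some a b h) (xg W)
      = (W⁄W.FunctionField).addX (xg W) (algebraMap k _ a)
          ((yg W - algebraMap k _ b) / (xg W - algebraMap k _ a)) := by
  rw [transl_apply, translHom_xg, genPt_add_constPt_some W h]
  show (W⁄W.FunctionField).addX (xg W) (algebraMap k _ a) _ = _
  rw [Affine.slope_of_X_ne (xg_ne_algebraMap W a)]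

theorem transl_yg' {a b : k} (h : W.Nonsingular a b) :
    transl W (.some a b h) (yg W)
      = (W⁄W.FunctionField).addY (xg W) (algebraMap k _ a) (yg W)
          ((yg W - algebraMap k _ b) / (xg W - algebraMap k _ a)) := by
  rw [transl_apply, translHom_yg, genPt_add_constPt_some W h]
  show (W⁄W.FunctionField).addY (xg W) (algebraMap k _ a) (yg W) _ = _
  rw [Affine.slope_of_X_ne (xg_ne_algebraMap W a)]

theorem transl_xg {a b : k} (h : W.Nonsingular a b) :
    transl W (.some a b h) (xg W)
      = ((yg W - algebraMap k _ b) / (xg W - algebraMap k _ a)) ^ 2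
          + algebraMap k _ W.a₁ * ((yg W - algebraMap k _ b) / (xg W - algebraMap k _ a))
          - algebraMap k _ W.a₂ - xg W - algebraMap k _ a := by
  rw [transl_xg']
  rfl

theorem transl_yg {a b : k} (h : W.Nonsingular a b) :
    transl W (.some a b h) (yg W)
      = -(((yg W - algebraMap k _ b) / (xg W - algebraMap k _ a))
            * (transl W (.some a b h) (xg W) - xg W) + yg W)
          - algebraMap k _ W.a₁ * transl W (.some a b h) (xg W) - algebraMap k _ W.a₃ := by
  rw [transl_yg', transl_xg']
  rfl

end AlgClosed

end

end Fermat.Agent.Velu
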