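import Fermat.Agent.E.Velu.ValO
import Fermat.Agent.E.Velu.Transl
import Fermat.Agent.E.S12.VeluSpec
import Fermat.Agent.E.Velu.Pair
import Fermat.Agent.E.Velu.Asym

/-!
# Vélu (E-V): the functions `X`, `Y`, `U` in the function field

`C` a finite subgroup of `W.Point`, `Cf` its finset, `Cs = Cf \ {0}`.
* `Xf = Σ_{T ∈ C} (τ_T x - x_T)`, `Yf = Σ_{T ∈ C} (τ_T y - y_T)`, `Uf = Σ_{T ∈ C} τ_T η`;
* `Xf = x + ρ(x)`, `Uf = η (1 + ρ'(x))` (pair formulas), `Uf = 2 Yf + a₁ Xf + a₃`;
* `Xf`, `Yf`, `Uf` are invariant under the translations by `C`.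
-/

set_option autoImplicit false
set_option linter.unusedSectionVars false

open WeierstrassCurve Polynomial
open scoped WeierstrassCurve.Affine

namespace Fermat.Agent.Velu

noncomputable section

open Fermat.Agent.EV (ptX ptY veluT veluU)

section Basic

variable {k : Type*} [Field k] [DecidableEq k] {W : Affine k}

theorem ptX_neg (T : W.Point) : ptX (-T) = ptX T := by
  cases T with
  | zero => rfl
  | some x y h => rfl

theorem ptY_neg {T : W.Point} (hT : T ≠ 0) : ptY (-T) = W.negY (ptX T) (ptY T) := by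
  cases T with
  | zero => exact absurd rfl hT
  | some x y h => rfl

theorem veluT_neg (T : W.Point) : veluT W (-T) = veluT W T := by
  unfold veluT; rw [ptX_neg]

theorem veluU_neg (T : W.Point) : veluU W (-T) = veluU W T := by
  unfold veluU; rw [ptX_neg]

theorem eq_some_ptX_ptY {T : W.Point} (hT : T ≠ 0) :
    ∃ h : W.Nonsingular (ptX T) (ptY T), T = .some (ptX T) (ptY T) h := by
  cases T with
  | zero => exact absurd rfl hT
  | some x y h => exact ⟨h, rfl⟩

/-- `η(T) = 2 y_T + a₁ x_T + a₃` for a point (`0` at the origin) -/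
def ptEta (T : W.Point) : k :=
  match T with
  | .zero => 0
  | .some x y _ => 2 * y + W.a₁ * x + W.a₃

theorem ptEta_neg (T : W.Point) : ptEta (-T) = -ptEta T := by
  cases T with
  | zero => exact neg_zero.symm
  | some x y h =>
    show 2 * W.negY x y + W.a₁ * x + W.a₃ = -(2 * y + W.a₁ * x + W.a₃)
    rw [Affine.negY]; ring

theorem ptEta_eq {T : W.Point} (hT : T ≠ 0) : ptEta T = 2 * ptY T + W.a₁ * ptX T + W.a₃ := by
  cases T with
  | zero => exact absurd rfl hT
  | some x y h => rfl

end Basic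

/-! ### finite subgroups -/

section Subgroup

variable {k : Type*} [Field k] [DecidableEq k] {W : Affine k}
  (C : AddSubgroup W.Point) (hC : (C : Set W.Point).Finite)

/-- the finset of the points of `C` -/
def Cf : Finset W.Point := hC.toFinset

/-- the finset of the nonzero points of `C` -/
def Cs : Finset W.Point := (Cf C hC).erase 0

variable {C hC}

@[simp] theorem mem_Cf {T : W.Point} : T ∈ Cf C hC ↔ T ∈ C := by
  simp [Cf]

@[simp] theorem mem_Cs {T : W.Point} : T ∈ Cs C hC ↔ T ∈ C ∧ T ≠ 0 := by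
  simp [Cs, and_comm]

variable (C hC)

theorem sum_Cf {M : Type*} [AddCommMonoid M] (g : W.Point → M) :
    ∑ T ∈ Cf C hC, g T = g 0 + ∑ T ∈ Cs C hC, g T := by
  rw [Cs, Finset.add_sum_erase _ _ (mem_Cf.2 C.zero_mem)]

theorem sum_Cs_neg {M : Type*} [AddCommMonoid M] (g : W.Point → M) :
    ∑ T ∈ Cs C hC, g (-T) = ∑ T ∈ Cs C hC, g T := by
  refine Finset.sum_nbij' (fun T => -T) (fun T => -T) ?_ ?_ ?_ ?_ ?_
  · intro T hT; rw [mem_Cs] at hT ⊢; exact ⟨C.neg_mem hT.1, neg_ne_zero.2 hT.2⟩
  · intro T hT; rw [mem_Cs] at hT ⊢; exact ⟨C.neg_mem hT.1, neg_ne_zero.2 hT.2⟩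
  · intro T _; exact neg_neg T
  · intro T _; exact neg_neg T
  · intro T _; rfl

theorem sum_Cf_add_left {M : Type*} [AddCommMonoid M] (g : W.Point → M) {D : W.Point}
    (hD : D ∈ C) : ∑ T ∈ Cf C hC, g (D + T) = ∑ T ∈ Cf C hC, g T := by
  refine Finset.sum_nbij' (fun T => D + T) (fun T => -D + T) ?_ ?_ ?_ ?_ ?_
  · intro T hT; rw [mem_Cf] at hT ⊢; exact C.add_mem hD hT
  · intro T hT; rw [mem_Cf] at hT ⊢; exact C.add_mem (C.neg_mem hD) hT
  · intro T _; simp
  · intro T _; simp
  · intro T _; rfl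

/-- pairing `T ↔ -T` -/
theorem two_mul_sum_Cs {M : Type*} [AddCommMonoid M] (g : W.Point → M) :
    ∑ T ∈ Cs C hC, (g T + g (-T)) = ∑ T ∈ Cs C hC, g T + ∑ T ∈ Cs C hC, g T := by
  rw [Finset.sum_add_distrib, sum_Cs_neg]

theorem sum_ptEta_Cs : ∑ T ∈ Cs C hC, ptEta T = 0 ∨ (2 : k) = 0 := by
  by_cases h2 : (2 : k) = 0
  · exact Or.inr h2
  left
  have h := two_mul_sum_Cs C hC (fun T : W.Point => ptEta T)
  have h0 : ∑ T ∈ Cs C hC, (ptEta T + ptEta (-T)) = 0 :=
    Finset.sum_eq_zero (fun T _ => by rw [ptEta_neg, add_neg_cancel])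
  rw [h0] at h
  have : (2 : k) * ∑ T ∈ Cs C hC, ptEta T = 0 := by rw [two_mul]; exact h.symm
  exact (mul_eq_zero.1 this).resolve_left h2

end Subgroup

/-! ### the function field -/

section FF

variable {k : Type*} [Field k] [DecidableEq k] [IsAlgClosed k] (W : Affine k) [W.IsElliptic]

/-- `η = 2y + a₁x + a₃` in the function field. -/
def etaF : W.FunctionField :=
  2 * yg W + algebraMap k W.FunctionField W.a₁ * xg W + algebraMap k W.FunctionField W.a₃

theorem transl_etaF (T : W.Point) :
    transl W T (etaF W) = 2 * transl W T (yg W)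
      + algebraMap k W.FunctionField W.a₁ * transl W T (xg W)
      + algebraMap k W.FunctionField W.a₃ := by
  unfold etaF
  rw [map_add, map_add, map_mul, map_mul, AlgEquiv.commutes, AlgEquiv.commutes, map_ofNat]

theorem equation_const {a b : k} (h : W.Equation a b) :
    (W⁄W.FunctionField).Equation (algebraMap k W.FunctionField a)
      (algebraMap k W.FunctionField b) :=
  Affine.Equation.map (algebraMap k W.FunctionField) h

theorem algebraMap_negY (a b : k) :
    algebraMap k W.FunctionField (W.negY a b)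
      = (W⁄W.FunctionField).negY (algebraMap k W.FunctionField a)
          (algebraMap k W.FunctionField b) :=
  (Affine.map_negY (W' := W) (f := algebraMap k W.FunctionField) (x := a) (y := b)).symm

/-- the pair formula for `x` in the function field -/
theorem transl_add_neg_xg {T : W.Point} (hT : T ≠ 0) :
    transl W T (xg W) + transl W (-T) (xg W)
      = 2 * algebraMap k W.FunctionField (ptX T)
        + algebraMap k W.FunctionField (veluT W T)
            / (xg W - algebraMap k W.FunctionField (ptX T))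
        + algebraMap k W.FunctionField (veluU W T)
            / (xg W - algebraMap k W.FunctionField (ptX T)) ^ 2 := by
  cases T with
  | zero => exact absurd rfl hT
  | some a b h =>
    rw [Affine.Point.neg_some, transl_xg', transl_xg', algebraMap_negY]
    have key := pair_addX (W⁄W.FunctionField) (equation_gen W) (equation_const W h.1)
      (xg_ne_algebraMap W a)
    rw [key]
    show _ = 2 * algebraMap k W.FunctionField a
        + algebraMap k W.FunctionField (6 * a ^ 2 + W.b₂ * a + W.b₄)
            / (xg W - algebraMap k W.FunctionField a)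
        + algebraMap k W.FunctionField (4 * a ^ 3 + W.b₂ * a ^ 2 + 2 * W.b₄ * a + W.b₆)
            / (xg W - algebraMap k W.FunctionField a) ^ 2
    have e₂ : (W⁄W.FunctionField).b₂ = algebraMap k W.FunctionField W.b₂ := W.map_b₂ _
    have e₄ : (W⁄W.FunctionField).b₄ = algebraMap k W.FunctionField W.b₄ := W.map_b₄ _
    have e₆ : (W⁄W.FunctionField).b₆ = algebraMap k W.FunctionField W.b₆ := W.map_b₆ _
    rw [e₂, e₄, e₆]
    simp only [map_add, map_mul, map_pow, map_ofNat]

theorem transl_etaF_some {a b : k} (h : W.Nonsingular a b) :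
    transl W (.some a b h) (etaF W)
      = 2 * (W⁄W.FunctionField).addY (xg W) (algebraMap k _ a) (yg W)
          ((yg W - algebraMap k _ b) / (xg W - algebraMap k _ a))
        + (W⁄W.FunctionField).a₁ * (W⁄W.FunctionField).addX (xg W) (algebraMap k _ a)
          ((yg W - algebraMap k _ b) / (xg W - algebraMap k _ a))
        + (W⁄W.FunctionField).a₃ := by
  rw [transl_etaF, transl_xg', transl_yg']
  rfl

theorem etaF_eq : etaF W = 2 * yg W + (W⁄W.FunctionField).a₁ * xg W + (W⁄W.FunctionField).a₃ :=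
  rfl

/-- the pair formula for `η` in the function field -/
theorem transl_add_neg_etaF {T : W.Point} (hT : T ≠ 0) :
    transl W T (etaF W) + transl W (-T) (etaF W)
      = -etaF W * (algebraMap k W.FunctionField (veluT W T)
            / (xg W - algebraMap k W.FunctionField (ptX T)) ^ 2
          + 2 * algebraMap k W.FunctionField (veluU W T)
            / (xg W - algebraMap k W.FunctionField (ptX T)) ^ 3) := by
  cases T with
  | zero => exact absurd rfl hT
  | some a b h =>
    rw [Affine.Point.neg_some, transl_etaF_some, transl_etaF_some, algebraMap_negY]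
    have key := pair_eta (W⁄W.FunctionField) (equation_gen W) (equation_const W h.1)
      (xg_ne_algebraMap W a)
    rw [key, etaF_eq]
    show _ = -(2 * yg W + (W⁄W.FunctionField).a₁ * xg W + (W⁄W.FunctionField).a₃)
        * (algebraMap k W.FunctionField (6 * a ^ 2 + W.b₂ * a + W.b₄)
            / (xg W - algebraMap k W.FunctionField a) ^ 2
          + 2 * algebraMap k W.FunctionField (4 * a ^ 3 + W.b₂ * a ^ 2 + 2 * W.b₄ * a + W.b₆)
            / (xg W - algebraMap k W.FunctionField a) ^ 3)
    have e₂ : (W⁄W.FunctionField).b₂ = algebraMap k W.FunctionField W.b₂ := W.map_b₂ _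
    have e₄ : (W⁄W.FunctionField).b₄ = algebraMap k W.FunctionField W.b₄ := W.map_b₄ _
    have e₆ : (W⁄W.FunctionField).b₆ = algebraMap k W.FunctionField W.b₆ := W.map_b₆ _
    rw [e₂, e₄, e₆]
    simp only [map_add, map_mul, map_pow, map_ofNat]

/-! ### the functions `X`, `Y`, `U` -/

variable (C : AddSubgroup W.Point) (hC : (C : Set W.Point).Finite)

/-- `X = Σ_{T ∈ C} (τ_T x - x_T)` (with `x_O = 0`, `τ_O = id`). -/
def Xf : W.FunctionField :=
  ∑ T ∈ Cf C hC, (transl W T (xg W) - algebraMap k W.FunctionField (ptX T))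

/-- `Y = Σ_{T ∈ C} (τ_T y - y_T)`. -/
def Yf : W.FunctionField :=
  ∑ T ∈ Cf C hC, (transl W T (yg W) - algebraMap k W.FunctionField (ptY T))

/-- `U = Σ_{T ∈ C} τ_T η`. -/
def Uf : W.FunctionField :=
  ∑ T ∈ Cf C hC, transl W T (etaF W)

theorem transl_zero_apply (f : W.FunctionField) : transl W (0 : W.Point) f = f := by
  rw [transl_zero]; rfl

/-- `X = x + ρ(x)` -/
theorem Xf_eq (h2 : (2 : k) ≠ 0) :
    Xf W C hC = xg W + rhoOf (Cs C hC) ptX (veluT W) (veluU W) (xg W) := by
  have h2F : (2 : W.FunctionField) ≠ 0 := by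
    have := (map_ne_zero (algebraMap k W.FunctionField)).2 h2
    rwa [map_ofNat] at this
  unfold Xf rhoOf
  rw [sum_Cf, transl_zero_apply]
  have h0 : algebraMap k W.FunctionField (ptX (0 : W.Point)) = 0 := map_zero _
  rw [h0, sub_zero]
  congr 1
  rw [eq_div_iff h2F, mul_two,
    ← two_mul_sum_Cs C hC (fun T => transl W T (xg W) - algebraMap k W.FunctionField (ptX T))]
  refine Finset.sum_congr rfl (fun T hT => ?_)
  have hT0 : T ≠ 0 := (mem_Cs.1 hT).2
  have := transl_add_neg_xg W hT0
  rw [ptX_neg]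
  linear_combination this

/-- `U = η (1 + ρ'(x))` -/
theorem Uf_eq (h2 : (2 : k) ≠ 0) :
    Uf W C hC = etaF W * (1 + rhoDerivOf (Cs C hC) ptX (veluT W) (veluU W) (xg W)) := by
  have h2F : (2 : W.FunctionField) ≠ 0 := by
    have := (map_ne_zero (algebraMap k W.FunctionField)).2 h2
    rwa [map_ofNat] at this
  unfold Uf rhoDerivOf
  rw [sum_Cf, transl_zero_apply, mul_add, mul_one]
  congr 1
  rw [neg_div, mul_neg, ← neg_mul, mul_div_assoc', eq_div_iff h2F, mul_two,
    ← two_mul_sum_Cs C hC (fun T => transl W T (etaF W)), Finset.mul_sum]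
  refine Finset.sum_congr rfl (fun T hT => ?_)
  exact transl_add_neg_etaF W (mem_Cs.1 hT).2

/-- `U = 2Y + a₁X + a₃` -/
theorem Uf_eq_two_mul_Yf (h2 : (2 : k) ≠ 0) :
    Uf W C hC = 2 * Yf W C hC + algebraMap k W.FunctionField W.a₁ * Xf W C hC
      + algebraMap k W.FunctionField W.a₃ := by
  have hs : ∑ T ∈ Cs C hC, ptEta T = 0 := (sum_ptEta_Cs C hC).resolve_right h2
  have key : Uf W C hC - (2 * Yf W C hC + algebraMap k W.FunctionField W.a₁ * Xf W C hC)
      = ∑ T ∈ Cf C hC, algebraMap k W.FunctionField (2 * ptY T + W.a₁ * ptX T + W.a₃) := by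
    unfold Uf Yf Xf
    rw [Finset.mul_sum, Finset.mul_sum, ← Finset.sum_add_distrib, ← Finset.sum_sub_distrib]
    refine Finset.sum_congr rfl (fun T _ => ?_)
    rw [transl_etaF]
    simp only [map_add, map_mul, map_ofNat]
    ring
  have h1 : ∑ T ∈ Cs C hC, algebraMap k W.FunctionField (2 * ptY T + W.a₁ * ptX T + W.a₃)
      = 0 := by
    rw [← map_sum, ← map_zero (algebraMap k W.FunctionField), ← hs]
    congr 1
    exact Finset.sum_congr rfl (fun T hT => (ptEta_eq (mem_Cs.1 hT).2).symm)
  rw [sum_Cf, h1, add_zero] at key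
  have e0 : (2 * ptY (0 : W.Point) + W.a₁ * ptX (0 : W.Point) + W.a₃) = W.a₃ := by
    show 2 * (0 : k) + W.a₁ * 0 + W.a₃ = W.a₃
    ring
  rw [e0] at key
  linear_combination key

/-! ### invariance -/

theorem transl_Xf {D : W.Point} (hD : D ∈ C) : transl W D (Xf W C hC) = Xf W C hC := by
  unfold Xf
  rw [map_sum]
  simp only [map_sub, AlgEquiv.commutes, transl_transl]
  rw [Finset.sum_sub_distrib, Finset.sum_sub_distrib,
    sum_Cf_add_left C hC (fun T => transl W T (xg W)) hD]

theorem transl_Yf {D : W.Point} (hD : D ∈ C) : transl W D (Yf W C hC) = Yf W C hC := by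
  unfold Yf
  rw [map_sum]
  simp only [map_sub, AlgEquiv.commutes, transl_transl]
  rw [Finset.sum_sub_distrib, Finset.sum_sub_distrib,
    sum_Cf_add_left C hC (fun T => transl W T (yg W)) hD]

theorem transl_Uf {D : W.Point} (hD : D ∈ C) : transl W D (Uf W C hC) = Uf W C hC := by
  unfold Uf
  rw [map_sum]
  simp only [transl_transl]
  exact sum_Cf_add_left C hC (fun T => transl W T (etaF W)) hD

end FF

end

end Fermat.Agent.Velu
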