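import Fermat.Agent.E.Velu.Deriv
import Fermat.Agent.E.Velu.Abel
import Fermat.Agent.E.Velu.XU

/-!
# Vélu (E-V), leaf DDT: the invariant derivation commutes with translations (on `x`)

`dd (τ_T x) = τ_T η`, `η = 2y + a₁x + a₃`.  (`T = O`: `dd_xg`.  `T = (a, b)`: `transl_xg'`,
`abel_chord` with `P₁` the generic point (`u₁ = 1`), `P₂ = (a, b)` constant (`u₂ = 0`), and
`transl_etaF_some`.)
-/

set_option autoImplicit false

open WeierstrassCurve
open scoped WeierstrassCurve.Affine

namespace Fermat.Agent.Velu

variable {k : Type*} [Field k] [DecidableEq k] [IsAlgClosed k] (W : Affine k) [W.IsElliptic]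

/-- the chord case of `dd_transl_xg`, together with the statement for `y` -/
theorem dd_transl_some {a b : k} (h : W.Nonsingular a b) :
    dd W (transl W (.some a b h) (xg W)) = transl W (.some a b h) (etaF W) ∧
      dd W (transl W (.some a b h) (yg W))
        = 3 * transl W (.some a b h) (xg W) ^ 2
          + 2 * algebraMap k W.FunctionField W.a₂ * transl W (.some a b h) (xg W)
          + algebraMap k W.FunctionField W.a₄
          - algebraMap k W.FunctionField W.a₁ * transl W (.some a b h) (yg W) := by
  have key := abel_chord W (dd W) (x₁ := xg W) (y₁ := yg W)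
    (x₂ := algebraMap k W.FunctionField a) (y₂ := algebraMap k W.FunctionField b)
    (u₁ := 1) (u₂ := 0) (equation_gen W) (equation_const W h.1) (xg_ne_algebraMap W a)
    (by rw [one_mul]; exact dd_xg W) (by rw [one_mul]; exact dd_yg W)
    (by rw [zero_mul]; exact dd_const W a) (by rw [zero_mul]; exact dd_const W b)
  rw [add_zero, one_mul, one_mul] at key
  constructor
  · rw [transl_xg' W h, transl_etaF_some W h]
    exact key.1
  · rw [transl_xg' W h, transl_yg' W h]
    exact key.2

/-- **(DDT)** -/
theorem dd_transl_xg (T : W.Point) :
    dd W (transl W T (xg W)) = transl W T (etaF W) := by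
  cases T with
  | zero =>
    show dd W (transl W (0 : W.Point) (xg W)) = transl W (0 : W.Point) (etaF W)
    rw [transl_zero_apply, transl_zero_apply]
    exact dd_xg W
  | some a b h => exact (dd_transl_some W h).1

/-- the companion statement for `y` -/
theorem dd_transl_yg (T : W.Point) :
    dd W (transl W T (yg W))
      = 3 * transl W T (xg W) ^ 2
        + 2 * algebraMap k W.FunctionField W.a₂ * transl W T (xg W)
        + algebraMap k W.FunctionField W.a₄
        - algebraMap k W.FunctionField W.a₁ * transl W T (yg W) := by
  cases T with
  | zero =>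
    show dd W (transl W (0 : W.Point) (yg W)) = 3 * transl W (0 : W.Point) (xg W) ^ 2
        + 2 * algebraMap k W.FunctionField W.a₂ * transl W (0 : W.Point) (xg W)
        + algebraMap k W.FunctionField W.a₄
        - algebraMap k W.FunctionField W.a₁ * transl W (0 : W.Point) (yg W)
    rw [transl_zero_apply, transl_zero_apply]
    exact dd_yg W
  | some a b h => exact (dd_transl_some W h).2

end Fermat.Agent.Velu
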