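import Fermat.Agent.E.Velu.CoDefs
import Fermat.Agent.E.Velu.DDTransl

/-!
# Vélu (E-V), leaf CoDD: the derivative of `X` and of its translates

`dd X = U` and `dd (τ_T X) = τ_T U`  (from `dd_transl_xg`, `transl_transl`, linearity; `dd` kills
constants).
-/

set_option autoImplicit false
set_option linter.unusedSectionVars false

open WeierstrassCurve
open scoped WeierstrassCurve.Affine

namespace Fermat.Agent.Velu

open Fermat.Agent.EV

variable {k : Type*} [Field k] [DecidableEq k] [IsAlgClosed k] (W : Affine k) [W.IsElliptic]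
  (C : AddSubgroup W.Point) (hC : (C : Set W.Point).Finite)

theorem dd_transl_Xf (T : W.Point) :
    dd W (transl W T (Xf W C hC)) = transl W T (Uf W C hC) := by
  unfold Xf Uf
  rw [map_sum, map_sum, map_sum]
  refine Finset.sum_congr rfl (fun D _ => ?_)
  rw [map_sub, map_sub, AlgEquiv.commutes, dd_const, sub_zero, transl_transl, transl_transl,
    dd_transl_xg]

theorem dd_Xf : dd W (Xf W C hC) = Uf W C hC := by
  have := dd_transl_Xf W C hC 0
  rwa [transl_zero_apply, transl_zero_apply] at this

/-- the form needed for `diff_const` -/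
theorem dd_transl_Xf' (h2 : (2 : k) ≠ 0) (T : W.Point) :
    dd W (transl W T (Xf W C hC)) = 2 * transl W T (Yf W C hC)
      + ((veluCurve W (C : Set W.Point))⁄W.FunctionField).a₁ * transl W T (Xf W C hC)
      + ((veluCurve W (C : Set W.Point))⁄W.FunctionField).a₃ := by
  rw [dd_transl_Xf, Uf_eq_two_mul_Yf W C hC h2]
  simp only [map_add, map_mul, map_ofNat, AlgEquiv.commutes]
  rfl

theorem two_mul_transl_Yf_ne_zero (h2 : (2 : k) ≠ 0) (T : W.Point) :
    2 * transl W T (Yf W C hC)
      + ((veluCurve W (C : Set W.Point))⁄W.FunctionField).a₁ * transl W T (Xf W C hC)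
      + ((veluCurve W (C : Set W.Point))⁄W.FunctionField).a₃ ≠ 0 := by
  rw [← dd_transl_Xf' W C hC h2 T, dd_transl_Xf]
  exact (map_ne_zero_iff _ (transl W T).injective).2 (Uf_ne_zero W C hC h2)

end Fermat.Agent.Velu
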