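import Fermat.Agent.E.Velu.Eqn

/-!
# Vélu (E-V): the cocycle `T ↦ τ_T G' - G'`, definitions

`W' = veluCurve W C`, `F = W.FunctionField`, `G' = (Xf, Yf) ∈ W'(F)`.
* `constPtOf W W' : W'.Point →+ (W'⁄F).Point` the constant points;
* `Gp W C hC h2 : (W'⁄F).Point` the point `(Xf, Yf)`;
* `tauPt W C T : (W'⁄F).Point →+ (W'⁄F).Point` the action of the translation `τ_T`.
-/

set_option autoImplicit false
set_option linter.unusedSectionVars false

open WeierstrassCurve Polynomial
open scoped WeierstrassCurve.Affine

namespace Fermat.Agent.Velu

noncomputable section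

open Fermat.Agent.EV

variable {k : Type*} [Field k] [DecidableEq k] [IsAlgClosed k] (W : Affine k) [W.IsElliptic]

/-- the constant points of a curve `W'` over `k`, as points over `F = W.FunctionField` -/
def constPtOf (W' : Affine k) : W'.Point →+ (W'⁄W.FunctionField).Point where
  toFun P := Affine.Point.map (W' := W') (Algebra.ofId k W.FunctionField) P
  map_zero' := rfl
  map_add' P Q := map_add (Affine.Point.map (W' := W') (Algebra.ofId k W.FunctionField)) P Q

theorem constPtOf_zero (W' : Affine k) : constPtOf W W' 0 = 0 := rfl

theorem constPtOf_some (W' : Affine k) {c d : k} (h : W'.Nonsingular c d) :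
    constPtOf W W' (.some c d h) = .some (algebraMap k W.FunctionField c)
      (algebraMap k W.FunctionField d)
      ((Affine.map_nonsingular W' (algebraMap k W.FunctionField).injective c d).2 h) := rfl

theorem constPtOf_injective (W' : Affine k) : Function.Injective (constPtOf W W') :=
  Affine.Point.map_injective (W' := W') (Algebra.ofId k W.FunctionField)

/-- an algebra endomorphism of the function field fixes the constant points -/
theorem map_constPtOf (W' : Affine k) (f : W.FunctionField →ₐ[k] W.FunctionField)
    (P : W'.Point) :
    Affine.Point.map (W' := W') f (constPtOf W W' P) = constPtOf W W' P := by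
  cases P with
  | zero => rfl
  | some c d h =>
    rw [constPtOf_some, Affine.Point.map_some]
    congr 1
    · exact f.commutes c
    · exact f.commutes d

variable (C : AddSubgroup W.Point) (hC : (C : Set W.Point).Finite)

/-- the point `G' = (X, Y)` of the quotient curve over the function field -/
def Gp (h2 : (2 : k) ≠ 0) : ((veluCurve W (C : Set W.Point))⁄W.FunctionField).Point :=
  .some (Xf W C hC) (Yf W C hC) (nonsingular_Xf_Yf W C hC h2)

/-- the action of the translation `τ_T` on the points of the quotient curve over `F` -/
def tauPt (T : W.Point) : ((veluCurve W (C : Set W.Point))⁄W.FunctionField).Point →+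
    ((veluCurve W (C : Set W.Point))⁄W.FunctionField).Point :=
  Affine.Point.map (W' := veluCurve W (C : Set W.Point))
    (transl W T : W.FunctionField →ₐ[k] W.FunctionField)

theorem nonsingular_transl (h2 : (2 : k) ≠ 0) (T : W.Point) :
    ((veluCurve W (C : Set W.Point))⁄W.FunctionField).Nonsingular
      (transl W T (Xf W C hC)) (transl W T (Yf W C hC)) :=
  (Affine.baseChange_nonsingular (veluCurve W (C : Set W.Point))
    (f := (transl W T : W.FunctionField →ₐ[k] W.FunctionField))
    (transl W T : W.FunctionField →ₐ[k] W.FunctionField).injective _ _).2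
    (nonsingular_Xf_Yf W C hC h2)

theorem tauPt_Gp (h2 : (2 : k) ≠ 0) (T : W.Point) :
    tauPt W C T (Gp W C hC h2)
      = .some (transl W T (Xf W C hC)) (transl W T (Yf W C hC))
          (nonsingular_transl W C hC h2 T) := rfl

theorem tauPt_tauPt (S T : W.Point)
    (P : ((veluCurve W (C : Set W.Point))⁄W.FunctionField).Point) :
    tauPt W C S (tauPt W C T P) = tauPt W C (S + T) P := by
  unfold tauPt
  rw [Affine.Point.map_map]
  congr 1
  rw [coe_transl, coe_transl, coe_transl, translHom_comp]

theorem tauPt_constPtOf (T : W.Point) (Q : (veluCurve W (C : Set W.Point)).Point) :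
    tauPt W C T (constPtOf W _ Q) = constPtOf W _ Q :=
  map_constPtOf W _ _ Q

theorem tauPt_Gp_of_mem (h2 : (2 : k) ≠ 0) {T : W.Point} (hT : T ∈ C) :
    tauPt W C T (Gp W C hC h2) = Gp W C hC h2 := by
  rw [tauPt_Gp]
  unfold Gp
  congr 1
  · exact transl_Xf W C hC hT
  · exact transl_Yf W C hC hT

end

end Fermat.Agent.Velu
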