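import Fermat.Agent.E.Velu.CoHom

/-!
# Vélu (E-V), leaf CoFormula: `φ(T) = (veluX T, veluY T)` for `T ∉ C`

`φ T ≠ 0` (kernel), `φ T = (c, d)`;  `τ_T G' = G' + (c, d)` so by `lred` on the quotient curve
(`one_lt_vO_Xf`, `equation_Xf_Yf`, `Point.add_of_X_ne`) `τ_T X ≡ c`, `τ_T Y ≡ d`; compare with
`vO_transl_Xf_sub_lt`, `vO_transl_Yf_sub_lt`; a constant of valuation `< 1` is `0` (`vO_const`).
-/

set_option autoImplicit false
set_option linter.unusedSectionVars false

open WeierstrassCurve
open scoped WeierstrassCurve.Affine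

namespace Fermat.Agent.Velu

open Fermat.Agent.EV

variable {k : Type*} [Field k] [DecidableEq k] [IsAlgClosed k] [CharZero k]
  (W : Affine k) [W.IsElliptic]
  (C : AddSubgroup W.Point) (hC : (C : Set W.Point).Finite)

/-- a constant which is congruent to another constant at `O` is equal to it -/
theorem const_eq_of_vO_lt {f : W.FunctionField} {c c' : k}
    (h : vO W (f - algebraMap k W.FunctionField c) < 1)
    (h' : vO W (f - algebraMap k W.FunctionField c') < 1) : c = c' := by
  by_contra hne
  have h3 : vO W (algebraMap k W.FunctionField (c' - c)) < 1 := by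
    have e : algebraMap k W.FunctionField (c' - c)
        = (f - algebraMap k W.FunctionField c) - (f - algebraMap k W.FunctionField c') := by
      rw [map_sub]; ring
    rw [e]
    exact lt_of_le_of_lt (Valuation.map_sub _ _ _) (max_lt h h')
  rw [vO_const W _ (sub_ne_zero.2 (Ne.symm hne))] at h3
  exact lt_irrefl _ h3

theorem phi_eq_some {T : W.Point} (hT : T ∉ C) :
    ∃ h, phi W C hC T = .some (veluX W (C : Set W.Point) T) (veluY W (C : Set W.Point) T) h := by
  have hne : phi W C hC T ≠ 0 := fun h => hT ((phi_eq_zero_iff W C hC T).1 h)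
  obtain ⟨c, d, hcd, hphi⟩ : ∃ c d, ∃ hcd : (veluCurve W (C : Set W.Point)).Nonsingular c d,
      phi W C hC T = .some c d hcd := by
    cases h : phi W C hC T with
    | zero => exact absurd h hne
    | some c d hcd => exact ⟨c, d, hcd, rfl⟩
  have h1 := tauPt_Gp_eq_add W C hC T
  rw [show phiPt W C hC T = phi W C hC T from rfl, hphi, constPtOf_some, tauPt_Gp] at h1
  unfold Gp at h1
  have hx : Xf W C hC ≠ algebraMap k W.FunctionField c := by
    intro h
    have := one_lt_vO_Xf W C hC two_ne_zero
    rw [h] at this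
    exact not_lt.2 (vO_const_le W c) this
  rw [Affine.Point.add_of_X_ne hx] at h1
  have h2 := Affine.Point.some.inj h1
  rw [Affine.slope_of_X_ne hx] at h2
  obtain ⟨l1, l2⟩ := lred (vO W) (vO_const_le W) (veluCurve W (C : Set W.Point))
    (equation_Xf_Yf W C hC two_ne_zero) (one_lt_vO_Xf W C hC two_ne_zero) hcd.1
  rw [← h2.1] at l1
  rw [← h2.2] at l2
  have e1 : c = veluX W (C : Set W.Point) T :=
    const_eq_of_vO_lt W l1 (vO_transl_Xf_sub_lt W C hC hT)
  have e2 : d = veluY W (C : Set W.Point) T :=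
    const_eq_of_vO_lt W l2 (vO_transl_Yf_sub_lt W C hC hT)
  subst e1 e2
  exact ⟨hcd, hphi⟩

end Fermat.Agent.Velu
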