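import Fermat.Agent.E.Velu.CoDefs

/-!
# Vélu (E-V), leaf CoVal: the values of `τ_T X`, `τ_T Y` at `O` for `T ∉ C`

For `T ∉ C`:  `τ_T X ≡ veluX T`, `τ_T Y ≡ veluY T` modulo the maximal ideal of `vO`
(`τ_T X = Σ_{D ∈ C} (τ_{T+D} x - x_D)`, `T + D ≠ O`, `vO_transl_xg_sub_lt`, `veluX_eq`, `sum_Cf`).
In particular `τ_T X ≠ X` (`one_lt_vO_Xf`).
-/

set_option autoImplicit false
set_option linter.unusedSectionVars false

open WeierstrassCurve
open scoped WeierstrassCurve.Affine

namespace Fermat.Agent.Velu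

open Fermat.Agent.EV

variable {k : Type*} [Field k] [DecidableEq k] [IsAlgClosed k] (W : Affine k) [W.IsElliptic]
  (C : AddSubgroup W.Point) (hC : (C : Set W.Point).Finite)

theorem coVal_add_ne_zero {T : W.Point} (hT : T ∉ C) {D : W.Point} (hD : D ∈ C) : T + D ≠ 0 := by
  intro h
  apply hT
  have hTD : T = -D := eq_neg_of_add_eq_zero_left h
  rw [hTD]
  exact C.neg_mem hD

theorem coVal_transl_Xf_sub (T : W.Point) :
    transl W T (Xf W C hC) - algebraMap k W.FunctionField (veluX W (C : Set W.Point) T)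
      = ∑ D ∈ Cf C hC, (transl W (T + D) (xg W)
          - algebraMap k W.FunctionField (ptX (T + D))) := by
  have h1 : veluX W (C : Set W.Point) T = ∑ D ∈ Cf C hC, (ptX (T + D) - ptX D) := by
    rw [veluX_eq W C hC, sum_Cf C hC (fun D => ptX (T + D) - ptX D), add_zero]
    congr 1
    show ptX T = ptX T - 0
    rw [sub_zero]
  rw [h1]
  unfold Xf
  rw [map_sum, map_sum, ← Finset.sum_sub_distrib]
  refine Finset.sum_congr rfl (fun D _ => ?_)
  rw [map_sub, transl_transl, AlgEquiv.commutes, map_sub]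
  ring

theorem coVal_transl_Yf_sub (T : W.Point) :
    transl W T (Yf W C hC) - algebraMap k W.FunctionField (veluY W (C : Set W.Point) T)
      = ∑ D ∈ Cf C hC, (transl W (T + D) (yg W)
          - algebraMap k W.FunctionField (ptY (T + D))) := by
  have h1 : veluY W (C : Set W.Point) T = ∑ D ∈ Cf C hC, (ptY (T + D) - ptY D) := by
    rw [veluY_eq W C hC, sum_Cf C hC (fun D => ptY (T + D) - ptY D), add_zero]
    congr 1
    show ptY T = ptY T - 0
    rw [sub_zero]
  rw [h1]
  unfold Yf
  rw [map_sum, map_sum, ← Finset.sum_sub_distrib]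
  refine Finset.sum_congr rfl (fun D _ => ?_)
  rw [map_sub, transl_transl, AlgEquiv.commutes, map_sub]
  ring

theorem vO_transl_Xf_sub_lt {T : W.Point} (hT : T ∉ C) :
    vO W (transl W T (Xf W C hC) - algebraMap k W.FunctionField (veluX W (C : Set W.Point) T))
      < 1 := by
  rw [coVal_transl_Xf_sub]
  refine Valuation.map_sum_lt (vO W) one_ne_zero (fun D hD => ?_)
  exact vO_transl_xg_sub_lt W (coVal_add_ne_zero W C hT (mem_Cf.1 hD))

theorem vO_transl_Yf_sub_lt {T : W.Point} (hT : T ∉ C) :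
    vO W (transl W T (Yf W C hC) - algebraMap k W.FunctionField (veluY W (C : Set W.Point) T))
      < 1 := by
  rw [coVal_transl_Yf_sub]
  refine Valuation.map_sum_lt (vO W) one_ne_zero (fun D hD => ?_)
  exact vO_transl_yg_sub_lt W (coVal_add_ne_zero W C hT (mem_Cf.1 hD))

theorem vO_transl_Xf_le {T : W.Point} (hT : T ∉ C) : vO W (transl W T (Xf W C hC)) ≤ 1 := by
  have h1 := vO_transl_Xf_sub_lt W C hC hT
  have h2 : transl W T (Xf W C hC) =
      (transl W T (Xf W C hC) - algebraMap k W.FunctionField (veluX W (C : Set W.Point) T))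
        + algebraMap k W.FunctionField (veluX W (C : Set W.Point) T) := by ring
  rw [h2]
  exact (Valuation.map_add _ _ _).trans (max_le h1.le (vO_const_le W _))

theorem transl_Xf_ne (h2 : (2 : k) ≠ 0) {T : W.Point} (hT : T ∉ C) :
    transl W T (Xf W C hC) ≠ Xf W C hC := by
  intro h
  have h1 := vO_transl_Xf_le W C hC hT
  rw [h] at h1
  exact absurd (one_lt_vO_Xf W C hC h2) (not_lt.mpr h1)

end Fermat.Agent.Velu
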