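import Fermat.Agent.E.Velu.Deriv

/-!
# Vélu (V1), infrastructure I5b: the constants of the invariant derivation

In characteristic zero, `dd W f = 0 ↔ f ∈ k`.
-/

set_option autoImplicit false

open WeierstrassCurve Polynomial
open scoped Polynomial.Bivariate WeierstrassCurve.Affine

namespace Fermat.Agent.Velu

noncomputable section

section Wronskian

variable {k : Type*} [Field k] [CharZero k]

/-- In characteristic zero, `n' P = n P'` with `n ≠ 0` forces `P = c n`. -/
theorem eq_C_mul_of_wronskian {P n : k[X]} (hn : n ≠ 0)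
    (h : derivative n * P = n * derivative P) : ∃ c : k, P = C c * n := by
  classical
  obtain ⟨d, P₁, n₁, hP, hn', hcop⟩ : ∃ d P₁ n₁ : k[X], P = d * P₁ ∧ n = d * n₁ ∧
      IsCoprime P₁ n₁ := by
    have hg : EuclideanDomain.gcd P n ≠ 0 := fun h0 =>
      hn ((EuclideanDomain.gcd_eq_zero_iff.1 h0).2)
    obtain ⟨P₁, hP₁⟩ := EuclideanDomain.gcd_dvd_left P n
    obtain ⟨n₁, hn₁⟩ := EuclideanDomain.gcd_dvd_right P n
    refine ⟨EuclideanDomain.gcd P n, P₁, n₁, hP₁, hn₁, ?_⟩
    obtain ⟨u, v, huv⟩ : ∃ u v : k[X], EuclideanDomain.gcd P n = u * P + v * n :=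
      ⟨EuclideanDomain.gcdA P n, EuclideanDomain.gcdB P n, by
        rw [mul_comm _ P, mul_comm _ n]; exact EuclideanDomain.gcd_eq_gcd_ab P n⟩
    refine ⟨u, v, ?_⟩
    apply mul_left_cancel₀ hg
    calc EuclideanDomain.gcd P n * (u * P₁ + v * n₁)
        = u * (EuclideanDomain.gcd P n * P₁) + v * (EuclideanDomain.gcd P n * n₁) := by ring
      _ = u * P + v * n := by rw [← hP₁, ← hn₁]
      _ = EuclideanDomain.gcd P n * 1 := by rw [mul_one, ← huv]
  have hd : d ≠ 0 := by
    rintro rfl
    exact hn (by rw [hn', zero_mul])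
  have hw : wronskian P₁ n₁ = 0 := by
    have : d ^ 2 * wronskian P₁ n₁ = 0 := by
      have e : d ^ 2 * wronskian P₁ n₁ = P * derivative n - derivative P * n := by
        rw [wronskian, hP, hn', derivative_mul, derivative_mul]; ring
      rw [e, mul_comm P, h]; ring
    rcases mul_eq_zero.1 this with h0 | h0
    · exact absurd (pow_eq_zero_iff two_ne_zero |>.1 h0) hd
    · exact h0
  obtain ⟨hP₁, hn₁⟩ := hcop.wronskian_eq_zero_iff.1 hw
  obtain ⟨a, ha⟩ : ∃ a : k, P₁ = C a :=
    ⟨_, eq_C_of_natDegree_eq_zero (Polynomial.derivative_eq_zero.1 hP₁)⟩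
  obtain ⟨b, hb'⟩ : ∃ b : k, n₁ = C b :=
    ⟨_, eq_C_of_natDegree_eq_zero (Polynomial.derivative_eq_zero.1 hn₁)⟩
  have hb : b ≠ 0 := by
    rintro rfl
    apply hn
    rw [hn', hb', C_0, mul_zero]
  refine ⟨a / b, ?_⟩
  rw [hP, hn', ha, hb', ← mul_assoc, mul_comm (C _) d, mul_assoc, ← C_mul, div_mul_cancel₀ _ hb]

end Wronskian

variable {k : Type*} [Field k] (W : Affine k)

theorem algebraMap_polynomial_X : algebraMap k[X] W.FunctionField X = xg W := by
  rw [IsScalarTower.algebraMap_apply k[X] W.CoordinateRing W.FunctionField]; rfl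

theorem algebraMap_polynomial_C (c : k) :
    algebraMap k[X] W.FunctionField (C c) = algebraMap k W.FunctionField c := by
  rw [IsScalarTower.algebraMap_apply k k[X] W.FunctionField]; rfl

theorem algebraMap_polynomial_injective' :
    Function.Injective (algebraMap k[X] W.FunctionField) := by
  rw [IsScalarTower.algebraMap_eq k[X] W.CoordinateRing W.FunctionField]
  exact (IsFractionRing.injective W.CoordinateRing W.FunctionField).comp
    (FaithfulSMul.algebraMap_injective k[X] W.CoordinateRing)

/-- `1` and `y` are linearly independent over `k[x]`. -/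
theorem eq_zero_of_add_mul_yg_eq_zero {u v : k[X]}
    (h : algebraMap k[X] W.FunctionField u + algebraMap k[X] W.FunctionField v * yg W = 0) :
    u = 0 ∧ v = 0 := by
  have e : algebraMap k[X] W.FunctionField u + algebraMap k[X] W.FunctionField v * yg W
      = algebraMap W.CoordinateRing W.FunctionField
          (u • (1 : W.CoordinateRing) + v • Affine.CoordinateRing.mk W Y) := by
    rw [map_add, Algebra.smul_def, Algebra.smul_def, mul_one, map_mul,
      ← IsScalarTower.algebraMap_apply, ← IsScalarTower.algebraMap_apply]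
    rfl
  rw [e] at h
  have h' : u • (1 : W.CoordinateRing) + v • Affine.CoordinateRing.mk W Y = 0 :=
    (IsFractionRing.injective W.CoordinateRing W.FunctionField) (by rw [h, map_zero])
  exact Affine.CoordinateRing.smul_basis_eq_zero h'

/-- Every element of the function field is `(p(x) + q(x) y) / n(x)`. -/
theorem exists_repr (f : W.FunctionField) : ∃ p q n : k[X], n ≠ 0 ∧
    f * algebraMap k[X] W.FunctionField n
      = algebraMap k[X] W.FunctionField p + algebraMap k[X] W.FunctionField q * yg W := by
  obtain ⟨u, v, hv, rfl⟩ := IsFractionRing.div_surjective (A := W.CoordinateRing) f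
  have hv0 : v ≠ 0 := nonZeroDivisors.ne_zero hv
  obtain ⟨pv, qv, rfl⟩ := Affine.CoordinateRing.exists_smul_basis_eq v
  set N : k[X] := Algebra.norm k[X]
    (pv • (1 : W.CoordinateRing) + qv • Affine.CoordinateRing.mk W Y) with hN
  have hN0 : N ≠ 0 := mt Algebra.norm_eq_zero_iff.1 hv0
  set v' : W.CoordinateRing := Affine.CoordinateRing.mk W
    (C pv + C qv * (-(Y : k[X][Y]) - C (C W.a₁ * X + C W.a₃))) with hv'
  have hvv' : (pv • (1 : W.CoordinateRing) + qv • Affine.CoordinateRing.mk W Y) * v'
      = algebraMap k[X] W.CoordinateRing N := by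
    have := Affine.CoordinateRing.coe_norm_smul_basis (W' := W) pv qv
    rw [← hN] at this
    have e : (algebraMap k[X] W.CoordinateRing N) = ((N : k[X]) : W.CoordinateRing) := rfl
    rw [e, this, map_mul]
    congr 1
    rw [Affine.CoordinateRing.smul, Affine.CoordinateRing.smul, mul_one, map_add, map_mul]
  obtain ⟨p, q, hpq⟩ := Affine.CoordinateRing.exists_smul_basis_eq (u * v')
  refine ⟨p, q, N, hN0, ?_⟩
  have hvF : algebraMap W.CoordinateRing W.FunctionField
      (pv • (1 : W.CoordinateRing) + qv • Affine.CoordinateRing.mk W Y) ≠ 0 :=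
    IsFractionRing.to_map_ne_zero_of_mem_nonZeroDivisors hv
  have e1 : algebraMap k[X] W.FunctionField N
      = algebraMap W.CoordinateRing W.FunctionField
          (pv • (1 : W.CoordinateRing) + qv • Affine.CoordinateRing.mk W Y)
        * algebraMap W.CoordinateRing W.FunctionField v' := by
    rw [← map_mul, hvv', ← IsScalarTower.algebraMap_apply]
  have e2 : algebraMap k[X] W.FunctionField p + algebraMap k[X] W.FunctionField q * yg W
      = algebraMap W.CoordinateRing W.FunctionField u
        * algebraMap W.CoordinateRing W.FunctionField v' := by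
    rw [← map_mul, ← hpq, map_add, Algebra.smul_def, Algebra.smul_def, mul_one, map_mul,
      ← IsScalarTower.algebraMap_apply, ← IsScalarTower.algebraMap_apply]
    rfl
  rw [e1, e2]
  field_simp

/-- `∂ (p(x) + q(x) y) = p'(x) ψ + q'(x) ψ y + q(x) φ`. -/
theorem dd_add_mul_yg (p q : k[X]) :
    dd W (algebraMap k[X] W.FunctionField p + algebraMap k[X] W.FunctionField q * yg W)
      = algebraMap k[X] W.FunctionField (derivative p) * psiF W
        + algebraMap k[X] W.FunctionField (derivative q) * psiF W * yg W
        + algebraMap k[X] W.FunctionField q * phiF W := by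
  rw [map_add, Derivation.leibniz, dd_polynomial, dd_polynomial, dd_yg', smul_eq_mul, smul_eq_mul]
  ring

section CharZero

variable [CharZero k]

/-- The cubic `4x³ + b₂x² + 2b₄x + b₆ = 4 c + l²` is nonzero of degree `3`. -/
theorem natDegree_cubic_aux :
    (4 * (X ^ 3 + C W.a₂ * X ^ 2 + C W.a₄ * X + C W.a₆) + (C W.a₁ * X + C W.a₃) ^ 2 : k[X]).natDegree
      = 3 := by
  have e : (4 * (X ^ 3 + C W.a₂ * X ^ 2 + C W.a₄ * X + C W.a₆) + (C W.a₁ * X + C W.a₃) ^ 2 : k[X])
      = C 4 * X ^ 3 + C (4 * W.a₂ + W.a₁ ^ 2) * X ^ 2 + C (4 * W.a₄ + 2 * W.a₁ * W.a₃) * X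
        + C (4 * W.a₆ + W.a₃ ^ 2) := by
    simp only [map_add, map_mul, map_pow, map_ofNat]
    ring
  rw [e]
  exact natDegree_cubic (by norm_num)

/-- **Constants of the invariant derivation** (characteristic zero). -/
theorem exists_const_of_dd_eq_zero {f : W.FunctionField} (hf : dd W f = 0) :
    ∃ c : k, f = algebraMap k W.FunctionField c := by
  obtain ⟨p, q, n, hn, hrep⟩ := exists_repr W f
  have hnF : algebraMap k[X] W.FunctionField n ≠ 0 := fun h0 =>
    hn (algebraMap_polynomial_injective' W (by rw [h0, map_zero]))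
  -- differentiate the representation
  have hd := congrArg (dd W) hrep
  rw [Derivation.leibniz, hf, smul_zero, add_zero, dd_polynomial, dd_add_mul_yg, smul_eq_mul] at hd
  -- the polynomials
  set l : k[X] := C W.a₁ * X + C W.a₃ with hl
  set c : k[X] := X ^ 3 + C W.a₂ * X ^ 2 + C W.a₄ * X + C W.a₆ with hc
  set m : k[X] := 3 * X ^ 2 + 2 * C W.a₂ * X + C W.a₄ with hm
  have hlF : algebraMap k[X] W.FunctionField l
      = algebraMap k W.FunctionField W.a₁ * xg W + algebraMap k W.FunctionField W.a₃ := by
    simp only [hl, map_add, map_mul, algebraMap_polynomial_X, algebraMap_polynomial_C]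
  have hcF : algebraMap k[X] W.FunctionField c
      = xg W ^ 3 + algebraMap k W.FunctionField W.a₂ * xg W ^ 2
        + algebraMap k W.FunctionField W.a₄ * xg W + algebraMap k W.FunctionField W.a₆ := by
    simp only [hc, map_add, map_mul, map_pow, algebraMap_polynomial_X, algebraMap_polynomial_C]
  have hmF : algebraMap k[X] W.FunctionField m
      = 3 * xg W ^ 2 + 2 * algebraMap k W.FunctionField W.a₂ * xg W
        + algebraMap k W.FunctionField W.a₄ := by
    simp only [hm, map_add, map_mul, map_pow, map_ofNat, algebraMap_polynomial_X,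
      algebraMap_polynomial_C]
  have heq := equation_gen' W
  -- coordinates of `n · (★)`
  have hA : algebraMap k[X] W.FunctionField
        (derivative n * (l * p + 2 * q * c) - n * (derivative p * l + 2 * derivative q * c + q * m))
      + algebraMap k[X] W.FunctionField
        (derivative n * (2 * p - l * q)
          - n * (2 * derivative p - l * derivative q - C W.a₁ * q)) * yg W = 0 := by
    simp only [map_sub, map_add, map_mul, map_ofNat, hlF, hcF, hmF, algebraMap_polynomial_C]
    simp only [psiF, phiF] at hd
    linear_combination (-(algebraMap k[X] W.FunctionField (derivative n)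
        * (2 * yg W + algebraMap k W.FunctionField W.a₁ * xg W
            + algebraMap k W.FunctionField W.a₃))) * hrep
      + (algebraMap k[X] W.FunctionField n) * hd
      - (2 * algebraMap k[X] W.FunctionField q * algebraMap k[X] W.FunctionField (derivative n)
          - 2 * algebraMap k[X] W.FunctionField n
              * algebraMap k[X] W.FunctionField (derivative q)) * heq
  obtain ⟨hA₁, hA₂⟩ := eq_zero_of_add_mul_yg_eq_zero W hA
  -- `P = 2p - l q` is a constant multiple of `n`
  have hP : derivative n * (2 * p - l * q) = n * derivative (2 * p - l * q) := by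
    have : derivative (2 * p - l * q) = 2 * derivative p - l * derivative q - C W.a₁ * q := by
      have h2 : derivative (2 * p) = 2 * derivative p := by
        rw [derivative_mul, derivative_ofNat, zero_mul, zero_add]
      have h3 : derivative l = C W.a₁ := by
        rw [hl, derivative_add, derivative_mul, derivative_C, derivative_C, derivative_X,
          zero_mul, zero_add, mul_one, add_zero]
      rw [derivative_sub, h2, derivative_mul, h3]
      ring
    rw [this]
    linear_combination hA₂
  obtain ⟨c₀, hc₀⟩ := eq_C_mul_of_wronskian hn hP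
  -- `G = q² g` is a constant multiple of `n²`
  set g : k[X] := 4 * c + l ^ 2 with hg
  have hcd : derivative c = m := by
    rw [hc, hm]
    simp only [derivative_add, derivative_mul, derivative_C, derivative_X, derivative_X_pow]
    simp only [Nat.cast_ofNat, map_ofNat]
    norm_num
    ring
  have hld : derivative l = C W.a₁ := by
    rw [hl, derivative_add, derivative_mul, derivative_C, derivative_C, derivative_X,
      zero_mul, zero_add, mul_one, add_zero]
  have hg' : derivative g = 2 * (2 * m + C W.a₁ * l) := by
    have h4 : derivative (4 * c) = 4 * derivative c := by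
      rw [derivative_mul, derivative_ofNat, zero_mul, zero_add]
    rw [hg, derivative_add, h4, pow_two, derivative_mul, hcd, hld]
    ring
  have hG : derivative (n ^ 2) * (q ^ 2 * g) = n ^ 2 * derivative (q ^ 2 * g) := by
    rw [pow_two n, pow_two q, derivative_mul, derivative_mul, derivative_mul, hg']
    linear_combination (2 * n * q) * (2 * hA₁ - l * hA₂)
  obtain ⟨c₁, hc₁⟩ := eq_C_mul_of_wronskian (pow_ne_zero 2 hn) hG
  have hg3 : g.natDegree = 3 := natDegree_cubic_aux W
  have hg0 : g ≠ 0 := by
    intro h0
    rw [h0, natDegree_zero] at hg3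
    exact absurd hg3 (by norm_num)
  have hq : q = 0 := by
    by_contra hq
    have hd1 : (q ^ 2 * g).natDegree = 2 * q.natDegree + 3 := by
      rw [natDegree_mul (pow_ne_zero 2 hq) hg0, natDegree_pow, hg3]
    by_cases hc10 : c₁ = 0
    · rw [hc10, C_0, zero_mul] at hc₁
      exact (mul_ne_zero (pow_ne_zero 2 hq) hg0) hc₁
    · have hd2 : (C c₁ * n ^ 2).natDegree = 2 * n.natDegree := by
        rw [natDegree_C_mul hc10, natDegree_pow]
      rw [hc₁, hd2] at hd1
      omega
  -- conclusion
  rw [hq, mul_zero, sub_zero] at hc₀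
  refine ⟨c₀ / 2, ?_⟩
  apply mul_right_cancel₀ hnF
  rw [hrep, hq, map_zero, zero_mul, add_zero]
  have h2 : (2 : W.FunctionField) ≠ 0 := by
    have : (algebraMap k W.FunctionField) 2 ≠ 0 := by
      rw [Ne, map_eq_zero_iff _ (algebraMap k W.FunctionField).injective]
      norm_num
    rwa [map_ofNat] at this
  have h3 := congrArg (algebraMap k[X] W.FunctionField) hc₀
  rw [map_mul, map_mul, map_ofNat, algebraMap_polynomial_C] at h3
  rw [map_div₀, map_ofNat]
  field_simp
  linear_combination h3

theorem dd_eq_zero_iff {f : W.FunctionField} :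
    dd W f = 0 ↔ ∃ c : k, f = algebraMap k W.FunctionField c :=
  ⟨exists_const_of_dd_eq_zero W, fun ⟨c, hc⟩ => by rw [hc, dd_const]⟩

end CharZero

end

end Fermat.Agent.Velu
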