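import Fermat.Agent.E.Velu.Abel

/-!
# Vélu (E-V), leaf DP: the difference of two points with the same logarithmic derivative is constant

`W'` a Weierstrass curve over `k`, `F ⊇ k` a field with a `k`-derivation `D` whose constants are `k`.
If `P₁ = (x₁, y₁)`, `P₂ = (x₂, y₂)` are points of `W'` over `F` with `x₁ ≠ x₂`, `η(P_i) ≠ 0` and
`D x_i = η(P_i)` (`η = 2y + a₁x + a₃`), then `P₁ - P₂` is a constant point.

Proof: differentiate the equation: `η_i D y_i = (3x_i² + 2a₂x_i + a₄ - a₁y_i) D x_i`, so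
`D y_i = 3x_i² + ...`; the same for `-P₂` with `u = -1`; `abel_chord` (`u₁ = 1`, `u₂ = -1`) gives
`D x₃ = D y₃ = 0`; `hker`; the point `(c, d)` is nonsingular over `k` by `map_nonsingular`.

(stub: helper52; proof: helper72.)
-/

set_option autoImplicit false

open WeierstrassCurve
open scoped WeierstrassCurve.Affine

namespace Fermat.Agent.Velu

variable {k F : Type*} [Field k] [Field F] [Algebra k F] [DecidableEq k] [DecidableEq F]

omit [DecidableEq k] [DecidableEq F] in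
/-- Differentiating the Weierstrass equation: if `D x = η ≠ 0` then `D y = 3x² + 2a₂x + a₄ - a₁y`. -/
theorem diffPt_deriv_y (D : Derivation k F F) (W' : Affine k) {x y : F}
    (h : (W'⁄F).Equation x y)
    (hd : D x = 2 * y + (W'⁄F).a₁ * x + (W'⁄F).a₃)
    (hη : 2 * y + (W'⁄F).a₁ * x + (W'⁄F).a₃ ≠ 0) :
    D y = 3 * x ^ 2 + 2 * (W'⁄F).a₂ * x + (W'⁄F).a₄ - (W'⁄F).a₁ * y := by
  have hA₁ : D (W'⁄F).a₁ = 0 := D.map_algebraMap W'.a₁
  have hA₂ : D (W'⁄F).a₂ = 0 := D.map_algebraMap W'.a₂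
  have hA₃ : D (W'⁄F).a₃ = 0 := D.map_algebraMap W'.a₃
  have hA₄ : D (W'⁄F).a₄ = 0 := D.map_algebraMap W'.a₄
  have hA₆ : D (W'⁄F).a₆ = 0 := D.map_algebraMap W'.a₆
  have e := congrArg D ((Affine.equation_iff _ _).mp h)
  generalize (W'⁄F).a₁ = A₁ at *
  generalize (W'⁄F).a₂ = A₂ at *
  generalize (W'⁄F).a₃ = A₃ at *
  generalize (W'⁄F).a₄ = A₄ at *
  generalize (W'⁄F).a₆ = A₆ at *
  simp only [map_add, D.leibniz, D.leibniz_pow, hA₁, hA₂, hA₃, hA₄, hA₆, smul_eq_mul, hd,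
    nsmul_eq_mul] at e
  push_cast at e
  have key : (2 * y + A₁ * x + A₃) * (D y - (3 * x ^ 2 + 2 * A₂ * x + A₄ - A₁ * y)) = 0 := by
    linear_combination e
  rcases mul_eq_zero.mp key with h0 | h0
  · exact absurd h0 hη
  · exact sub_eq_zero.mp h0

/-- **(DP)** -/
theorem diff_const (D : Derivation k F F)
    (hker : ∀ f : F, D f = 0 → ∃ c : k, f = algebraMap k F c) (h2 : (2 : k) ≠ 0)
    (W' : Affine k) {x₁ y₁ x₂ y₂ : F}
    (h₁ : (W'⁄F).Nonsingular x₁ y₁) (h₂ : (W'⁄F).Nonsingular x₂ y₂) (hx : x₁ ≠ x₂)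
    (hd₁ : D x₁ = 2 * y₁ + (W'⁄F).a₁ * x₁ + (W'⁄F).a₃)
    (hd₂ : D x₂ = 2 * y₂ + (W'⁄F).a₁ * x₂ + (W'⁄F).a₃)
    (hη₁ : 2 * y₁ + (W'⁄F).a₁ * x₁ + (W'⁄F).a₃ ≠ 0)
    (hη₂ : 2 * y₂ + (W'⁄F).a₁ * x₂ + (W'⁄F).a₃ ≠ 0) :
    ∃ Q : W'.Point, Affine.Point.map (W' := W') (Algebra.ofId k F) Q
      = (Affine.Point.some x₁ y₁ h₁ : (W'⁄F).Point) - Affine.Point.some x₂ y₂ h₂ := by
  have hy₁ := diffPt_deriv_y D W' h₁.1 hd₁ hη₁
  have hy₂ := diffPt_deriv_y D W' h₂.1 hd₂ hη₂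
  have hA₁ : D (W'⁄F).a₁ = 0 := D.map_algebraMap W'.a₁
  have hA₃ : D (W'⁄F).a₃ = 0 := D.map_algebraMap W'.a₃
  have hn₂ : (W'⁄F).Nonsingular x₂ ((W'⁄F).negY x₂ y₂) := (Affine.nonsingular_neg ..).mpr h₂
  have hsub : (Affine.Point.some x₁ y₁ h₁ : (W'⁄F).Point) - Affine.Point.some x₂ y₂ h₂
      = Affine.Point.some _ _ (Affine.nonsingular_add h₁ hn₂ fun hxy => hx hxy.left) := by
    rw [sub_eq_add_neg, Affine.Point.neg_some, Affine.Point.add_of_X_ne hx]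
  have hsl : (W'⁄F).slope x₁ x₂ y₁ ((W'⁄F).negY x₂ y₂)
      = (y₁ - (W'⁄F).negY x₂ y₂) / (x₁ - x₂) := Affine.slope_of_X_ne hx
  have hDn : D ((W'⁄F).negY x₂ y₂)
      = -1 * (3 * x₂ ^ 2 + 2 * (W'⁄F).a₂ * x₂ + (W'⁄F).a₄
          - (W'⁄F).a₁ * (W'⁄F).negY x₂ y₂) := by
    simp only [Affine.negY, map_sub, map_neg, D.leibniz, hA₁, hA₃, smul_eq_mul, hd₂, hy₂]
    ring
  have hDx₂ : D x₂ = -1 * (2 * (W'⁄F).negY x₂ y₂ + (W'⁄F).a₁ * x₂ + (W'⁄F).a₃) := by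
    rw [hd₂]
    simp only [Affine.negY]
    ring
  obtain ⟨hDX, hDY⟩ := abel_chord W' D (u₁ := 1) (u₂ := -1) h₁.1 hn₂.1 hx
    (by rw [hd₁, one_mul]) (by rw [hy₁, one_mul]) hDx₂ hDn
  rw [add_neg_cancel, zero_mul] at hDX hDY
  rw [← hsl] at hDX hDY
  obtain ⟨c, hc⟩ := hker _ hDX
  obtain ⟨d, hd⟩ := hker _ hDY
  have hns := Affine.nonsingular_add h₁ hn₂ fun hxy => hx hxy.left
  have hns' : (W'⁄F).Nonsingular ((Algebra.ofId k F) c) ((Algebra.ofId k F) d) := by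
    have : (Algebra.ofId k F) c = algebraMap k F c := rfl
    have : (Algebra.ofId k F) d = algebraMap k F d := rfl
    simpa only [Algebra.ofId_apply, ← hc, ← hd] using hns
  have hcd : (W'⁄k).Nonsingular c d :=
    (W'.baseChange_nonsingular (Algebra.ofId k F).injective c d).mp hns'
  refine ⟨(Affine.Point.some c d hcd : (W'⁄k).Point), ?_⟩
  rw [hsub]
  rw [Affine.Point.map_some]
  simp only [Algebra.ofId_apply, ← hc, ← hd]

end Fermat.Agent.Velu
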