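import Fermat.Agent.E.Velu.CoDD
import Fermat.Agent.E.Velu.CoVal
import Fermat.Agent.E.Velu.DiffPt
import Fermat.Agent.E.Velu.DerivKer

/-!
# Vélu (E-V), leaf CoHom: the isogeny as a cocycle

`φ(T)` is the constant point `τ_T G' - G'`; it is additive in `T` with kernel `C`.
* `exists_constPtOf_eq`: `T ∈ C`: `tauPt_Gp_of_mem`; `T ∉ C`: `diff_const` with `dd W`,
  `dd_eq_zero_iff`, `transl_Xf_ne`, `dd_transl_Xf'` (for `T` and for `0`), `two_mul_transl_Yf_ne_zero`.
* additivity: `τ_{S+T} G' - G' = τ_S (τ_T G' - G') + (τ_S G' - G')`, `tauPt_constPtOf`, injectivity.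
* kernel: `τ_T G' = G'` iff `τ_T X = X` iff `T ∈ C` (`transl_Xf_ne`).
-/

set_option autoImplicit false
set_option linter.unusedSectionVars false

open WeierstrassCurve
open scoped WeierstrassCurve.Affine

namespace Fermat.Agent.Velu

open Fermat.Agent.EV

noncomputable section

variable {k : Type*} [Field k] [DecidableEq k] [IsAlgClosed k] [CharZero k]
  (W : Affine k) [W.IsElliptic]
  (C : AddSubgroup W.Point) (hC : (C : Set W.Point).Finite)

theorem exists_constPtOf_eq (T : W.Point) :
    ∃ Q : (veluCurve W (C : Set W.Point)).Point, constPtOf W _ Q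
      = tauPt W C T (Gp W C hC two_ne_zero) - Gp W C hC two_ne_zero := by
  by_cases hT : T ∈ C
  · exact ⟨0, by rw [tauPt_Gp_of_mem W C hC _ hT, sub_self]; rfl⟩
  · have h0 := dd_transl_Xf' W C hC two_ne_zero 0
    have h0' := two_mul_transl_Yf_ne_zero W C hC two_ne_zero 0
    rw [transl_zero_apply, transl_zero_apply] at h0 h0'
    obtain ⟨Q, hQ⟩ := diff_const (dd W) (fun f hf => (dd_eq_zero_iff W).1 hf) two_ne_zero
      (veluCurve W (C : Set W.Point))
      (nonsingular_transl W C hC two_ne_zero T) (nonsingular_Xf_Yf W C hC two_ne_zero)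
      (transl_Xf_ne W C hC two_ne_zero hT)
      (dd_transl_Xf' W C hC two_ne_zero T) h0
      (two_mul_transl_Yf_ne_zero W C hC two_ne_zero T) h0'
    exact ⟨Q, hQ⟩

/-- the point `φ(T)` -/
def phiPt (T : W.Point) : (veluCurve W (C : Set W.Point)).Point :=
  (exists_constPtOf_eq W C hC T).choose

theorem constPtOf_phiPt (T : W.Point) :
    constPtOf W _ (phiPt W C hC T)
      = tauPt W C T (Gp W C hC two_ne_zero) - Gp W C hC two_ne_zero :=
  (exists_constPtOf_eq W C hC T).choose_spec

theorem tauPt_Gp_eq_add (T : W.Point) :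
    tauPt W C T (Gp W C hC two_ne_zero)
      = Gp W C hC two_ne_zero + constPtOf W _ (phiPt W C hC T) := by
  rw [constPtOf_phiPt]; abel

theorem phiPt_zero : phiPt W C hC 0 = 0 := by
  apply constPtOf_injective W
  rw [constPtOf_phiPt, tauPt_Gp_of_mem W C hC _ C.zero_mem, sub_self]
  rfl

theorem phiPt_add (S T : W.Point) :
    phiPt W C hC (S + T) = phiPt W C hC S + phiPt W C hC T := by
  apply constPtOf_injective W
  rw [map_add, constPtOf_phiPt, ← tauPt_tauPt, tauPt_Gp_eq_add W C hC T, map_add,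
    tauPt_constPtOf, tauPt_Gp_eq_add W C hC S]
  abel

/-- the Vélu isogeny -/
def phi : W.Point →+ (veluCurve W (C : Set W.Point)).Point where
  toFun T := phiPt W C hC T
  map_zero' := phiPt_zero W C hC
  map_add' := phiPt_add W C hC

theorem constPtOf_phi (T : W.Point) :
    constPtOf W _ (phi W C hC T)
      = tauPt W C T (Gp W C hC two_ne_zero) - Gp W C hC two_ne_zero :=
  constPtOf_phiPt W C hC T

theorem phi_eq_zero_iff (T : W.Point) : phi W C hC T = 0 ↔ T ∈ C := by
  constructor
  · intro h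
    by_contra hT
    have h1 := constPtOf_phi W C hC T
    rw [h, map_zero] at h1
    have h2 : tauPt W C T (Gp W C hC two_ne_zero) = Gp W C hC two_ne_zero :=
      (sub_eq_zero.1 h1.symm)
    rw [tauPt_Gp] at h2
    unfold Gp at h2
    exact transl_Xf_ne W C hC two_ne_zero hT (Affine.Point.some.inj h2).1
  · intro hT
    apply constPtOf_injective W
    rw [constPtOf_phi, tauPt_Gp_of_mem W C hC _ hT, sub_self]
    rfl

theorem ker_phi : (phi W C hC).ker = C := by
  ext T
  rw [AddMonoidHom.mem_ker, phi_eq_zero_iff]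

end

end Fermat.Agent.Velu
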