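import Fermat.Agent.E.Velu.Lift

/-!
# Vélu (V1), infrastructure I5: the invariant derivation of the function field

`dd W : Derivation k F F` with `dd x = ψ = 2y + a₁x + a₃`, `dd y = 3x² + 2a₂x + a₄ - a₁y`,
constructed with dual numbers: the point `(x + ψ ε, y + φ ε)` of `W` over `F[ε]`.
-/

set_option autoImplicit false

open WeierstrassCurve Polynomial
open scoped Polynomial.Bivariate WeierstrassCurve.Affine

namespace Fermat.Agent.Velu

noncomputable section

variable {k : Type*} [Field k] (W : Affine k)

/-- `ψ = 2y + a₁x + a₃`. -/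
def psiF : W.FunctionField :=
  2 * yg W + algebraMap k W.FunctionField W.a₁ * xg W + algebraMap k W.FunctionField W.a₃

/-- `φ = 3x² + 2a₂x + a₄ - a₁y`. -/
def phiF : W.FunctionField :=
  3 * xg W ^ 2 + 2 * algebraMap k W.FunctionField W.a₂ * xg W
    + algebraMap k W.FunctionField W.a₄ - algebraMap k W.FunctionField W.a₁ * yg W

/-- The generic point satisfies the Weierstrass equation (explicit form). -/
theorem equation_gen' :
    yg W ^ 2 + algebraMap k W.FunctionField W.a₁ * xg W * yg W
        + algebraMap k W.FunctionField W.a₃ * yg W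
      = xg W ^ 3 + algebraMap k W.FunctionField W.a₂ * xg W ^ 2
        + algebraMap k W.FunctionField W.a₄ * xg W + algebraMap k W.FunctionField W.a₆ :=
  (Affine.equation_iff _ _).1 (equation_gen W)

/-- Dual numbers over the function field. -/
abbrev DualF : Type _ := TrivSqZeroExt W.FunctionField W.FunctionField

/-- `x + ψ ε`. -/
def xDual : DualF W := TrivSqZeroExt.inl (xg W) + TrivSqZeroExt.inr (psiF W)

/-- `y + φ ε`. -/
def yDual : DualF W := TrivSqZeroExt.inl (yg W) + TrivSqZeroExt.inr (phiF W)

theorem algebraMap_dual (c : k) :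
    algebraMap k (DualF W) c = TrivSqZeroExt.inl (algebraMap k W.FunctionField c) := rfl

theorem equation_dual : (W⁄(DualF W)).Equation (xDual W) (yDual W) := by
  rw [Affine.equation_iff]
  have e1 : (W⁄(DualF W)).a₁ = TrivSqZeroExt.inl (algebraMap k W.FunctionField W.a₁) := rfl
  have e2 : (W⁄(DualF W)).a₂ = TrivSqZeroExt.inl (algebraMap k W.FunctionField W.a₂) := rfl
  have e3 : (W⁄(DualF W)).a₃ = TrivSqZeroExt.inl (algebraMap k W.FunctionField W.a₃) := rfl
  have e4 : (W⁄(DualF W)).a₄ = TrivSqZeroExt.inl (algebraMap k W.FunctionField W.a₄) := rfl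
  have e6 : (W⁄(DualF W)).a₆ = TrivSqZeroExt.inl (algebraMap k W.FunctionField W.a₆) := rfl
  rw [e1, e2, e3, e4, e6]
  have h := equation_gen' W
  apply TrivSqZeroExt.ext
  · simp only [xDual, yDual, TrivSqZeroExt.fst_add, TrivSqZeroExt.fst_mul, TrivSqZeroExt.fst_pow,
      TrivSqZeroExt.fst_inl, TrivSqZeroExt.fst_inr, add_zero]
    exact h
  · simp only [xDual, yDual, pow_succ, pow_zero, one_mul, TrivSqZeroExt.snd_add,
      TrivSqZeroExt.snd_mul, TrivSqZeroExt.fst_add, TrivSqZeroExt.fst_mul,
      TrivSqZeroExt.fst_inl, TrivSqZeroExt.fst_inr, TrivSqZeroExt.snd_inl,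
      TrivSqZeroExt.snd_inr, add_zero, zero_add, smul_eq_mul, MulOpposite.smul_eq_mul_unop,
      MulOpposite.unop_op, mul_zero, zero_mul, smul_zero]
    simp only [psiF, phiF]
    ring

/-- Two `k`-algebra homomorphisms out of the coordinate ring agreeing on `x`, `y` are equal. -/
theorem algHom_ext_coord {L : Type*} [CommRing L] [Algebra k L]
    {f g : W.CoordinateRing →ₐ[k] L}
    (hx : f (Affine.CoordinateRing.mk W (C X)) = g (Affine.CoordinateRing.mk W (C X)))
    (hy : f (Affine.CoordinateRing.mk W Y) = g (Affine.CoordinateRing.mk W Y)) : f = g := by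
  apply AlgHom.coe_ringHom_injective
  apply AdjoinRoot.ringHom_ext
  · apply Polynomial.ringHom_ext
    · intro c
      have e : (AdjoinRoot.of W.polynomial) (C c) = algebraMap k W.CoordinateRing c := rfl
      simp only [RingHom.comp_apply, e, RingHom.coe_coe, AlgHom.commutes]
    · exact hx
  · exact hy

/-- The `k`-algebra homomorphism `k[W] → F[ε]`, `a ↦ a + (∂a) ε`. -/
def dualA : W.CoordinateRing →ₐ[k] DualF W := liftA W (xDual W) (yDual W) (equation_dual W)

theorem fst_dualA (a : W.CoordinateRing) :
    (dualA W a).fst = algebraMap W.CoordinateRing W.FunctionField a := by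
  have : (TrivSqZeroExt.fstHom k W.FunctionField W.FunctionField).comp (dualA W)
      = IsScalarTower.toAlgHom k W.CoordinateRing W.FunctionField := by
    apply algHom_ext_coord
    · show (dualA W (Affine.CoordinateRing.mk W (C X))).fst
        = algebraMap W.CoordinateRing W.FunctionField (Affine.CoordinateRing.mk W (C X))
      rw [dualA, liftA_mk_X, xDual, TrivSqZeroExt.fst_add, TrivSqZeroExt.fst_inl,
        TrivSqZeroExt.fst_inr, add_zero]
      rfl
    · show (dualA W (Affine.CoordinateRing.mk W Y)).fst
        = algebraMap W.CoordinateRing W.FunctionField (Affine.CoordinateRing.mk W Y)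
      rw [dualA, liftA_mk_Y, yDual, TrivSqZeroExt.fst_add, TrivSqZeroExt.fst_inl,
        TrivSqZeroExt.fst_inr, add_zero]
      rfl
  exact DFunLike.congr_fun this a

theorem isUnit_dualA (a : nonZeroDivisors W.CoordinateRing) : IsUnit (dualA W a) := by
  rw [TrivSqZeroExt.isUnit_iff_isUnit_fst, fst_dualA, isUnit_iff_ne_zero]
  exact IsFractionRing.to_map_ne_zero_of_mem_nonZeroDivisors a.2

/-- The `k`-algebra homomorphism `F → F[ε]`, `f ↦ f + (∂f) ε`. -/
def dualFHom : W.FunctionField →ₐ[k] DualF W :=
  { IsLocalization.lift (M := nonZeroDivisors W.CoordinateRing)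
      (g := (dualA W : W.CoordinateRing →+* DualF W)) (isUnit_dualA W) with
    commutes' := fun c => by
      have : algebraMap k W.FunctionField c
          = algebraMap W.CoordinateRing W.FunctionField (algebraMap k W.CoordinateRing c) :=
        IsScalarTower.algebraMap_apply k W.CoordinateRing W.FunctionField c
      show IsLocalization.lift _ _ = _
      rw [this, IsLocalization.lift_eq]
      exact (dualA W).commutes c }

theorem dualFHom_algebraMap (a : W.CoordinateRing) :
    dualFHom W (algebraMap W.CoordinateRing W.FunctionField a) = dualA W a :=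
  IsLocalization.lift_eq _ a

theorem dualFHom_xg : dualFHom W (xg W) = xDual W := by
  rw [xg, dualFHom_algebraMap, dualA, liftA_mk_X]

theorem dualFHom_yg : dualFHom W (yg W) = yDual W := by
  rw [yg, dualFHom_algebraMap, dualA, liftA_mk_Y]

theorem fst_dualFHom (f : W.FunctionField) : (dualFHom W f).fst = f := by
  have : (TrivSqZeroExt.fstHom k W.FunctionField W.FunctionField).comp (dualFHom W)
      = AlgHom.id k W.FunctionField := by
    apply algHom_ext_gen
    · show (dualFHom W (xg W)).fst = xg W
      rw [dualFHom_xg, xDual, TrivSqZeroExt.fst_add, TrivSqZeroExt.fst_inl,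
        TrivSqZeroExt.fst_inr, add_zero]
    · show (dualFHom W (yg W)).fst = yg W
      rw [dualFHom_yg, yDual, TrivSqZeroExt.fst_add, TrivSqZeroExt.fst_inl,
        TrivSqZeroExt.fst_inr, add_zero]
  exact DFunLike.congr_fun this f

/-- The invariant derivation `∂` of the function field:
`∂x = 2y + a₁x + a₃`, `∂y = 3x² + 2a₂x + a₄ - a₁y`. -/
def dd : Derivation k W.FunctionField W.FunctionField where
  toFun f := (dualFHom W f).snd
  map_add' f g := by rw [map_add, TrivSqZeroExt.snd_add]
  map_smul' c f := by rw [map_smul, TrivSqZeroExt.snd_smul]; rfl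
  map_one_eq_zero' := by
    show (dualFHom W 1).snd = 0
    rw [map_one, TrivSqZeroExt.snd_one]
  leibniz' f g := by
    show (dualFHom W (f * g)).snd = f • (dualFHom W g).snd + g • (dualFHom W f).snd
    rw [map_mul, TrivSqZeroExt.snd_mul, fst_dualFHom, fst_dualFHom, op_smul_eq_smul]

theorem dd_apply (f : W.FunctionField) : dd W f = (dualFHom W f).snd := rfl

theorem dd_xg : dd W (xg W) = 2 * yg W + algebraMap k W.FunctionField W.a₁ * xg W
    + algebraMap k W.FunctionField W.a₃ := by
  rw [dd_apply, dualFHom_xg, xDual, TrivSqZeroExt.snd_add, TrivSqZeroExt.snd_inl,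
    TrivSqZeroExt.snd_inr, zero_add]
  rfl

theorem dd_yg : dd W (yg W) = 3 * xg W ^ 2 + 2 * algebraMap k W.FunctionField W.a₂ * xg W
    + algebraMap k W.FunctionField W.a₄ - algebraMap k W.FunctionField W.a₁ * yg W := by
  rw [dd_apply, dualFHom_yg, yDual, TrivSqZeroExt.snd_add, TrivSqZeroExt.snd_inl,
    TrivSqZeroExt.snd_inr, zero_add]
  rfl

theorem dd_xg' : dd W (xg W) = psiF W := dd_xg W

theorem dd_yg' : dd W (yg W) = phiF W := dd_yg W

theorem dd_const (c : k) : dd W (algebraMap k W.FunctionField c) = 0 :=
  (dd W).map_algebraMap c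

/-- `∂ (p(x)) = p'(x) ψ`. -/
theorem dd_polynomial (p : k[X]) :
    dd W (algebraMap k[X] W.FunctionField p)
      = algebraMap k[X] W.FunctionField (derivative p) * psiF W := by
  have hx : algebraMap k[X] W.FunctionField X = xg W := by
    rw [IsScalarTower.algebraMap_apply k[X] W.CoordinateRing W.FunctionField]; rfl
  have hC : ∀ c : k, algebraMap k[X] W.FunctionField (C c) = algebraMap k W.FunctionField c := by
    intro c
    rw [IsScalarTower.algebraMap_apply k k[X] W.FunctionField]; rfl
  induction p using Polynomial.induction_on' with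
  | add p q hp hq => rw [map_add, map_add, hp, hq, derivative_add, map_add, add_mul]
  | monomial n c =>
    rw [← C_mul_X_pow_eq_monomial, derivative_C_mul_X_pow]
    simp only [map_mul, map_pow, hx, hC, Derivation.leibniz, Derivation.leibniz_pow, dd_const,
      dd_xg', smul_eq_mul, nsmul_eq_mul, smul_zero, add_zero, map_natCast]
    ring

end

end Fermat.Agent.Velu
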