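import Mathlib

/-!
# Vélu (E-V), leaf (★): the `k(x)`-lemma

`F ⊇ k` a field with a valuation `v` (`v ≤ 1` on `k`), `x ∈ F` such that nonzero polynomials in `x`
are not small.  `xs` a finite set of elements of `k`, and for every `a ∈ xs` a ring endomorphism
`τ a` of `F` fixing `k` with `τ a x ≡ a` modulo the maximal ideal.  If `R ∈ F` is of the form
`N(x)/D(x)^m`, `D = ∏_{a ∈ xs} (x - a)`, is small, and is fixed by all `τ a`, then `R = 0`.
-/

set_option autoImplicit false

open Polynomial

namespace Fermat.Agent.Velu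

variable {k F Γ₀ : Type*} [Field k] [Field F] [Algebra k F]
  [LinearOrderedCommGroupWithZero Γ₀]

/-- a polynomial with coefficients in `k` takes integral values at integral arguments -/
theorem kx_val_aeval_le_one (v : Valuation F Γ₀) (hv : ∀ c : k, v (algebraMap k F c) ≤ 1)
    {ξ : F} (hξ : v ξ ≤ 1) (Q : k[X]) : v (aeval ξ Q) ≤ 1 := by
  rw [Polynomial.aeval_eq_sum_range]
  apply Valuation.map_sum_le
  intro i _
  rw [Algebra.smul_def, map_mul, map_pow]
  exact mul_le_one' (hv _) (pow_le_one' hξ i)

/-- congruent arguments give congruent polynomial values -/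
theorem val_aeval_sub_lt (v : Valuation F Γ₀) (hv : ∀ c : k, v (algebraMap k F c) ≤ 1)
    {ξ : F} {a : k} (hξ : v (ξ - algebraMap k F a) < 1) (N : k[X]) :
    v (aeval ξ N - algebraMap k F (N.eval a)) < 1 := by
  obtain ⟨Q, hQ⟩ := Polynomial.X_sub_C_dvd_sub_C_eval (a := a) (p := N)
  have h1 : aeval ξ N - algebraMap k F (N.eval a) = (ξ - algebraMap k F a) * aeval ξ Q := by
    have := congrArg (aeval ξ) hQ
    simpa using this
  have hξ1 : v ξ ≤ 1 := by
    have e : ξ = (ξ - algebraMap k F a) + algebraMap k F a := by ring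
    rw [e]
    exact v.map_add_le hξ.le (hv a)
  rw [h1, map_mul]
  calc v (ξ - algebraMap k F a) * v (aeval ξ Q)
      ≤ v (ξ - algebraMap k F a) * 1 := by
        gcongr
        exact kx_val_aeval_le_one v hv hξ1 Q
    _ < 1 := by simpa using hξ

/-- **(★)** -/
theorem kx_lemma (v : Valuation F Γ₀) (hv : ∀ c : k, v (algebraMap k F c) ≤ 1)
    (hv1 : ∀ c : k, c ≠ 0 → v (algebraMap k F c) = 1)
    {x : F} (hx : ∀ N : k[X], N ≠ 0 → 1 ≤ v (aeval x N))
    (xs : Finset k) (τ : k → F →ₐ[k] F) (hτ : ∀ a ∈ xs, v (τ a x - algebraMap k F a) < 1)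
    {R : F} (hR : v R < 1) (hinv : ∀ a ∈ xs, τ a R = R)
    (m : ℕ) (N : k[X]) (hN : R * (∏ a ∈ xs, (x - algebraMap k F a)) ^ m = aeval x N) :
    R = 0 := by
  have hDp0 : (∏ a ∈ xs, (X - C a) : k[X]) ≠ 0 :=
    Finset.prod_ne_zero_iff.mpr (fun a _ => X_sub_C_ne_zero a)
  have hDx : aeval x (∏ a ∈ xs, (X - C a) : k[X]) = ∏ a ∈ xs, (x - algebraMap k F a) := by
    simp [map_prod]
  have hDx0 : (∏ a ∈ xs, (x - algebraMap k F a)) ≠ 0 := by
    rw [← hDx]
    intro h
    have := hx _ hDp0
    rw [h, map_zero] at this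
    exact absurd this (by simp)
  induction m generalizing N with
  | zero =>
    by_contra hR0
    have hN0 : N ≠ 0 := by
      rintro rfl
      simp at hN
      exact hR0 hN
    have := hx N hN0
    rw [← hN, pow_zero, mul_one] at this
    exact absurd hR (not_lt.mpr this)
  | succ m ih =>
    have hroot : ∀ a ∈ xs, N.eval a = 0 := by
      intro a ha
      by_contra hne
      have h1 : v (algebraMap k F (N.eval a)) = 1 := hv1 _ hne
      have h2 : R * (∏ b ∈ xs, (τ a x - algebraMap k F b)) ^ (m + 1) = aeval (τ a x) N := by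
        have := congrArg (τ a) hN
        simpa [map_mul, map_pow, map_prod, hinv a ha, Polynomial.aeval_algHom_apply] using this
      have hτ1 : v (τ a x) ≤ 1 := by
        have e : τ a x = (τ a x - algebraMap k F a) + algebraMap k F a := by ring
        rw [e]
        exact v.map_add_le (hτ a ha).le (hv a)
      have hprod : v ((∏ b ∈ xs, (τ a x - algebraMap k F b)) ^ (m + 1)) ≤ 1 := by
        rw [map_pow, map_prod]
        apply pow_le_one'
        apply Finset.prod_le_one'
        intro b _
        exact v.map_sub_le hτ1 (hv b)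
      have h3 : v (aeval (τ a x) N) < 1 := by
        rw [← h2, map_mul]
        calc v R * v ((∏ b ∈ xs, (τ a x - algebraMap k F b)) ^ (m + 1))
            ≤ v R * 1 := by gcongr
          _ < 1 := by simpa using hR
      have h4 := val_aeval_sub_lt v hv (hτ a ha) N
      have h5 : v (algebraMap k F (N.eval a)) < 1 := by
        have e : algebraMap k F (N.eval a)
            = aeval (τ a x) N - (aeval (τ a x) N - algebraMap k F (N.eval a)) := by ring
        rw [e]
        exact v.map_sub_lt h3 h4
      rw [h1] at h5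
      exact lt_irrefl _ h5
    have hdvd : (∏ a ∈ xs, (X - C a) : k[X]) ∣ N := by
      apply Finset.prod_dvd_of_coprime
      · intro a _ b _ hab
        exact Polynomial.isCoprime_X_sub_C_of_isUnit_sub (sub_ne_zero.mpr hab).isUnit
      · intro a ha
        exact Polynomial.dvd_iff_isRoot.mpr (hroot a ha)
    obtain ⟨N', rfl⟩ := hdvd
    apply ih N'
    have h6 : R * (∏ a ∈ xs, (x - algebraMap k F a)) ^ m * (∏ a ∈ xs, (x - algebraMap k F a))
        = aeval x N' * (∏ a ∈ xs, (x - algebraMap k F a)) := by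
      rw [map_mul, hDx] at hN
      rw [mul_assoc, ← pow_succ, hN, mul_comm]
    exact mul_right_cancel₀ hDx0 h6

end Fermat.Agent.Velu
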