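import Mathlib

/-!
# Vélu (E-V), leaf L-red: `G + D` reduces to `D` when `G` reduces to `O`

`W` a Weierstrass curve over `k`, `F ⊇ k` a field with a valuation `v` which is `≤ 1` on `k`.
If `G = (X, Y)` is a point of `W` over `F` with `1 < v X` (a pole at the place), and `D = (x₀, y₀)` is
a point of `W` over `k`, then the coordinates of `G + D` (chord formula) are congruent to
`(x₀, y₀)` modulo the maximal ideal of `v`.

(stub: helper52; proofs: helper72.  Certificates by script: modulo the equation of `G`,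
`(X − x₀)² (x₃ − x₀)` is linear in `X, Y` and `(X − x₀)³ (y₃ − y₀)` is a combination of
`X², X Y, X, Y, 1`, with coefficients in `k`.)
-/

set_option autoImplicit false
set_option linter.unusedVariables false

open WeierstrassCurve
open scoped WeierstrassCurve.Affine

namespace Fermat.Agent.Velu

section Alg

variable {F : Type*} [Field F]

/-- `(X − c)² (x₃ − c)` is linear in `X`, `Y`. -/
theorem lred_alg_x (A₁ A₂ A₃ A₄ A₆ X Y c e : F)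
    (hG : Y ^ 2 + A₁ * X * Y + A₃ * Y = X ^ 3 + A₂ * X ^ 2 + A₄ * X + A₆) (hd : X - c ≠ 0) :
    (((Y - e) / (X - c)) ^ 2 + A₁ * ((Y - e) / (X - c)) - A₂ - X - c) - c
      = ((3 * c ^ 2 + 2 * c * A₂ + (-1) * e * A₁ + A₄) * X + ((-1) * c * A₁ + (-2) * e + (-1) * A₃) * Y
          + ((-2) * c ^ 3 + (-1) * c ^ 2 * A₂ + c * e * A₁ + e ^ 2 + A₆)) / (X - c) ^ 2 := by
  rw [eq_div_iff (pow_ne_zero 2 hd)]
  field_simp
  linear_combination hG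

/-- `(X − c)³ (y₃ − e)` is a combination of `X², X Y, X, Y, 1`. -/
theorem lred_alg_y (A₁ A₂ A₃ A₄ A₆ X Y c e : F)
    (hG : Y ^ 2 + A₁ * X * Y + A₃ * Y = X ^ 3 + A₂ * X ^ 2 + A₄ * X + A₆) (hd : X - c ≠ 0) :
    (-(((Y - e) / (X - c)) *
          ((((Y - e) / (X - c)) ^ 2 + A₁ * ((Y - e) / (X - c)) - A₂ - X - c) - X) + Y)
        - A₁ * (((Y - e) / (X - c)) ^ 2 + A₁ * ((Y - e) / (X - c)) - A₂ - X - c) - A₃) - e
      = ((6 * c * e + (-1) * c * A₁ * A₂ + 3 * c * A₃ + e * A₁ ^ 2 + 2 * e * A₂ + (-1) * A₁ * A₄ + A₂ * A₃) * X ^ 2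
          + ((-3) * c ^ 2 + (-2) * c * A₂ + e * A₁ + (-1) * A₄) * (X * Y)
          + (2 * c ^ 3 * A₁ + (-3) * c ^ 2 * e + 3 * c ^ 2 * A₁ * A₂ + (-3) * c ^ 2 * A₃ + (-2) * c * e * A₁ ^ 2 + 2 * c * e * A₂ + 2 * c * A₁ * A₄ + (-2) * e ^ 2 * A₁ + 3 * e * A₄ + (-1) * A₁ * A₆ + A₃ * A₄) * X
          + (2 * c ^ 3 + (-1) * c ^ 2 * A₁ ^ 2 + c ^ 2 * A₂ + (-4) * c * e * A₁ + (-2) * c * A₁ * A₃ + (-3) * e ^ 2 + (-3) * e * A₃ + (-1) * A₃ ^ 2 + (-1) * A₆) * Y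
          + ((-1) * c ^ 4 * A₁ + (-1) * c ^ 3 * A₁ * A₂ + c ^ 3 * A₃ + c ^ 2 * e * A₁ ^ 2 + (-1) * c ^ 2 * e * A₂ + 2 * c * e ^ 2 * A₁ + 2 * c * A₁ * A₆ + e ^ 3 + 3 * e * A₆ + A₃ * A₆)) / (X - c) ^ 3 := by
  rw [eq_div_iff (pow_ne_zero 3 hd)]
  field_simp
  linear_combination (-(X * A₁) - Y + 2 * c * A₁ + 3 * e + A₃) * hG

end Alg

variable {k F Γ₀ : Type*} [Field k] [Field F] [Algebra k F]
  [LinearOrderedCommGroupWithZero Γ₀]

/-- the `y`-coordinate has a pole of order `3/2` times that of `x`: here `v Y < v X ^ 2` and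
`v X < v Y` -/
theorem val_Y_of_pole (v : Valuation F Γ₀) (hv : ∀ c : k, v (algebraMap k F c) ≤ 1)
    (W : Affine k) {X Y : F} (hXY : (W⁄F).Equation X Y) (hX : 1 < v X) :
    v X < v Y ∧ v Y < v X ^ 2 ∧ v Y ^ 2 = v X ^ 3 := by
  have e := (Affine.equation_iff _ _).mp hXY
  have h1 : v (W⁄F).a₁ ≤ 1 := hv W.a₁
  have h2 : v (W⁄F).a₂ ≤ 1 := hv W.a₂
  have h3 : v (W⁄F).a₃ ≤ 1 := hv W.a₃
  have h4 : v (W⁄F).a₄ ≤ 1 := hv W.a₄
  have h6 : v (W⁄F).a₆ ≤ 1 := hv W.a₆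
  generalize (W⁄F).a₁ = A₁ at *
  generalize (W⁄F).a₂ = A₂ at *
  generalize (W⁄F).a₃ = A₃ at *
  generalize (W⁄F).a₄ = A₄ at *
  generalize (W⁄F).a₆ = A₆ at *
  have hX0 : 0 < v X := lt_trans zero_lt_one hX
  have hX12 : v X < v X ^ 2 := by
    have := pow_lt_pow_right₀ hX (show 1 < 2 by norm_num)
    rwa [pow_one] at this
  have hX23 : v X ^ 2 < v X ^ 3 := pow_lt_pow_right₀ hX (by norm_num)
  have hX1 : 1 < v X ^ 2 := lt_trans hX hX12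
  -- the right-hand side has valuation `v X ^ 3`
  have hR : v (X ^ 3 + A₂ * X ^ 2 + A₄ * X + A₆) = v X ^ 3 := by
    have ha : v (A₂ * X ^ 2) ≤ v X ^ 2 := by
      rw [map_mul, map_pow]; exact mul_le_of_le_one_left' h2
    have hb : v (A₄ * X) ≤ v X := by
      rw [map_mul]; exact mul_le_of_le_one_left' h4
    have hrest : v (A₂ * X ^ 2 + A₄ * X + A₆) < v X ^ 3 := by
      refine lt_of_le_of_lt (v.map_add_le (v.map_add_le ha (hb.trans hX12.le))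
        (h6.trans hX1.le)) hX23
    have : X ^ 3 + A₂ * X ^ 2 + A₄ * X + A₆ = X ^ 3 + (A₂ * X ^ 2 + A₄ * X + A₆) := by ring
    rw [this, v.map_add_eq_of_lt_left (by rw [map_pow]; exact hrest), map_pow]
  rw [← e] at hR
  -- `v X < v Y`
  have hXY' : v X < v Y := by
    by_contra hcon
    rw [not_lt] at hcon
    have ha : v (Y ^ 2) ≤ v X ^ 2 := by
      rw [map_pow]; exact pow_le_pow_left₀ zero_le hcon 2
    have hb : v (A₁ * X * Y) ≤ v X ^ 2 := by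
      rw [map_mul, map_mul, pow_two]
      exact mul_le_mul' (mul_le_of_le_one_left' h1) hcon
    have hc : v (A₃ * Y) ≤ v X ^ 2 := by
      rw [map_mul]
      exact (mul_le_of_le_one_left' h3).trans (hcon.trans hX12.le)
    have : v (Y ^ 2 + A₁ * X * Y + A₃ * Y) ≤ v X ^ 2 := v.map_add_le (v.map_add_le ha hb) hc
    rw [hR] at this
    exact absurd this (not_le.mpr hX23)
  have hY1 : 1 < v Y := lt_trans hX hXY'
  -- `v (Y ^ 2 + …) = v Y ^ 2`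
  have hL : v (Y ^ 2 + A₁ * X * Y + A₃ * Y) = v Y ^ 2 := by
    have hfac : Y ^ 2 + A₁ * X * Y + A₃ * Y = Y * (Y + (A₁ * X + A₃)) := by ring
    have hsmall : v (A₁ * X + A₃) < v Y := by
      refine lt_of_le_of_lt (v.map_add_le (g := v X) ?_ (h3.trans hX.le)) hXY'
      rw [map_mul]; exact mul_le_of_le_one_left' h1
    rw [hfac, map_mul, v.map_add_eq_of_lt_left hsmall, pow_two]
  have h23 : v Y ^ 2 = v X ^ 3 := by rw [← hL, hR]
  refine ⟨hXY', ?_, h23⟩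
  by_contra hcon
  rw [not_lt] at hcon
  have h4' : (v X ^ 2) ^ 2 ≤ v Y ^ 2 := pow_le_pow_left₀ zero_le hcon 2
  rw [h23, ← pow_mul] at h4'
  exact absurd h4' (not_le.mpr (pow_lt_pow_right₀ hX (by norm_num)))

/-- **(L-red)** -/
theorem lred (v : Valuation F Γ₀) (hv : ∀ c : k, v (algebraMap k F c) ≤ 1)
    (W : Affine k) {X Y : F} (hXY : (W⁄F).Equation X Y) (hX : 1 < v X)
    {x₀ y₀ : k} (h₀ : W.Equation x₀ y₀) :
    v ((W⁄F).addX X (algebraMap k F x₀)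
          ((Y - algebraMap k F y₀) / (X - algebraMap k F x₀)) - algebraMap k F x₀) < 1 ∧
      v ((W⁄F).addY X (algebraMap k F x₀) Y
          ((Y - algebraMap k F y₀) / (X - algebraMap k F x₀)) - algebraMap k F y₀) < 1 := by
  obtain ⟨hXY1, hXY2, hXY3⟩ := val_Y_of_pole v hv W hXY hX
  have e := (Affine.equation_iff _ _).mp hXY
  have hX0 : 0 < v X := lt_trans zero_lt_one hX
  have hY1 : 1 < v Y := lt_trans hX hXY1
  have hc : v (algebraMap k F x₀) ≤ 1 := hv x₀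
  have hdv : v (X - algebraMap k F x₀) = v X :=
    v.map_sub_eq_of_lt_left (lt_of_le_of_lt hc hX)
  have hd : X - algebraMap k F x₀ ≠ 0 := by
    intro h0
    rw [h0, map_zero] at hdv
    exact hX0.ne hdv
  have hmul : ∀ (t : k) (z : F), v (algebraMap k F t * z) ≤ v z := fun t z => by
    rw [map_mul]; exact mul_le_of_le_one_left' (hv t)
  have hXle : v X ≤ v Y := hXY1.le
  have hXYle : v X ≤ v X * v Y := le_mul_of_one_le_right' hY1.le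
  have hYle : v Y ≤ v X * v Y := le_mul_of_one_le_left' hX.le
  have hX2le : v X ^ 2 ≤ v X * v Y := by
    rw [pow_two]; exact mul_le_mul' le_rfl hXle
  have h1le : (1 : Γ₀) ≤ v X * v Y := hX.le.trans hXYle
  have hquot : v Y / v X ^ 2 < 1 := by
    rw [div_lt_one₀ (pow_pos hX0 2)]; exact hXY2
  constructor
  · have hform := lred_alg_x (W⁄F).a₁ (W⁄F).a₂ (W⁄F).a₃ (W⁄F).a₄ (W⁄F).a₆ X Y
      (algebraMap k F x₀) (algebraMap k F y₀) e hd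
    have hcoef : (W⁄F).addX X (algebraMap k F x₀)
          ((Y - algebraMap k F y₀) / (X - algebraMap k F x₀)) - algebraMap k F x₀
        = (algebraMap k F (3 * x₀ ^ 2 + 2 * x₀ * W.a₂ + (-1) * y₀ * W.a₁ + W.a₄) * X
            + algebraMap k F ((-1) * x₀ * W.a₁ + (-2) * y₀ + (-1) * W.a₃) * Y
            + algebraMap k F ((-2) * x₀ ^ 3 + (-1) * x₀ ^ 2 * W.a₂ + x₀ * y₀ * W.a₁ + y₀ ^ 2 + W.a₆))
          / (X - algebraMap k F x₀) ^ 2 := by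
      rw [show (W⁄F).addX X (algebraMap k F x₀)
          ((Y - algebraMap k F y₀) / (X - algebraMap k F x₀))
        = ((Y - algebraMap k F y₀) / (X - algebraMap k F x₀)) ^ 2
          + (W⁄F).a₁ * ((Y - algebraMap k F y₀) / (X - algebraMap k F x₀))
          - (W⁄F).a₂ - X - algebraMap k F x₀ from rfl, hform]
      simp only [map_add, map_mul, map_pow, map_neg, map_ofNat, map_one]
      rfl
    rw [hcoef, map_div₀, map_pow, hdv]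
    refine lt_of_le_of_lt (div_le_div_of_nonneg_right ?_ zero_le) hquot
    exact v.map_add_le (v.map_add_le ((hmul _ X).trans hXle) (hmul _ Y)) ((hv _).trans hY1.le)
  · have hform := lred_alg_y (W⁄F).a₁ (W⁄F).a₂ (W⁄F).a₃ (W⁄F).a₄ (W⁄F).a₆ X Y
      (algebraMap k F x₀) (algebraMap k F y₀) e hd
    have hcoef : (W⁄F).addY X (algebraMap k F x₀) Y
          ((Y - algebraMap k F y₀) / (X - algebraMap k F x₀)) - algebraMap k F y₀
        = (algebraMap k F (6 * x₀ * y₀ + (-1) * x₀ * W.a₁ * W.a₂ + 3 * x₀ * W.a₃ + y₀ * W.a₁ ^ 2 + 2 * y₀ * W.a₂ + (-1) * W.a₁ * W.a₄ + W.a₂ * W.a₃) * X ^ 2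
            + algebraMap k F ((-3) * x₀ ^ 2 + (-2) * x₀ * W.a₂ + y₀ * W.a₁ + (-1) * W.a₄) * (X * Y)
            + algebraMap k F (2 * x₀ ^ 3 * W.a₁ + (-3) * x₀ ^ 2 * y₀ + 3 * x₀ ^ 2 * W.a₁ * W.a₂ + (-3) * x₀ ^ 2 * W.a₃ + (-2) * x₀ * y₀ * W.a₁ ^ 2 + 2 * x₀ * y₀ * W.a₂ + 2 * x₀ * W.a₁ * W.a₄ + (-2) * y₀ ^ 2 * W.a₁ + 3 * y₀ * W.a₄ + (-1) * W.a₁ * W.a₆ + W.a₃ * W.a₄) * X
            + algebraMap k F (2 * x₀ ^ 3 + (-1) * x₀ ^ 2 * W.a₁ ^ 2 + x₀ ^ 2 * W.a₂ + (-4) * x₀ * y₀ * W.a₁ + (-2) * x₀ * W.a₁ * W.a₃ + (-3) * y₀ ^ 2 + (-3) * y₀ * W.a₃ + (-1) * W.a₃ ^ 2 + (-1) * W.a₆) * Y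
            + algebraMap k F ((-1) * x₀ ^ 4 * W.a₁ + (-1) * x₀ ^ 3 * W.a₁ * W.a₂ + x₀ ^ 3 * W.a₃ + x₀ ^ 2 * y₀ * W.a₁ ^ 2 + (-1) * x₀ ^ 2 * y₀ * W.a₂ + 2 * x₀ * y₀ ^ 2 * W.a₁ + 2 * x₀ * W.a₁ * W.a₆ + y₀ ^ 3 + 3 * y₀ * W.a₆ + W.a₃ * W.a₆))
          / (X - algebraMap k F x₀) ^ 3 := by
      rw [show (W⁄F).addY X (algebraMap k F x₀) Y
          ((Y - algebraMap k F y₀) / (X - algebraMap k F x₀))
        = -(((Y - algebraMap k F y₀) / (X - algebraMap k F x₀)) *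
            ((((Y - algebraMap k F y₀) / (X - algebraMap k F x₀)) ^ 2
              + (W⁄F).a₁ * ((Y - algebraMap k F y₀) / (X - algebraMap k F x₀))
              - (W⁄F).a₂ - X - algebraMap k F x₀) - X) + Y)
          - (W⁄F).a₁ * (((Y - algebraMap k F y₀) / (X - algebraMap k F x₀)) ^ 2
              + (W⁄F).a₁ * ((Y - algebraMap k F y₀) / (X - algebraMap k F x₀))
              - (W⁄F).a₂ - X - algebraMap k F x₀) - (W⁄F).a₃ from rfl, hform]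
      simp only [map_add, map_mul, map_pow, map_neg, map_ofNat, map_one]
      rfl
    rw [hcoef, map_div₀, map_pow, hdv]
    have hnum : v (algebraMap k F (6 * x₀ * y₀ + (-1) * x₀ * W.a₁ * W.a₂ + 3 * x₀ * W.a₃ + y₀ * W.a₁ ^ 2 + 2 * y₀ * W.a₂ + (-1) * W.a₁ * W.a₄ + W.a₂ * W.a₃) * X ^ 2
            + algebraMap k F ((-3) * x₀ ^ 2 + (-2) * x₀ * W.a₂ + y₀ * W.a₁ + (-1) * W.a₄) * (X * Y)
            + algebraMap k F (2 * x₀ ^ 3 * W.a₁ + (-3) * x₀ ^ 2 * y₀ + 3 * x₀ ^ 2 * W.a₁ * W.a₂ + (-3) * x₀ ^ 2 * W.a₃ + (-2) * x₀ * y₀ * W.a₁ ^ 2 + 2 * x₀ * y₀ * W.a₂ + 2 * x₀ * W.a₁ * W.a₄ + (-2) * y₀ ^ 2 * W.a₁ + 3 * y₀ * W.a₄ + (-1) * W.a₁ * W.a₆ + W.a₃ * W.a₄) * X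
            + algebraMap k F (2 * x₀ ^ 3 + (-1) * x₀ ^ 2 * W.a₁ ^ 2 + x₀ ^ 2 * W.a₂ + (-4) * x₀ * y₀ * W.a₁ + (-2) * x₀ * W.a₁ * W.a₃ + (-3) * y₀ ^ 2 + (-3) * y₀ * W.a₃ + (-1) * W.a₃ ^ 2 + (-1) * W.a₆) * Y
            + algebraMap k F ((-1) * x₀ ^ 4 * W.a₁ + (-1) * x₀ ^ 3 * W.a₁ * W.a₂ + x₀ ^ 3 * W.a₃ + x₀ ^ 2 * y₀ * W.a₁ ^ 2 + (-1) * x₀ ^ 2 * y₀ * W.a₂ + 2 * x₀ * y₀ ^ 2 * W.a₁ + 2 * x₀ * W.a₁ * W.a₆ + y₀ ^ 3 + 3 * y₀ * W.a₆ + W.a₃ * W.a₆)) ≤ v X * v Y := by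
      refine v.map_add_le (v.map_add_le (v.map_add_le (v.map_add_le ?_ ?_) ?_) ?_) ?_
      · exact (hmul _ _).trans (by rw [map_pow]; exact hX2le)
      · exact (hmul _ _).trans (by rw [map_mul])
      · exact (hmul _ _).trans hXYle
      · exact (hmul _ _).trans hYle
      · exact (hv _).trans h1le
    refine lt_of_le_of_lt (div_le_div_of_nonneg_right hnum zero_le) ?_
    have : v X * v Y / v X ^ 3 = v Y / v X ^ 2 := by
      rw [pow_succ, mul_comm (v X) (v Y), mul_div_mul_right _ _ hX0.ne']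
    rw [this]
    exact hquot

end Fermat.Agent.Velu
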