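import Fermat.Agent.E.Velu.Asym

/-!
# Vélu (E-V): the subalgebra `k[x][1/D(x)]` of a field `F ⊇ k`
-/

set_option autoImplicit false

open Polynomial

namespace Fermat.Agent.Velu

noncomputable section

variable {k F : Type*} [Field k] [Field F] [Algebra k F]

/-- the subalgebra `k[x][1/D(x)]` of `F` -/
def polyLoc (x : F) (D₀ : k[X]) : Subalgebra k F where
  carrier := {f | ∃ (m : ℕ) (N : k[X]), f * (aeval x D₀) ^ m = aeval x N}
  mul_mem' := by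
    rintro f g ⟨m, N, hf⟩ ⟨n, M, hg⟩
    refine ⟨m + n, N * M, ?_⟩
    rw [pow_add, map_mul, ← hf, ← hg]; ring
  add_mem' := by
    rintro f g ⟨m, N, hf⟩ ⟨n, M, hg⟩
    refine ⟨m + n, N * D₀ ^ n + M * D₀ ^ m, ?_⟩
    rw [pow_add, map_add, map_mul, map_mul, map_pow, map_pow, ← hf, ← hg]; ring
  algebraMap_mem' := fun c => ⟨0, C c, by simp⟩

theorem mem_polyLoc_iff {x : F} {D₀ : k[X]} {f : F} :
    f ∈ polyLoc x D₀ ↔ ∃ (m : ℕ) (N : k[X]), f * (aeval x D₀) ^ m = aeval x N := Iff.rfl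

theorem self_mem_polyLoc (x : F) (D₀ : k[X]) : x ∈ polyLoc x D₀ :=
  ⟨0, X, by simp⟩

theorem ofNat_mem_polyLoc (x : F) (D₀ : k[X]) (n : ℕ) [n.AtLeastTwo] :
    (OfNat.ofNat n : F) ∈ polyLoc x D₀ := by
  have := (polyLoc x D₀).algebraMap_mem (OfNat.ofNat n : k)
  rwa [map_ofNat] at this

theorem inv_sub_mem_polyLoc {x : F} (xs : Finset k) {a : k} (ha : a ∈ xs)
    (hxa : x - algebraMap k F a ≠ 0) :
    (x - algebraMap k F a)⁻¹ ∈ polyLoc x (∏ b ∈ xs, (X - C b)) := by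
  classical
  refine ⟨1, ∏ b ∈ xs.erase a, (X - C b), ?_⟩
  rw [pow_one, ← Finset.mul_prod_erase xs _ ha, map_mul, map_sub, aeval_X, aeval_C,
    ← mul_assoc, inv_mul_cancel₀ hxa, one_mul]

theorem div_two_mem_polyLoc {x : F} {D₀ : k[X]} {f : F} (hf : f ∈ polyLoc x D₀) :
    f / 2 ∈ polyLoc x D₀ := by
  have h : f / 2 = f * algebraMap k F (2⁻¹) := by
    rw [map_inv₀, map_ofNat, div_eq_mul_inv]
  rw [h]
  exact (polyLoc x D₀).mul_mem hf ((polyLoc x D₀).algebraMap_mem _)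

theorem rhoOf_mem_polyLoc {x : F} (xs : Finset k) {ι : Type*} (s : Finset ι) (a t u : ι → k)
    (ha : ∀ i ∈ s, a i ∈ xs) (hx : ∀ c : k, x - algebraMap k F c ≠ 0) :
    rhoOf s a t u x ∈ polyLoc x (∏ b ∈ xs, (X - C b)) := by
  unfold rhoOf
  refine div_two_mem_polyLoc (Subalgebra.sum_mem _ (fun i hi => ?_))
  have hinv := inv_sub_mem_polyLoc xs (ha i hi) (hx (a i))
  rw [div_eq_mul_inv, div_eq_mul_inv, ← inv_pow]
  exact Subalgebra.add_mem _ (Subalgebra.mul_mem _ (Subalgebra.algebraMap_mem _ _) hinv)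
    (Subalgebra.mul_mem _ (Subalgebra.algebraMap_mem _ _) (Subalgebra.pow_mem _ hinv 2))

theorem rhoDerivOf_mem_polyLoc {x : F} (xs : Finset k) {ι : Type*} (s : Finset ι)
    (a t u : ι → k) (ha : ∀ i ∈ s, a i ∈ xs) (hx : ∀ c : k, x - algebraMap k F c ≠ 0) :
    rhoDerivOf s a t u x ∈ polyLoc x (∏ b ∈ xs, (X - C b)) := by
  unfold rhoDerivOf
  refine div_two_mem_polyLoc (Subalgebra.neg_mem _ (Subalgebra.sum_mem _ (fun i hi => ?_)))
  have hinv := inv_sub_mem_polyLoc xs (ha i hi) (hx (a i))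
  rw [div_eq_mul_inv, div_eq_mul_inv, ← inv_pow, ← inv_pow]
  exact Subalgebra.add_mem _
    (Subalgebra.mul_mem _ (Subalgebra.algebraMap_mem _ _) (Subalgebra.pow_mem _ hinv 2))
    (Subalgebra.mul_mem _ (Subalgebra.mul_mem _ (ofNat_mem_polyLoc _ _ 2)
      (Subalgebra.algebraMap_mem _ _)) (Subalgebra.pow_mem _ hinv 3))

end

end Fermat.Agent.Velu
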