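import Fermat.Agent.E.Velu.XU
import Fermat.Agent.E.Velu.PolyLoc
import Fermat.Agent.E.Velu.KxLemma
import Fermat.Agent.E.Velu.LRed
import Fermat.Agent.E.Velu.V1x

/-!
# Vélu (E-V): the equation of the quotient curve in the function field

`(X, Y) = (Xf, Yf)` is a nonsingular point of `veluCurve W C` over `F = W.FunctionField`.
-/

set_option autoImplicit false
set_option linter.unusedSectionVars false

open WeierstrassCurve Polynomial
open scoped WeierstrassCurve.Affine

namespace Fermat.Agent.Velu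

noncomputable section

open Fermat.Agent.EV

section Val

variable {k F Γ₀ : Type*} [Field k] [Field F] [Algebra k F]
  [LinearOrderedCommGroupWithZero Γ₀]

theorem val_two_eq_one (v : Valuation F Γ₀) (hv : ∀ c : k, v (algebraMap k F c) ≤ 1)
    (h2 : (2 : k) ≠ 0) : v (2 : F) = 1 := by
  have h2F : (2 : F) ≠ 0 := by
    have := (map_ne_zero (algebraMap k F)).2 h2
    rwa [map_ofNat] at this
  apply le_antisymm
  · have := hv 2; rwa [map_ofNat] at this
  · have h := hv (2⁻¹)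
    rw [map_inv₀, map_ofNat, map_inv₀] at h
    have hpos : 0 < v (2 : F) := by
      rw [Valuation.pos_iff]; exact h2F
    by_contra hlt
    rw [not_le] at hlt
    have : 1 < (v (2 : F))⁻¹ := (one_lt_inv₀ hpos).2 hlt
    exact not_lt.2 h this

theorem val_rhoOf_lt (v : Valuation F Γ₀) (hv : ∀ c : k, v (algebraMap k F c) ≤ 1)
    (h2 : (2 : k) ≠ 0) {x : F} (hx : 1 < v x) {ι : Type*} (s : Finset ι) (a t u : ι → k) :
    v (rhoOf s a t u x) < 1 := by
  unfold rhoOf
  rw [map_div₀, val_two_eq_one v hv h2, div_one]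
  refine v.map_sum_lt one_ne_zero (fun i _ => ?_)
  have hi : v (x - algebraMap k F (a i))⁻¹ < 1 :=
    asym_val_inv_lt v (by rw [asym_val_sub_const v hv hx]; exact hx)
  rw [div_eq_mul_inv, div_eq_mul_inv, ← inv_pow]
  refine lt_of_le_of_lt (v.map_add _ _) (max_lt ?_ ?_)
  · exact asym_mul_small v ((Valuation.mem_integer_iff _ _).2 (hv _)) hi
  · refine asym_mul_small v ((Valuation.mem_integer_iff _ _).2 (hv _)) ?_
    rw [map_pow]
    exact pow_lt_one₀ zero_le hi (by norm_num)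

theorem val_rhoDerivOf_lt (v : Valuation F Γ₀) (hv : ∀ c : k, v (algebraMap k F c) ≤ 1)
    (h2 : (2 : k) ≠ 0) {x : F} (hx : 1 < v x) {ι : Type*} (s : Finset ι) (a t u : ι → k) :
    v (rhoDerivOf s a t u x) < 1 := by
  unfold rhoDerivOf
  rw [map_div₀, val_two_eq_one v hv h2, div_one, Valuation.map_neg]
  refine v.map_sum_lt one_ne_zero (fun i _ => ?_)
  have hi : v (x - algebraMap k F (a i))⁻¹ < 1 :=
    asym_val_inv_lt v (by rw [asym_val_sub_const v hv hx]; exact hx)
  rw [div_eq_mul_inv, div_eq_mul_inv, ← inv_pow, ← inv_pow]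
  refine lt_of_le_of_lt (v.map_add _ _) (max_lt ?_ ?_)
  · refine asym_mul_small v ((Valuation.mem_integer_iff _ _).2 (hv _)) ?_
    rw [map_pow]
    exact pow_lt_one₀ zero_le hi (by norm_num)
  · refine asym_mul_small v ?_ ?_
    · rw [Valuation.mem_integer_iff, map_mul, val_two_eq_one v hv h2, one_mul]
      exact hv _
    · rw [map_pow]
      exact pow_lt_one₀ zero_le hi (by norm_num)

end Val

section FF

variable {k : Type*} [Field k] [DecidableEq k] [IsAlgClosed k] (W : Affine k) [W.IsElliptic]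
variable (C : AddSubgroup W.Point) (hC : (C : Set W.Point).Finite)

/-- `η² = 4x³ + b₂x² + 2b₄x + b₆` -/
theorem etaF_sq : etaF W ^ 2 = 4 * xg W ^ 3 + algebraMap k W.FunctionField W.b₂ * xg W ^ 2
    + 2 * algebraMap k W.FunctionField W.b₄ * xg W + algebraMap k W.FunctionField W.b₆ := by
  have h := (Affine.equation_iff _ _).1 (equation_gen W)
  have e₁ : (W⁄W.FunctionField).a₁ = algebraMap k W.FunctionField W.a₁ := rfl
  have e₂ : (W⁄W.FunctionField).a₂ = algebraMap k W.FunctionField W.a₂ := rfl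
  have e₃ : (W⁄W.FunctionField).a₃ = algebraMap k W.FunctionField W.a₃ := rfl
  have e₄ : (W⁄W.FunctionField).a₄ = algebraMap k W.FunctionField W.a₄ := rfl
  have e₆ : (W⁄W.FunctionField).a₆ = algebraMap k W.FunctionField W.a₆ := rfl
  rw [e₁, e₂, e₃, e₄, e₆] at h
  unfold etaF
  simp only [WeierstrassCurve.b₂, WeierstrassCurve.b₄, WeierstrassCurve.b₆, map_add, map_mul,
    map_pow, map_ofNat]
  linear_combination 4 * h

/-- the set of the `x`-coordinates of the nonzero points of `C` -/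
def xsOf : Finset k := (Cs C hC).image ptX

/-- `t = (1/2) Σ t_T` -/
def tSum : k := (∑ T ∈ Cs C hC, veluT W T) / 2

/-- `w = (1/2) Σ (u_T + x_T t_T)` -/
def wSum : k := (∑ T ∈ Cs C hC, (veluU W T + ptX T * veluT W T)) / 2

/-- `Z = U² - (4X³ + b₂X² + 2b₄'X + b₆')` -/
def Zf : W.FunctionField :=
  Uf W C hC ^ 2 - (4 * Xf W C hC ^ 3 + algebraMap k W.FunctionField W.b₂ * Xf W C hC ^ 2
    + 2 * algebraMap k W.FunctionField (W.b₄ - 10 * tSum W C hC) * Xf W C hC
    + algebraMap k W.FunctionField (W.b₆ - 4 * W.b₂ * tSum W C hC - 28 * wSum W C hC))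

theorem Zf_eq (h2 : (2 : k) ≠ 0) :
    Zf W C hC = (4 * xg W ^ 3 + algebraMap k W.FunctionField W.b₂ * xg W ^ 2
          + 2 * algebraMap k W.FunctionField W.b₄ * xg W + algebraMap k W.FunctionField W.b₆)
          * (1 + rhoDerivOf (Cs C hC) ptX (veluT W) (veluU W) (xg W)) ^ 2
        - (4 * (xg W + rhoOf (Cs C hC) ptX (veluT W) (veluU W) (xg W)) ^ 3
            + algebraMap k W.FunctionField W.b₂
              * (xg W + rhoOf (Cs C hC) ptX (veluT W) (veluU W) (xg W)) ^ 2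
            + 2 * algebraMap k W.FunctionField (W.b₄ - 10 * ((∑ i ∈ Cs C hC, veluT W i) / 2))
              * (xg W + rhoOf (Cs C hC) ptX (veluT W) (veluU W) (xg W))
            + algebraMap k W.FunctionField (W.b₆ - 4 * W.b₂ * ((∑ i ∈ Cs C hC, veluT W i) / 2)
                - 28 * ((∑ i ∈ Cs C hC, (veluU W i + ptX i * veluT W i)) / 2))) := by
  unfold Zf tSum wSum
  rw [Uf_eq W C hC h2, Xf_eq W C hC h2, mul_pow, etaF_sq]

theorem vO_Zf_lt (h2 : (2 : k) ≠ 0) : vO W (Zf W C hC) < 1 := by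
  rw [Zf_eq W C hC h2]
  exact asym_Z (vO W) (vO_const_le W) h2 (one_lt_vO_xg W) _ _ _ _ _ _ _

theorem transl_Zf {D : W.Point} (hD : D ∈ C) : transl W D (Zf W C hC) = Zf W C hC := by
  unfold Zf
  simp only [map_sub, map_add, map_mul, map_pow, map_ofNat, AlgEquiv.commutes,
    transl_Xf W C hC hD, transl_Uf W C hC hD]

theorem Zf_mem_polyLoc (h2 : (2 : k) ≠ 0) :
    Zf W C hC ∈ polyLoc (xg W) (∏ b ∈ xsOf W C hC, (X - Polynomial.C b)) := by
  rw [Zf_eq W C hC h2]
  have hx : ∀ c : k, xg W - algebraMap k W.FunctionField c ≠ 0 :=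
    fun c => sub_ne_zero.2 (xg_ne_algebraMap W c)
  have ha : ∀ i ∈ Cs C hC, ptX i ∈ xsOf W C hC := fun i hi => Finset.mem_image_of_mem _ hi
  have h1 := rhoOf_mem_polyLoc (xsOf W C hC) (Cs C hC) ptX (veluT W) (veluU W) ha hx
  have h2' := rhoDerivOf_mem_polyLoc (xsOf W C hC) (Cs C hC) ptX (veluT W) (veluU W) ha hx
  have h3 := self_mem_polyLoc (xg W) (∏ b ∈ xsOf W C hC, (X - Polynomial.C b))
  have h4 : ∀ n : ℕ, ∀ [n.AtLeastTwo], (OfNat.ofNat n : W.FunctionField) ∈
      polyLoc (xg W) (∏ b ∈ xsOf W C hC, (X - Polynomial.C b)) := fun n _ => ofNat_mem_polyLoc _ _ n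
  have h5 : (1 : W.FunctionField) ∈ polyLoc (xg W) (∏ b ∈ xsOf W C hC, (X - Polynomial.C b)) :=
    Subalgebra.one_mem _
  have h6 : ∀ c : k, algebraMap k W.FunctionField c ∈
      polyLoc (xg W) (∏ b ∈ xsOf W C hC, (X - Polynomial.C b)) := fun c => Subalgebra.algebraMap_mem _ c
  refine Subalgebra.sub_mem _ (Subalgebra.mul_mem _ ?_ ?_) ?_
  · exact Subalgebra.add_mem _ (Subalgebra.add_mem _ (Subalgebra.add_mem _
      (Subalgebra.mul_mem _ (h4 4) (Subalgebra.pow_mem _ h3 3))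
      (Subalgebra.mul_mem _ (h6 _) (Subalgebra.pow_mem _ h3 2)))
      (Subalgebra.mul_mem _ (Subalgebra.mul_mem _ (h4 2) (h6 _)) h3)) (h6 _)
  · exact Subalgebra.pow_mem _ (Subalgebra.add_mem _ h5 h2') 2
  · have hX := Subalgebra.add_mem _ h3 h1
    exact Subalgebra.add_mem _ (Subalgebra.add_mem _ (Subalgebra.add_mem _
      (Subalgebra.mul_mem _ (h4 4) (Subalgebra.pow_mem _ hX 3))
      (Subalgebra.mul_mem _ (h6 _) (Subalgebra.pow_mem _ hX 2)))
      (Subalgebra.mul_mem _ (Subalgebra.mul_mem _ (h4 2) (h6 _)) hX)) (h6 _)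

/-- `τ_T x ≡ x_T` at `O` -/
theorem vO_transl_xg_sub_lt {T : W.Point} (hT : T ≠ 0) :
    vO W (transl W T (xg W) - algebraMap k W.FunctionField (ptX T)) < 1 := by
  cases T with
  | zero => exact absurd rfl hT
  | some a b h =>
    rw [transl_xg']
    exact (lred (vO W) (vO_const_le W) W (equation_gen W) (one_lt_vO_xg W) h.1).1

/-- `τ_T y ≡ y_T` at `O` -/
theorem vO_transl_yg_sub_lt {T : W.Point} (hT : T ≠ 0) :
    vO W (transl W T (yg W) - algebraMap k W.FunctionField (ptY T)) < 1 := by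
  cases T with
  | zero => exact absurd rfl hT
  | some a b h =>
    rw [transl_yg']
    exact (lred (vO W) (vO_const_le W) W (equation_gen W) (one_lt_vO_xg W) h.1).2

theorem one_le_vO_aeval {N : k[X]} (hN : N ≠ 0) : 1 ≤ vO W (aeval (xg W) N) := by
  rw [aeval_xg, vO_algebraMap_polynomial W N hN, ← WithZero.exp_zero, WithZero.exp_le_exp]
  positivity

open Classical in
/-- a translation `τ_T` with `x_T = a` (for `a` in `xsOf`) -/
def tauOf (a : k) : W.FunctionField →ₐ[k] W.FunctionField :=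
  if h : ∃ T ∈ Cs C hC, ptX T = a then (transl W h.choose : W.FunctionField →ₐ[k] W.FunctionField)
  else AlgHom.id k W.FunctionField

theorem tauOf_spec {a : k} (ha : a ∈ xsOf W C hC) :
    ∃ T ∈ Cs C hC, ptX T = a ∧
      tauOf W C hC a = (transl W T : W.FunctionField →ₐ[k] W.FunctionField) := by
  have h : ∃ T ∈ Cs C hC, ptX T = a := by
    simpa [xsOf] using ha
  refine ⟨h.choose, h.choose_spec.1, h.choose_spec.2, ?_⟩
  unfold tauOf
  rw [dif_pos h]

/-- **the equation in the function field**: `U² = 4X³ + b₂X² + 2b₄'X + b₆'` -/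
theorem Zf_eq_zero (h2 : (2 : k) ≠ 0) : Zf W C hC = 0 := by
  obtain ⟨m, N, hN⟩ := Zf_mem_polyLoc W C hC h2
  have hD : aeval (xg W) (∏ b ∈ xsOf W C hC, (X - Polynomial.C b))
      = ∏ b ∈ xsOf W C hC, (xg W - algebraMap k W.FunctionField b) := by
    simp [map_prod]
  rw [hD] at hN
  refine kx_lemma (vO W) (vO_const_le W) (vO_const W) (fun N hN => one_le_vO_aeval W hN)
    (xsOf W C hC) (tauOf W C hC) ?_ (vO_Zf_lt W C hC h2) ?_ m N hN
  · intro a ha
    obtain ⟨T, hT, hTa, hτ⟩ := tauOf_spec W C hC ha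
    rw [hτ, ← hTa]
    exact vO_transl_xg_sub_lt W (mem_Cs.1 hT).2
  · intro a ha
    obtain ⟨T, hT, _, hτ⟩ := tauOf_spec W C hC ha
    rw [hτ]
    exact transl_Zf W C hC (mem_Cs.1 hT).1

/-! ### the point `(X, Y)` of the quotient curve over the function field -/

theorem veluCurve_a₄ :
    (veluCurve W (C : Set W.Point)).a₄ = W.a₄ - 5 * tSum W C hC := by
  show W.a₄ - 5 * veluSumT W (C : Set W.Point) = _
  rw [veluSumT_eq W C hC]; rfl

theorem veluCurve_a₆ :
    (veluCurve W (C : Set W.Point)).a₆ = W.a₆ - W.b₂ * tSum W C hC - 7 * wSum W C hC := by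
  show W.a₆ - W.b₂ * veluSumT W (C : Set W.Point) - 7 * veluSumW W (C : Set W.Point) = _
  rw [veluSumT_eq W C hC, veluSumW_eq W C hC]; rfl

theorem two_ne_zero_FF (h2 : (2 : k) ≠ 0) : (2 : W.FunctionField) ≠ 0 := by
  have := (map_ne_zero (algebraMap k W.FunctionField)).2 h2
  rwa [map_ofNat] at this

theorem equation_Xf_Yf (h2 : (2 : k) ≠ 0) :
    ((veluCurve W (C : Set W.Point))⁄W.FunctionField).Equation (Xf W C hC) (Yf W C hC) := by
  rw [Affine.equation_iff]
  have hZ := Zf_eq_zero W C hC h2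
  have hU := Uf_eq_two_mul_Yf W C hC h2
  unfold Zf at hZ
  rw [hU] at hZ
  have e₁ : ((veluCurve W (C : Set W.Point))⁄W.FunctionField).a₁
      = algebraMap k W.FunctionField W.a₁ := rfl
  have e₂ : ((veluCurve W (C : Set W.Point))⁄W.FunctionField).a₂
      = algebraMap k W.FunctionField W.a₂ := rfl
  have e₃ : ((veluCurve W (C : Set W.Point))⁄W.FunctionField).a₃
      = algebraMap k W.FunctionField W.a₃ := rfl
  have e₄ : ((veluCurve W (C : Set W.Point))⁄W.FunctionField).a₄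
      = algebraMap k W.FunctionField (W.a₄ - 5 * tSum W C hC) := by
    rw [← veluCurve_a₄]; rfl
  have e₆ : ((veluCurve W (C : Set W.Point))⁄W.FunctionField).a₆
      = algebraMap k W.FunctionField (W.a₆ - W.b₂ * tSum W C hC - 7 * wSum W C hC) := by
    rw [← veluCurve_a₆]; rfl
  rw [e₁, e₂, e₃, e₄, e₆]
  have h4 : (4 : W.FunctionField) ≠ 0 := by
    have : (4 : W.FunctionField) = 2 * 2 := by norm_num
    rw [this]
    exact mul_ne_zero (two_ne_zero_FF W h2) (two_ne_zero_FF W h2)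
  simp only [WeierstrassCurve.b₂, WeierstrassCurve.b₄, WeierstrassCurve.b₆, map_add, map_sub,
    map_mul, map_pow, map_ofNat] at hZ ⊢
  apply mul_left_cancel₀ h4
  linear_combination hZ

theorem vO_Xf (h2 : (2 : k) ≠ 0) : vO W (Xf W C hC) = vO W (xg W) := by
  rw [Xf_eq W C hC h2]
  exact Valuation.map_add_eq_of_lt_left _ (lt_trans
    (val_rhoOf_lt (vO W) (vO_const_le W) h2 (one_lt_vO_xg W) _ _ _ _) (one_lt_vO_xg W))

theorem one_lt_vO_Xf (h2 : (2 : k) ≠ 0) : 1 < vO W (Xf W C hC) := by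
  rw [vO_Xf W C hC h2]; exact one_lt_vO_xg W

theorem etaF_ne_zero (h2 : (2 : k) ≠ 0) : etaF W ≠ 0 := by
  intro h
  have := vO_eta W h2
  rw [show (2 * yg W + algebraMap k W.FunctionField W.a₁ * xg W
      + algebraMap k W.FunctionField W.a₃) = etaF W from rfl, h, map_zero] at this
  exact WithZero.exp_ne_zero this.symm

theorem Uf_ne_zero (h2 : (2 : k) ≠ 0) : Uf W C hC ≠ 0 := by
  rw [Uf_eq W C hC h2]
  refine mul_ne_zero (etaF_ne_zero W h2) ?_
  intro h
  have h1 : vO W (1 + rhoDerivOf (Cs C hC) ptX (veluT W) (veluU W) (xg W)) = 1 := by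
    have := Valuation.map_add_eq_of_lt_left (vO W) (x := (1 : W.FunctionField))
      (y := rhoDerivOf (Cs C hC) ptX (veluT W) (veluU W) (xg W))
      (by rw [map_one]; exact val_rhoDerivOf_lt (vO W) (vO_const_le W) h2 (one_lt_vO_xg W) _ _ _ _)
    rw [this, map_one]
  rw [h, map_zero] at h1
  exact zero_ne_one h1

theorem nonsingular_Xf_Yf (h2 : (2 : k) ≠ 0) :
    ((veluCurve W (C : Set W.Point))⁄W.FunctionField).Nonsingular (Xf W C hC) (Yf W C hC) := by
  rw [Affine.nonsingular_iff]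
  refine ⟨equation_Xf_Yf W C hC h2, Or.inr ?_⟩
  intro h
  apply Uf_ne_zero W C hC h2
  rw [Uf_eq_two_mul_Yf W C hC h2]
  have e₁ : ((veluCurve W (C : Set W.Point))⁄W.FunctionField).a₁
      = algebraMap k W.FunctionField W.a₁ := rfl
  have e₃ : ((veluCurve W (C : Set W.Point))⁄W.FunctionField).a₃
      = algebraMap k W.FunctionField W.a₃ := rfl
  rw [e₁, e₃] at h
  linear_combination h

end FF

end

end Fermat.Agent.Velu
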