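import Fermat.Agent.E.Velu.ValO

/-!
# Vélu (V1), infrastructure I2b: the residue field of the place at `O` is `k`

`evO W f` is the value at `O` of a function `f` regular at `O`.  The main point is `evO_spec`:
every `f` with `vO W f ≤ 1` is congruent to a constant modulo the maximal ideal of the place.
-/

set_option autoImplicit false

open WeierstrassCurve Polynomial
open scoped Polynomial.Bivariate WeierstrassCurve.Affine

namespace Fermat.Agent.Velu

noncomputable section

variable {k : Type*} [Field k] (W : Affine k)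

/-! ### The pole order on the coordinate ring in terms of coefficients -/

theorem degExp_two_nsmul_degree_lt_iff (p : k[X]) (N : ℤ) :
    degExp (2 • p.degree) < WithZero.exp N ↔ ∀ i : ℕ, N ≤ 2 * (i : ℤ) → p.coeff i = 0 := by
  by_cases hp : p = 0
  · subst hp
    have : degExp (2 • (⊥ : WithBot ℕ)) = 0 := by rw [nsmul_eq_mul]; rfl
    rw [degree_zero, this]
    simp
  · rw [degExp_two_nsmul_degree hp, WithZero.exp_lt_exp]
    constructor
    · intro h i hi
      apply coeff_eq_zero_of_natDegree_lt
      have : (p.natDegree : ℤ) < i := by omega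
      exact_mod_cast this
    · intro h
      by_contra hlt
      rw [not_lt] at hlt
      have := h p.natDegree hlt
      rw [coeff_natDegree, leadingCoeff_eq_zero] at this
      exact hp this

theorem degExp_two_nsmul_degree_add_three_lt_iff (q : k[X]) (N : ℤ) :
    degExp (2 • q.degree + 3) < WithZero.exp N ↔ ∀ i : ℕ, N ≤ 2 * (i : ℤ) + 3 → q.coeff i = 0 := by
  by_cases hq : q = 0
  · subst hq
    have : degExp (2 • (⊥ : WithBot ℕ) + 3) = 0 := by rw [nsmul_eq_mul]; rfl
    rw [degree_zero, this]
    simp
  · rw [degExp_two_nsmul_degree_add_three hq, WithZero.exp_lt_exp]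
    constructor
    · intro h i hi
      apply coeff_eq_zero_of_natDegree_lt
      have : (q.natDegree : ℤ) < i := by omega
      exact_mod_cast this
    · intro h
      by_contra hlt
      rw [not_lt] at hlt
      have := h q.natDegree hlt
      rw [coeff_natDegree, leadingCoeff_eq_zero] at this
      exact hq this

/-- `p(x) + q(x) y` has pole order `< N` at `O` iff the coefficients of `x^i` (`2i ≥ N`) and
`x^i y` (`2i + 3 ≥ N`) vanish. -/
theorem vA_smul_basis_lt_iff (p q : k[X]) (N : ℤ) :
    vA W (p • (1 : W.CoordinateRing) + q • Affine.CoordinateRing.mk W Y) < WithZero.exp N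
      ↔ (∀ i : ℕ, N ≤ 2 * (i : ℤ) → p.coeff i = 0)
        ∧ (∀ i : ℕ, N ≤ 2 * (i : ℤ) + 3 → q.coeff i = 0) := by
  rw [vA_smul_basis, max_lt_iff, degExp_two_nsmul_degree_lt_iff,
    degExp_two_nsmul_degree_add_three_lt_iff]

theorem exp_lt_exp_add_one_iff_le (g : WithZero (Multiplicative ℤ)) (N : ℤ) :
    g < WithZero.exp (N + 1) ↔ g ≤ WithZero.exp N := by
  by_cases hg : g = 0
  · subst hg; simp
  · obtain ⟨n, rfl⟩ : ∃ n : ℤ, g = WithZero.exp n := ⟨WithZero.log g, (WithZero.exp_log hg).symm⟩
    rw [WithZero.exp_lt_exp, WithZero.exp_le_exp]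
    omega

theorem algebraMap_mul_smul_basis (c : k) (p q : k[X]) :
    algebraMap k W.CoordinateRing c
        * (p • (1 : W.CoordinateRing) + q • Affine.CoordinateRing.mk W Y)
      = (C c * p) • (1 : W.CoordinateRing) + (C c * q) • Affine.CoordinateRing.mk W Y := by
  have : algebraMap k W.CoordinateRing c = (C c : k[X]) • (1 : W.CoordinateRing) := by
    rw [IsScalarTower.algebraMap_apply k k[X] W.CoordinateRing, Algebra.algebraMap_eq_smul_one]
    rfl
  rw [this, smul_mul_assoc, one_mul, smul_add, smul_smul, smul_smul]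

/-- The graded pieces of the pole-order filtration are at most one-dimensional. -/
theorem exists_vA_sub_lt (a b : W.CoordinateRing) (N : ℤ) (hb : vA W b = WithZero.exp N)
    (ha : vA W a ≤ WithZero.exp N) :
    ∃ c : k, vA W (a - algebraMap k W.CoordinateRing c * b) < WithZero.exp N := by
  obtain ⟨p₁, q₁, rfl⟩ := Affine.CoordinateRing.exists_smul_basis_eq a
  obtain ⟨p₂, q₂, rfl⟩ := Affine.CoordinateRing.exists_smul_basis_eq b
  have ha' := (vA_smul_basis_lt_iff W p₁ q₁ (N + 1)).1
    ((exp_lt_exp_add_one_iff_le _ N).2 ha)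
  have hb' := (vA_smul_basis_lt_iff W p₂ q₂ (N + 1)).1
    ((exp_lt_exp_add_one_iff_le _ N).2 hb.le)
  have hb'' : ¬ ((∀ i : ℕ, N ≤ 2 * (i : ℤ) → p₂.coeff i = 0)
        ∧ (∀ i : ℕ, N ≤ 2 * (i : ℤ) + 3 → q₂.coeff i = 0)) := by
    rw [← vA_smul_basis_lt_iff W p₂ q₂ N, hb]
    exact lt_irrefl _
  have key : ∀ c : k, p₁ • (1 : W.CoordinateRing) + q₁ • Affine.CoordinateRing.mk W Y
        - algebraMap k W.CoordinateRing c
          * (p₂ • (1 : W.CoordinateRing) + q₂ • Affine.CoordinateRing.mk W Y)
      = (p₁ - C c * p₂) • (1 : W.CoordinateRing)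
          + (q₁ - C c * q₂) • Affine.CoordinateRing.mk W Y := by
    intro c
    rw [algebraMap_mul_smul_basis, sub_smul, sub_smul]
    abel
  rw [not_and_or] at hb''
  rcases hb'' with h | h
  · push Not at h
    obtain ⟨i₀, hi₀, hne⟩ := h
    have hi₀' : N = 2 * (i₀ : ℤ) := by
      by_contra hN
      exact hne (hb'.1 i₀ (by omega))
    refine ⟨p₁.coeff i₀ / p₂.coeff i₀, ?_⟩
    rw [key, vA_smul_basis_lt_iff]
    constructor
    · intro i hi
      rw [coeff_sub, coeff_C_mul]
      by_cases hii : i = i₀
      · subst hii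
        field_simp
        ring
      · have hi' : N + 1 ≤ 2 * (i : ℤ) := by
          have : (i : ℤ) ≠ i₀ := by exact_mod_cast hii
          omega
        rw [ha'.1 i hi', hb'.1 i hi', mul_zero, sub_zero]
    · intro i hi
      have hi' : N + 1 ≤ 2 * (i : ℤ) + 3 := by omega
      rw [coeff_sub, coeff_C_mul, ha'.2 i hi', hb'.2 i hi', mul_zero, sub_zero]
  · push Not at h
    obtain ⟨i₀, hi₀, hne⟩ := h
    have hi₀' : N = 2 * (i₀ : ℤ) + 3 := by
      by_contra hN
      exact hne (hb'.2 i₀ (by omega))
    refine ⟨q₁.coeff i₀ / q₂.coeff i₀, ?_⟩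
    rw [key, vA_smul_basis_lt_iff]
    constructor
    · intro i hi
      have hi' : N + 1 ≤ 2 * (i : ℤ) := by omega
      rw [coeff_sub, coeff_C_mul, ha'.1 i hi', hb'.1 i hi', mul_zero, sub_zero]
    · intro i hi
      rw [coeff_sub, coeff_C_mul]
      by_cases hii : i = i₀
      · subst hii
        field_simp
        ring
      · have hi' : N + 1 ≤ 2 * (i : ℤ) + 3 := by
          have : (i : ℤ) ≠ i₀ := by exact_mod_cast hii
          omega
        rw [ha'.2 i hi', hb'.2 i hi', mul_zero, sub_zero]

/-- The residue field of the place at `O` is `k`. -/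
theorem exists_vO_sub_lt {f : W.FunctionField} (hf : vO W f ≤ 1) :
    ∃ c : k, vO W (f - algebraMap k W.FunctionField c) < 1 := by
  obtain ⟨a, b, hb0, rfl⟩ := IsFractionRing.div_surjective (A := W.CoordinateRing) f
  have hb0' : b ≠ 0 := nonZeroDivisors.ne_zero hb0
  have hvb0 : vA W b ≠ 0 := fun h => hb0' ((vA_eq_zero_iff W b).1 h)
  obtain ⟨N, hN⟩ : ∃ N : ℤ, vA W b = WithZero.exp N :=
    ⟨WithZero.log (vA W b), (WithZero.exp_log hvb0).symm⟩
  have hbF : algebraMap W.CoordinateRing W.FunctionField b ≠ 0 := by
    intro h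
    exact hb0' ((IsFractionRing.injective W.CoordinateRing W.FunctionField)
      (by rw [h, map_zero]))
  have ha : vA W a ≤ WithZero.exp N := by
    rw [map_div₀, vO_algebraMap_eq, vO_algebraMap_eq] at hf
    rw [← hN]
    have hpos : 0 < vA W b := zero_lt_iff.2 hvb0
    rwa [div_le_one₀ hpos] at hf
  obtain ⟨c, hc⟩ := exists_vA_sub_lt W a b N hN ha
  refine ⟨c, ?_⟩
  have e : algebraMap W.CoordinateRing W.FunctionField a
        / algebraMap W.CoordinateRing W.FunctionField b - algebraMap k W.FunctionField c
      = algebraMap W.CoordinateRing W.FunctionField (a - algebraMap k W.CoordinateRing c * b)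
        / algebraMap W.CoordinateRing W.FunctionField b := by
    rw [map_sub, map_mul, ← IsScalarTower.algebraMap_apply k W.CoordinateRing W.FunctionField]
    field_simp
  rw [e, map_div₀, vO_algebraMap_eq, vO_algebraMap_eq, hN]
  have hpos : (0 : WithZero (Multiplicative ℤ)) < WithZero.exp N := WithZero.exp_pos
  rw [div_lt_one₀ hpos]
  exact hc

/-! ### The value at `O` -/

/-- Value at `O` of a function regular at `O` (junk `0` otherwise). -/
def evO (f : W.FunctionField) : k :=
  open Classical in
  if h : ∃ c : k, vO W (f - algebraMap k W.FunctionField c) < 1 then h.choose else 0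

theorem vO_sub_evO_of_exists {f : W.FunctionField}
    (h : ∃ c : k, vO W (f - algebraMap k W.FunctionField c) < 1) :
    vO W (f - algebraMap k W.FunctionField (evO W f)) < 1 := by
  rw [evO, dif_pos h]
  exact h.choose_spec

theorem evO_spec {f : W.FunctionField} (hf : vO W f ≤ 1) :
    vO W (f - algebraMap k W.FunctionField (evO W f)) < 1 :=
  vO_sub_evO_of_exists W (exists_vO_sub_lt W hf)

theorem evO_eq_of_lt {f : W.FunctionField} {c : k}
    (h : vO W (f - algebraMap k W.FunctionField c) < 1) : evO W f = c := by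
  have h' := vO_sub_evO_of_exists W ⟨c, h⟩
  by_contra hne
  have hd : evO W f - c ≠ 0 := sub_ne_zero.2 hne
  have h1 := vO_const W _ hd
  have e : algebraMap k W.FunctionField (evO W f - c)
      = (f - algebraMap k W.FunctionField c) - (f - algebraMap k W.FunctionField (evO W f)) := by
    rw [map_sub]; ring
  rw [e] at h1
  have := Valuation.map_sub_lt _ h h'
  rw [h1] at this
  exact lt_irrefl _ this

theorem evO_eq_zero_iff {f : W.FunctionField} (hf : vO W f ≤ 1) :
    evO W f = 0 ↔ vO W f < 1 := by
  constructor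
  · intro h
    have := evO_spec W hf
    rwa [h, map_zero, sub_zero] at this
  · intro h
    apply evO_eq_of_lt
    rwa [map_zero, sub_zero]

theorem evO_algebraMap (c : k) : evO W (algebraMap k W.FunctionField c) = c := by
  apply evO_eq_of_lt
  rw [sub_self, map_zero]
  exact zero_lt_one

theorem evO_add {f g : W.FunctionField} (hf : vO W f ≤ 1) (hg : vO W g ≤ 1) :
    evO W (f + g) = evO W f + evO W g := by
  apply evO_eq_of_lt
  have e : f + g - algebraMap k W.FunctionField (evO W f + evO W g)
      = (f - algebraMap k W.FunctionField (evO W f))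
        + (g - algebraMap k W.FunctionField (evO W g)) := by
    rw [map_add]; ring
  rw [e]
  exact Valuation.map_add_lt _ (evO_spec W hf) (evO_spec W hg)

theorem evO_mul {f g : W.FunctionField} (hf : vO W f ≤ 1) (hg : vO W g ≤ 1) :
    evO W (f * g) = evO W f * evO W g := by
  apply evO_eq_of_lt
  have e : f * g - algebraMap k W.FunctionField (evO W f * evO W g)
      = (f - algebraMap k W.FunctionField (evO W f)) * g
        + algebraMap k W.FunctionField (evO W f)
          * (g - algebraMap k W.FunctionField (evO W g)) := by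
    rw [map_mul]; ring
  rw [e]
  apply Valuation.map_add_lt
  · rw [map_mul]
    calc vO W (f - algebraMap k W.FunctionField (evO W f)) * vO W g
        ≤ vO W (f - algebraMap k W.FunctionField (evO W f)) * 1 := mul_le_mul' le_rfl hg
      _ = vO W (f - algebraMap k W.FunctionField (evO W f)) := mul_one _
      _ < 1 := evO_spec W hf
  · rw [map_mul]
    calc vO W (algebraMap k W.FunctionField (evO W f))
          * vO W (g - algebraMap k W.FunctionField (evO W g))
        ≤ 1 * vO W (g - algebraMap k W.FunctionField (evO W g)) :=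
          mul_le_mul' (vO_const_le W _) le_rfl
      _ = vO W (g - algebraMap k W.FunctionField (evO W g)) := one_mul _
      _ < 1 := evO_spec W hg

end

end Fermat.Agent.Velu
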