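import Fermat.Agent.E.Velu.ValO
import Fermat.Agent.E.Velu.Transl

/-!
# Vélu (V1), infrastructure I1c: negation on the function field

`negF W : F ≃ₐ[k] F`, `x ↦ x`, `y ↦ -y - a₁ x - a₃`; it preserves the valuation at `O` and
satisfies `ι ∘ τ_T = τ_{-T} ∘ ι`.
-/

set_option autoImplicit false

open WeierstrassCurve Polynomial
open scoped Polynomial.Bivariate WeierstrassCurve.Affine

namespace Fermat.Agent.Velu

noncomputable section

section General

variable {k : Type*} [Field k] (W : Affine k)

theorem negY_gen_eq : (W⁄W.FunctionField).negY (xg W) (yg W)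
    = -yg W - algebraMap k W.FunctionField W.a₁ * xg W - algebraMap k W.FunctionField W.a₃ :=
  rfl

theorem equation_neg_gen :
    (W⁄W.FunctionField).Equation (xg W) ((W⁄W.FunctionField).negY (xg W) (yg W)) :=
  (Affine.equation_neg _ _).2 (equation_gen W)

/-- Negation as an algebra endomorphism of the function field. -/
def negHom : W.FunctionField →ₐ[k] W.FunctionField :=
  liftF (W := W) (equation_neg_gen W) (xg_transcendental W)

theorem negHom_xg : negHom W (xg W) = xg W := liftF_xg _ _

theorem negHom_yg : negHom W (yg W) = (W⁄W.FunctionField).negY (xg W) (yg W) := liftF_yg _ _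

theorem negHom_comp_negHom : (negHom W).comp (negHom W) = AlgHom.id k W.FunctionField := by
  apply algHom_ext_gen
  · rw [AlgHom.comp_apply, negHom_xg, negHom_xg]; rfl
  · rw [AlgHom.comp_apply, negHom_yg, negY_gen_eq, map_sub, map_sub, map_neg, map_mul,
      AlgHom.commutes, AlgHom.commutes, negHom_xg, negHom_yg, negY_gen_eq]
    show _ = yg W
    ring

theorem negHom_negHom (f : W.FunctionField) : negHom W (negHom W f) = f := by
  have := congrArg (fun φ : W.FunctionField →ₐ[k] W.FunctionField => φ f) (negHom_comp_negHom W)
  exact this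

theorem negHom_algebraMap_polynomial (p : k[X]) :
    negHom W (algebraMap k[X] W.FunctionField p) = algebraMap k[X] W.FunctionField p := by
  rw [← aeval_xg, ← aeval_algHom_apply, negHom_xg]

theorem algebraMap_smul_basis (p q : k[X]) :
    algebraMap W.CoordinateRing W.FunctionField
        (p • (1 : W.CoordinateRing) + q • Affine.CoordinateRing.mk W Y)
      = algebraMap k[X] W.FunctionField p + algebraMap k[X] W.FunctionField q * yg W := by
  rw [map_add, ← algebraMap_polynomial_eq, Algebra.smul_def, map_mul,
    ← IsScalarTower.algebraMap_apply k[X] W.CoordinateRing W.FunctionField]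
  rfl

/-- the conjugate of `p + q y` -/
theorem negHom_algebraMap_smul_basis (p q : k[X]) :
    negHom W (algebraMap W.CoordinateRing W.FunctionField
        (p • (1 : W.CoordinateRing) + q • Affine.CoordinateRing.mk W Y))
      = algebraMap W.CoordinateRing W.FunctionField
          ((p - q * (C W.a₁ * X + C W.a₃)) • (1 : W.CoordinateRing)
            + (-q) • Affine.CoordinateRing.mk W Y) := by
  rw [algebraMap_smul_basis, algebraMap_smul_basis, map_add, map_mul,
    negHom_algebraMap_polynomial, negHom_algebraMap_polynomial, negHom_yg, negY_gen_eq,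
    map_sub, map_mul, map_add, map_mul, map_neg, ← algebraMap_const_eq, ← algebraMap_const_eq,
    ← xg_eq]
  ring

theorem vA_conj (p q : k[X]) :
    vA W ((p - q * (C W.a₁ * X + C W.a₃)) • (1 : W.CoordinateRing)
        + (-q) • Affine.CoordinateRing.mk W Y)
      = vA W (p • (1 : W.CoordinateRing) + q • Affine.CoordinateRing.mk W Y) := by
  rw [vA_apply, vA_apply, Affine.CoordinateRing.norm_smul_basis,
    Affine.CoordinateRing.norm_smul_basis]
  congr 2
  ring

theorem vO_negHom_algebraMap (a : W.CoordinateRing) :
    vO W (negHom W (algebraMap W.CoordinateRing W.FunctionField a))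
      = vO W (algebraMap W.CoordinateRing W.FunctionField a) := by
  obtain ⟨p, q, rfl⟩ := Affine.CoordinateRing.exists_smul_basis_eq a
  rw [negHom_algebraMap_smul_basis, vO_algebraMap_eq, vO_algebraMap_eq, vA_conj]

theorem vO_negHom (f : W.FunctionField) : vO W (negHom W f) = vO W f := by
  obtain ⟨a, b, _, rfl⟩ := IsFractionRing.div_surjective (A := W.CoordinateRing) f
  rw [map_div₀, map_div₀, map_div₀, vO_negHom_algebraMap, vO_negHom_algebraMap]

end General

section Transl

variable {k : Type*} [Field k] [DecidableEq k] [IsAlgClosed k] (W : Affine k) [W.IsElliptic]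

/-- Negation on the function field: `x ↦ x`, `y ↦ -y - a₁ x - a₃`. -/
theorem exists_negF : ∃ f : W.FunctionField ≃ₐ[k] W.FunctionField,
    f (xg W) = xg W ∧
      f (yg W) = -yg W - algebraMap k W.FunctionField W.a₁ * xg W
        - algebraMap k W.FunctionField W.a₃ :=
  ⟨AlgEquiv.ofAlgHom (negHom W) (negHom W) (negHom_comp_negHom W) (negHom_comp_negHom W),
    negHom_xg W, negHom_yg W⟩

def negF : W.FunctionField ≃ₐ[k] W.FunctionField := (exists_negF W).choose

theorem negF_xg : negF W (xg W) = xg W := (exists_negF W).choose_spec.1

theorem negF_yg : negF W (yg W) = -yg W - algebraMap k W.FunctionField W.a₁ * xg W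
    - algebraMap k W.FunctionField W.a₃ := (exists_negF W).choose_spec.2

theorem coe_negF_eq_negHom :
    ((negF W : W.FunctionField ≃ₐ[k] W.FunctionField) : W.FunctionField →ₐ[k] W.FunctionField)
      = negHom W := by
  apply algHom_ext_gen
  · show negF W (xg W) = _
    rw [negF_xg, negHom_xg]
  · show negF W (yg W) = _
    rw [negF_yg, negHom_yg, negY_gen_eq]

theorem negF_apply (f : W.FunctionField) : negF W f = negHom W f := by
  rw [← coe_negF_eq_negHom]; rfl

theorem negF_negF (f : W.FunctionField) : negF W (negF W f) = f := by
  rw [negF_apply, negF_apply, negHom_negHom]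

theorem vO_negF (f : W.FunctionField) : vO W (negF W f) = vO W f := by
  rw [negF_apply, vO_negHom]

/-- negation of the generic point -/
theorem map_negHom_genPt :
    Affine.Point.map (W' := W) (negHom W) (genPt W) = -genPt W := by
  show Affine.Point.map (W' := W) (negHom W) (.some (xg W) (yg W) (nonsingular_gen W)) = _
  rw [Affine.Point.map_some]
  show _ = -Affine.Point.some (xg W) (yg W) (nonsingular_gen W)
  rw [Affine.Point.neg_some]
  congr 1
  · exact negHom_xg W
  · exact negHom_yg W

theorem ptXF_neg (Q : (W⁄W.FunctionField).Point) : ptXF W (-Q) = ptXF W Q := by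
  cases Q with
  | zero => rfl
  | some x y h => rfl

theorem ptYF_neg {Q : (W⁄W.FunctionField).Point} (hQ : Q ≠ 0) :
    ptYF W (-Q) = (W⁄W.FunctionField).negY (ptXF W Q) (ptYF W Q) := by
  cases Q with
  | zero => exact absurd rfl hQ
  | some x y h => rfl

/-- `ι ∘ τ_T = τ_{-T} ∘ ι`. -/
theorem negF_transl (T : W.Point) (f : W.FunctionField) :
    negF W (transl W T f) = transl W (-T) (negF W f) := by
  rw [negF_apply, negF_apply, transl_apply, transl_apply]
  have key : (negHom W).comp (translHom W T) = (translHom W (-T)).comp (negHom W) := by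
    have hpt : Affine.Point.map (W' := W) (negHom W) (genPt W + constPt W T)
        = -(genPt W + constPt W (-T)) := by
      rw [map_add, map_negHom_genPt, map_constPt, map_neg, neg_add, neg_neg]
    apply algHom_ext_gen
    · rw [AlgHom.comp_apply, AlgHom.comp_apply, translHom_xg, ← ptXF_map, hpt, ptXF_neg,
        negHom_xg, translHom_xg]
    · have e : (translHom W (-T)) (-yg W - algebraMap k W.FunctionField W.a₁ * xg W
            - algebraMap k W.FunctionField W.a₃)
          = -(translHom W (-T) (yg W))
            - algebraMap k W.FunctionField W.a₁ * translHom W (-T) (xg W)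
            - algebraMap k W.FunctionField W.a₃ := by
        simp only [map_sub, map_neg, map_mul, AlgHom.commutes]
      rw [AlgHom.comp_apply, AlgHom.comp_apply, translHom_yg, ← ptYF_map, hpt,
        ptYF_neg W (genPt_add_constPt_ne_zero W (-T)), negHom_yg, negY_gen_eq, e,
        translHom_xg, translHom_yg]
      rfl
  exact congrArg (fun φ : W.FunctionField →ₐ[k] W.FunctionField => φ f) key

end Transl

end

end Fermat.Agent.Velu
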