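import Fermat.Agent.E.Velu.EvO
import Fermat.Agent.E.Velu.Transl
import Fermat.Agent.E.Velu.LRed
import Fermat.Agent.E.S12.VeluSpec

/-!
# Vélu (V1), infrastructure I3: regularity and values at the points of `W`

`RegAt W P f` : `f` is regular at `P`;  `evP W P f` : the value of `f` at `P`.
The coordinate functions are regular at the affine points, with the expected values
(`vO_transl_xg_sub`, `vO_transl_yg_sub` = leaf `lred` for the place at `O`).
-/

set_option autoImplicit false

open WeierstrassCurve Polynomial
open scoped Polynomial.Bivariate WeierstrassCurve.Affine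

namespace Fermat.Agent.Velu

noncomputable section

open Fermat.Agent.EV (ptX ptY)

variable {k : Type*} [Field k] [DecidableEq k] [IsAlgClosed k] (W : Affine k) [W.IsElliptic]

/-- `f` is regular at `P`. -/
def RegAt (P : W.Point) (f : W.FunctionField) : Prop := vO W (transl W P f) ≤ 1

/-- `f` vanishes at `P`. -/
def VanAt (P : W.Point) (f : W.FunctionField) : Prop := vO W (transl W P f) < 1

/-- The value of `f` at `P` (junk `0` at a pole). -/
def evP (P : W.Point) (f : W.FunctionField) : k := evO W (transl W P f)

theorem regAt_transl_iff (P T : W.Point) (f : W.FunctionField) :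
    RegAt W P (transl W T f) ↔ RegAt W (P + T) f := by
  unfold RegAt; rw [transl_transl]

theorem evP_transl (P T : W.Point) (f : W.FunctionField) :
    evP W P (transl W T f) = evP W (P + T) f := by
  unfold evP; rw [transl_transl]

/-- the coordinate functions are regular at the affine points, with the expected values -/
theorem vO_transl_xg_sub {a b : k} (h : W.Nonsingular a b) :
    vO W (transl W (.some a b h) (xg W) - algebraMap k _ a) < 1 := by
  rw [transl_xg']
  exact (lred (vO W) (vO_const_le W) W (equation_gen W) (one_lt_vO_xg W) h.1).1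

theorem vO_transl_yg_sub {a b : k} (h : W.Nonsingular a b) :
    vO W (transl W (.some a b h) (yg W) - algebraMap k _ b) < 1 := by
  rw [transl_yg']
  exact (lred (vO W) (vO_const_le W) W (equation_gen W) (one_lt_vO_xg W) h.1).2

/-- regular functions form a ring: sums -/
theorem RegAt.add {P : W.Point} {f g : W.FunctionField} (hf : RegAt W P f) (hg : RegAt W P g) :
    RegAt W P (f + g) := by
  unfold RegAt at *
  rw [map_add]
  exact (Valuation.map_add _ _ _).trans (max_le hf hg)

theorem RegAt.mul {P : W.Point} {f g : W.FunctionField} (hf : RegAt W P f) (hg : RegAt W P g) :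
    RegAt W P (f * g) := by
  unfold RegAt at *
  rw [map_mul, map_mul]
  exact mul_le_one' hf hg

theorem RegAt.neg {P : W.Point} {f : W.FunctionField} (hf : RegAt W P f) :
    RegAt W P (-f) := by
  unfold RegAt at *
  rwa [map_neg, Valuation.map_neg]

theorem RegAt.sub {P : W.Point} {f g : W.FunctionField} (hf : RegAt W P f) (hg : RegAt W P g) :
    RegAt W P (f - g) := by
  rw [sub_eq_add_neg]; exact hf.add W (hg.neg W)

theorem regAt_const (P : W.Point) (c : k) : RegAt W P (algebraMap k W.FunctionField c) := by
  unfold RegAt
  rw [AlgEquiv.commutes]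
  exact vO_const_le W c

theorem VanAt.regAt {P : W.Point} {f : W.FunctionField} (hf : VanAt W P f) : RegAt W P f :=
  le_of_lt hf

theorem regAt_of_vanAt_sub {P : W.Point} {f : W.FunctionField} {c : k}
    (h : VanAt W P (f - algebraMap k W.FunctionField c)) : RegAt W P f := by
  have := (h.regAt W).add W (regAt_const W P c)
  rwa [sub_add_cancel] at this

theorem evP_eq_of_vanAt_sub {P : W.Point} {f : W.FunctionField} {c : k}
    (h : VanAt W P (f - algebraMap k W.FunctionField c)) : evP W P f = c := by
  unfold evP
  apply evO_eq_of_lt
  unfold VanAt at h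
  rwa [map_sub, AlgEquiv.commutes] at h

theorem vanAt_sub_evP {P : W.Point} {f : W.FunctionField} (hf : RegAt W P f) :
    VanAt W P (f - algebraMap k W.FunctionField (evP W P f)) := by
  unfold VanAt
  rw [map_sub, AlgEquiv.commutes]
  exact evO_spec W hf

theorem vanAt_xg_sub {a b : k} (h : W.Nonsingular a b) :
    VanAt W (.some a b h) (xg W - algebraMap k W.FunctionField a) := by
  unfold VanAt
  rw [map_sub, AlgEquiv.commutes]
  exact vO_transl_xg_sub W h

theorem vanAt_yg_sub {a b : k} (h : W.Nonsingular a b) :
    VanAt W (.some a b h) (yg W - algebraMap k W.FunctionField b) := by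
  unfold VanAt
  rw [map_sub, AlgEquiv.commutes]
  exact vO_transl_yg_sub W h

theorem regAt_xg {P : W.Point} (hP : P ≠ 0) : RegAt W P (xg W) := by
  cases P with
  | zero => exact absurd rfl hP
  | some a b h => exact regAt_of_vanAt_sub W (vanAt_xg_sub W h)

theorem regAt_yg {P : W.Point} (hP : P ≠ 0) : RegAt W P (yg W) := by
  cases P with
  | zero => exact absurd rfl hP
  | some a b h => exact regAt_of_vanAt_sub W (vanAt_yg_sub W h)

theorem evP_xg {P : W.Point} (hP : P ≠ 0) : evP W P (xg W) = ptX P := by
  cases P with
  | zero => exact absurd rfl hP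
  | some a b h => exact evP_eq_of_vanAt_sub W (vanAt_xg_sub W h)

theorem evP_yg {P : W.Point} (hP : P ≠ 0) : evP W P (yg W) = ptY P := by
  cases P with
  | zero => exact absurd rfl hP
  | some a b h => exact evP_eq_of_vanAt_sub W (vanAt_yg_sub W h)

theorem evP_const (P : W.Point) (c : k) : evP W P (algebraMap k W.FunctionField c) = c := by
  unfold evP
  rw [AlgEquiv.commutes]
  exact evO_algebraMap W c

theorem evP_add {P : W.Point} {f g : W.FunctionField} (hf : RegAt W P f) (hg : RegAt W P g) :
    evP W P (f + g) = evP W P f + evP W P g := by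
  unfold evP
  rw [map_add]
  exact evO_add W hf hg

theorem evP_mul {P : W.Point} {f g : W.FunctionField} (hf : RegAt W P f) (hg : RegAt W P g) :
    evP W P (f * g) = evP W P f * evP W P g := by
  unfold evP
  rw [map_mul]
  exact evO_mul W hf hg

theorem vanAt_iff_evP_eq_zero {P : W.Point} {f : W.FunctionField} (hf : RegAt W P f) :
    VanAt W P f ↔ evP W P f = 0 :=
  (evO_eq_zero_iff W hf).symm

end

end Fermat.Agent.Velu
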