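import Fermat.Agent.E.Velu.Trans

/-!
# Vélu (V1), infrastructure I2: the valuation at `O` on the function field

`vO W f = exp n` iff `f` has a pole of order `n` at `O`; on the coordinate ring it is
`exp (deg_X (Norm a))`.
-/

set_option autoImplicit false

open WeierstrassCurve Polynomial
open scoped Polynomial.Bivariate WeierstrassCurve.Affine

namespace Fermat.Agent.Velu

noncomputable section

/-- `⊥ ↦ 0`, `n ↦ exp n`. -/
def degExp : WithBot ℕ → WithZero (Multiplicative ℤ)
  | ⊥ => 0
  | (n : ℕ) => WithZero.exp (n : ℤ)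

@[simp] theorem degExp_bot : degExp ⊥ = 0 := rfl

@[simp] theorem degExp_some (n : ℕ) : degExp (WithBot.some n) = WithZero.exp (n : ℤ) := rfl

@[simp] theorem degExp_coe (n : ℕ) : degExp (n : WithBot ℕ) = WithZero.exp (n : ℤ) := rfl

theorem degExp_add (a b : WithBot ℕ) : degExp (a + b) = degExp a * degExp b := by
  induction a using WithBot.recBotCoe with
  | bot => simp
  | coe a =>
    induction b using WithBot.recBotCoe with
    | bot => simp
    | coe b =>
      rw [← WithBot.coe_add, degExp_some, degExp_some, degExp_some, ← WithZero.exp_add]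
      push_cast
      rfl

theorem degExp_mono {a b : WithBot ℕ} (h : a ≤ b) : degExp a ≤ degExp b := by
  induction a using WithBot.recBotCoe with
  | bot => simp
  | coe a =>
    induction b using WithBot.recBotCoe with
    | bot => simp at h
    | coe b =>
      rw [degExp_some, degExp_some, WithZero.exp_le_exp]
      exact_mod_cast h

theorem degExp_eq_zero_iff {a : WithBot ℕ} : degExp a = 0 ↔ a = ⊥ := by
  induction a using WithBot.recBotCoe with
  | bot => simp
  | coe a => simp [degExp_some]

variable {k : Type*} [Field k] (W : Affine k)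

theorem degree_norm_add_le (a b : W.CoordinateRing) :
    (Algebra.norm k[X] (a + b)).degree
      ≤ max (Algebra.norm k[X] a).degree (Algebra.norm k[X] b).degree := by
  obtain ⟨p₁, q₁, rfl⟩ := Affine.CoordinateRing.exists_smul_basis_eq a
  obtain ⟨p₂, q₂, rfl⟩ := Affine.CoordinateRing.exists_smul_basis_eq b
  have hab : p₁ • (1 : W.CoordinateRing) + q₁ • Affine.CoordinateRing.mk W Y
      + (p₂ • (1 : W.CoordinateRing) + q₂ • Affine.CoordinateRing.mk W Y)
      = (p₁ + p₂) • (1 : W.CoordinateRing) + (q₁ + q₂) • Affine.CoordinateRing.mk W Y := by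
    rw [add_smul, add_smul]; abel
  rw [hab, Affine.CoordinateRing.degree_norm_smul_basis,
    Affine.CoordinateRing.degree_norm_smul_basis, Affine.CoordinateRing.degree_norm_smul_basis]
  have h1 : (p₁ + p₂).degree ≤ max p₁.degree p₂.degree := degree_add_le _ _
  have h2 : (q₁ + q₂).degree ≤ max q₁.degree q₂.degree := degree_add_le _ _
  apply max_le
  · rcases le_max_iff.1 h1 with h | h
    · exact le_max_of_le_left (le_max_of_le_left (nsmul_le_nsmul_right h 2))
    · exact le_max_of_le_right (le_max_of_le_left (nsmul_le_nsmul_right h 2))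
  · rcases le_max_iff.1 h2 with h | h
    · exact le_max_of_le_left (le_max_of_le_right (add_le_add (nsmul_le_nsmul_right h 2) le_rfl))
    · exact le_max_of_le_right (le_max_of_le_right (add_le_add (nsmul_le_nsmul_right h 2) le_rfl))

/-- The pole-order valuation on the coordinate ring. -/
def vA : Valuation W.CoordinateRing (WithZero (Multiplicative ℤ)) where
  toFun a := degExp (Algebra.norm k[X] a).degree
  map_zero' := by rw [Algebra.norm_zero, degree_zero, degExp_bot]
  map_one' := by rw [map_one, degree_one]; rfl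
  map_mul' a b := by rw [map_mul, degree_mul, degExp_add]
  map_add_le_max' a b := by
    rcases le_max_iff.1 (degree_norm_add_le W a b) with h | h
    · exact le_max_of_le_left (degExp_mono h)
    · exact le_max_of_le_right (degExp_mono h)

theorem vA_apply (a : W.CoordinateRing) : vA W a = degExp (Algebra.norm k[X] a).degree := rfl

theorem vA_eq_zero_iff (a : W.CoordinateRing) : vA W a = 0 ↔ a = 0 := by
  rw [vA_apply, degExp_eq_zero_iff, degree_eq_bot, Algebra.norm_eq_zero_iff]

theorem le_supp_primeCompl : nonZeroDivisors W.CoordinateRing ≤ (vA W).supp.primeCompl := by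
  intro a ha
  rw [Ideal.primeCompl, Submonoid.mem_mk, Subsemigroup.mem_mk, Set.mem_compl_iff,
    SetLike.mem_coe, Valuation.mem_supp_iff, vA_eq_zero_iff]
  exact nonZeroDivisors.ne_zero ha

/-- The valuation at `O`: `vO f = exp n` iff `f` has a pole of order `n` at `O`. -/
def vO : Valuation W.FunctionField (WithZero (Multiplicative ℤ)) :=
  (vA W).extendToLocalization (le_supp_primeCompl W) W.FunctionField

theorem vO_algebraMap_eq (a : W.CoordinateRing) :
    vO W (algebraMap W.CoordinateRing W.FunctionField a) = vA W a :=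
  Valuation.extendToLocalization_apply_map_apply _ _ _ a

theorem vO_algebraMap (a : W.CoordinateRing) (ha : a ≠ 0) :
    vO W (algebraMap W.CoordinateRing W.FunctionField a)
      = WithZero.exp ((Algebra.norm k[X] a).natDegree : ℤ) := by
  rw [vO_algebraMap_eq, vA_apply,
    degree_eq_natDegree (mt Algebra.norm_eq_zero_iff.1 ha), degExp_coe]

theorem vA_smul_basis (p q : k[X]) :
    vA W (p • (1 : W.CoordinateRing) + q • Affine.CoordinateRing.mk W Y)
      = max (degExp (2 • p.degree)) (degExp (2 • q.degree + 3)) := by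
  rw [vA_apply, Affine.CoordinateRing.degree_norm_smul_basis]
  rcases le_total (2 • p.degree) (2 • q.degree + 3) with h | h
  · rw [max_eq_right h, max_eq_right (degExp_mono h)]
  · rw [max_eq_left h, max_eq_left (degExp_mono h)]

theorem degExp_two_nsmul_degree {p : k[X]} (hp : p ≠ 0) :
    degExp (2 • p.degree) = WithZero.exp (2 * (p.natDegree : ℤ)) := by
  rw [degree_eq_natDegree hp]
  have : (2 • (p.natDegree : WithBot ℕ)) = ((2 * p.natDegree : ℕ) : WithBot ℕ) := by
    rw [two_nsmul, two_mul]; push_cast; rfl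
  rw [this, degExp_coe]
  push_cast; rfl

theorem degExp_two_nsmul_degree_add_three {q : k[X]} (hq : q ≠ 0) :
    degExp (2 • q.degree + 3) = WithZero.exp (2 * (q.natDegree : ℤ) + 3) := by
  rw [degree_eq_natDegree hq]
  have : (2 • (q.natDegree : WithBot ℕ) + 3) = ((2 * q.natDegree + 3 : ℕ) : WithBot ℕ) := by
    rw [two_nsmul, two_mul]; push_cast; rfl
  rw [this, degExp_coe]
  push_cast; rfl

/-- `vO (p(x)) = exp (2 deg p)`. -/
theorem vO_polynomial (p : k[X]) (hp : p ≠ 0) :
    vO W (algebraMap W.CoordinateRing W.FunctionField (p • (1 : W.CoordinateRing)))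
      = WithZero.exp (2 * (p.natDegree : ℤ)) := by
  have h := vA_smul_basis W p 0
  rw [zero_smul, add_zero] at h
  rw [vO_algebraMap_eq, h, degree_zero, degExp_two_nsmul_degree hp]
  have : degExp (2 • (⊥ : WithBot ℕ) + 3) = 0 := by
    rw [nsmul_eq_mul]; rfl
  rw [this]
  exact max_eq_left (by simp)

/-- `vO (q(x) y) = exp (2 deg q + 3)`. -/
theorem vO_polynomial_mul_y (q : k[X]) (hq : q ≠ 0) :
    vO W (algebraMap W.CoordinateRing W.FunctionField (q • Affine.CoordinateRing.mk W Y))
      = WithZero.exp (2 * (q.natDegree : ℤ) + 3) := by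
  have h := vA_smul_basis W 0 q
  rw [zero_smul, zero_add] at h
  rw [vO_algebraMap_eq, h, degree_zero, degExp_two_nsmul_degree_add_three hq]
  have : degExp (2 • (⊥ : WithBot ℕ)) = 0 := by
    rw [nsmul_eq_mul]; rfl
  rw [this]
  exact max_eq_right (by simp)

/-- `vO (p(x) + q(x) y) = exp (max (2 deg p) (2 deg q + 3))`. -/
theorem vO_smul_basis (p q : k[X]) (hp : p ≠ 0) (hq : q ≠ 0) :
    vO W (algebraMap W.CoordinateRing W.FunctionField
        (p • (1 : W.CoordinateRing) + q • Affine.CoordinateRing.mk W Y))
      = WithZero.exp (max (2 * (p.natDegree : ℤ)) (2 * (q.natDegree : ℤ) + 3)) := by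
  rw [vO_algebraMap_eq, vA_smul_basis, degExp_two_nsmul_degree hp,
    degExp_two_nsmul_degree_add_three hq]
  rcases le_total (2 * (p.natDegree : ℤ)) (2 * (q.natDegree : ℤ) + 3) with h | h
  · rw [max_eq_right h, max_eq_right (WithZero.exp_le_exp.2 h)]
  · rw [max_eq_left h, max_eq_left (WithZero.exp_le_exp.2 h)]

theorem algebraMap_polynomial_eq (p : k[X]) :
    algebraMap k[X] W.FunctionField p
      = algebraMap W.CoordinateRing W.FunctionField (p • (1 : W.CoordinateRing)) := by
  rw [IsScalarTower.algebraMap_apply k[X] W.CoordinateRing W.FunctionField]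
  exact congrArg _ (Algebra.algebraMap_eq_smul_one p)

theorem algebraMap_const_eq (c : k) :
    algebraMap k W.FunctionField c = algebraMap k[X] W.FunctionField (C c) := by
  rw [IsScalarTower.algebraMap_apply k k[X] W.FunctionField]
  rfl

theorem xg_eq : xg W = algebraMap k[X] W.FunctionField X := by
  rw [algebraMap_polynomial_eq, xg, Affine.CoordinateRing.smul, mul_one]

theorem yg_eq : yg W = algebraMap W.CoordinateRing W.FunctionField
    ((1 : k[X]) • Affine.CoordinateRing.mk W Y) := by
  rw [one_smul, yg]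

/-- `vO` of a polynomial in `x`. -/
theorem vO_algebraMap_polynomial (p : k[X]) (hp : p ≠ 0) :
    vO W (algebraMap k[X] W.FunctionField p) = WithZero.exp (2 * (p.natDegree : ℤ)) := by
  rw [algebraMap_polynomial_eq, vO_polynomial W p hp]

theorem vO_const (c : k) (hc : c ≠ 0) : vO W (algebraMap k W.FunctionField c) = 1 := by
  rw [algebraMap_const_eq, vO_algebraMap_polynomial W _ (C_ne_zero.2 hc), natDegree_C]
  simp

theorem vO_const_le (c : k) : vO W (algebraMap k W.FunctionField c) ≤ 1 := by
  by_cases hc : c = 0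
  · rw [hc, map_zero, map_zero]; exact zero_le_one
  · rw [vO_const W c hc]

theorem vO_xg : vO W (xg W) = WithZero.exp (2 : ℤ) := by
  rw [xg_eq, vO_algebraMap_polynomial W _ X_ne_zero, natDegree_X]
  simp

theorem vO_xg_sub_const (c : k) :
    vO W (xg W - algebraMap k W.FunctionField c) = WithZero.exp (2 : ℤ) := by
  rw [xg_eq, algebraMap_const_eq, ← map_sub,
    vO_algebraMap_polynomial W _ (X_sub_C_ne_zero c), natDegree_X_sub_C]
  simp

theorem vO_yg : vO W (yg W) = WithZero.exp (3 : ℤ) := by
  rw [yg_eq, vO_polynomial_mul_y W _ one_ne_zero, natDegree_one]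
  simp

/-- `η = 2y + a₁x + a₃` has a pole of order `3` at `O` (characteristic `≠ 2`). -/
theorem vO_eta (h2 : (2 : k) ≠ 0) :
    vO W (2 * yg W + algebraMap k W.FunctionField W.a₁ * xg W
      + algebraMap k W.FunctionField W.a₃) = WithZero.exp (3 : ℤ) := by
  have h2' : (C (2 : k) : k[X]) ≠ 0 := C_ne_zero.2 h2
  have e : 2 * yg W + algebraMap k W.FunctionField W.a₁ * xg W
      + algebraMap k W.FunctionField W.a₃
      = algebraMap W.CoordinateRing W.FunctionField
          ((C W.a₁ * X + C W.a₃) • (1 : W.CoordinateRing)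
            + (C (2 : k)) • Affine.CoordinateRing.mk W Y) := by
    rw [map_add, ← algebraMap_polynomial_eq, map_add, map_mul, ← algebraMap_const_eq,
      ← algebraMap_const_eq, ← xg_eq, Affine.CoordinateRing.smul, map_mul, ← yg]
    have : algebraMap W.CoordinateRing W.FunctionField
        (Affine.CoordinateRing.mk W (C (C (2 : k)))) = 2 := by
      have : (Affine.CoordinateRing.mk W (C (C (2 : k)))) = 2 := by
        rw [map_ofNat C 2, map_ofNat C 2, map_ofNat]
      rw [this, map_ofNat]
    rw [this]
    ring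
  rw [e]
  by_cases hp : (C W.a₁ * X + C W.a₃ : k[X]) = 0
  · rw [hp, zero_smul, zero_add, vO_polynomial_mul_y W _ h2', natDegree_C]
    simp
  · rw [vO_smul_basis W _ _ hp h2', natDegree_C]
    have : ((C W.a₁ * X + C W.a₃ : k[X]).natDegree : ℤ) ≤ 1 := by
      exact_mod_cast natDegree_linear_le
    rw [max_eq_right (by omega)]
    simp

/-- The valuation ring of the place at `O`. -/
def placeO : ValuationSubring W.FunctionField := (vO W).valuationSubring

theorem mem_placeO_iff (f : W.FunctionField) : f ∈ placeO W ↔ vO W f ≤ 1 :=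
  Valuation.mem_valuationSubring_iff _ _

theorem algebraMap_mem_placeO (c : k) : algebraMap k W.FunctionField c ∈ placeO W :=
  (mem_placeO_iff W _).2 (vO_const_le W c)

theorem xg_ne_zero : xg W ≠ 0 := by
  intro h
  have := vO_xg W
  rw [h, map_zero] at this
  exact WithZero.exp_ne_zero this.symm

theorem vO_inv_xg : vO W (xg W)⁻¹ = WithZero.exp (-2 : ℤ) := by
  rw [map_inv₀, vO_xg, WithZero.exp_neg]

theorem inv_xg_mem_placeO : (xg W)⁻¹ ∈ placeO W := by
  rw [mem_placeO_iff, vO_inv_xg, ← WithZero.exp_zero, WithZero.exp_le_exp]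
  norm_num

theorem one_lt_vO_xg : 1 < vO W (xg W) := by
  rw [vO_xg, ← WithZero.exp_zero, WithZero.exp_lt_exp]
  norm_num

theorem vO_inv_xg_lt_one : vO W (xg W)⁻¹ < 1 := by
  rw [vO_inv_xg, ← WithZero.exp_zero, WithZero.exp_lt_exp]
  norm_num

end

end Fermat.Agent.Velu
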