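import Fermat.Agent.E.Velu.Trans
import Fermat.Agent.E.Velu.ValO
import Fermat.Agent.E.Velu.Transl
import Fermat.Agent.E.Velu.Deriv
import Fermat.Agent.E.Velu.EvO
import Fermat.Agent.E.Velu.Reg
import Fermat.Agent.E.Velu.NegF
import Fermat.Agent.E.S12.VeluSpec

/-!
# Vélu (V1): function-field infrastructure, INTERFACE (owner helper51; consumer helper52)

`k` algebraically closed, `W` an elliptic Weierstrass curve over `k`, `F = W.FunctionField`.

* `xg W`, `yg W : F`                     coordinate functions                    (Trans.lean)
* `transl W T : F ≃ₐ[k] F`              translation by `T : W.Point`:  `(transl T f)(P) = f(P + T)`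
* `negF W : F ≃ₐ[k] F`                  negation:  `(negF f)(P) = f(-P)`
* `vO W : Valuation F ℤᵐ⁰`              valuation at `O`, `vO f = exp (pole order of f at O)`
* `RegAt W P f`, `evP W P f`             `f` is regular at `P`, value of `f` at `P`
* `const_of_regAt`                       a function without poles is constant
* `dd W : Derivation k F F`              the invariant derivation

STATUS: statements fixed; proofs are being filled in by helper51 (sorries will disappear,
names and statements stay).
-/

set_option autoImplicit false

open WeierstrassCurve Polynomial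
open scoped Polynomial.Bivariate WeierstrassCurve.Affine

namespace Fermat.Agent.Velu

noncomputable section

open Fermat.Agent.EV (ptX ptY)

/-! ## The valuation at `O` (any field) -/

section ValO

variable {k : Type*} [Field k] (W : Affine k)

-- `vO` and its basic lemmas are PROVED in `ValO.lean` (same names).

-- `evO`, `evO_spec`, `evO_eq_of_lt`, `evO_eq_zero_iff`, `evO_algebraMap`, `evO_add`, `evO_mul`
-- are PROVED in `EvO.lean` (same names; helper75).

end ValO

/-! ## Translations, negation (algebraically closed base field) -/

section Transl

variable {k : Type*} [Field k] [DecidableEq k] [IsAlgClosed k] (W : Affine k) [W.IsElliptic]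

-- `exists_negF`, `negF`, `negF_xg`, `negF_yg`, `negF_negF`, `vO_negF`, `negF_transl` are PROVED in
-- `NegF.lean`; `RegAt`, `VanAt`, `evP`, `regAt_transl_iff`, `evP_transl`, `vO_transl_xg_sub`,
-- `vO_transl_yg_sub`, `regAt_xg`, `regAt_yg`, `evP_xg`, `evP_yg` are PROVED in `Reg.lean`
-- (same names; helper75).
-- `algHom_ext_gen` (Lift.lean), `transl`, `transl_zero`, `transl_transl`, `transl_neg_transl`,
-- `transl_xg`, `transl_yg`, `map_transl_genPt` are PROVED in `Transl.lean` (same names).

/-- **(I4)** a function without poles is constant. -/
theorem const_of_regAt {f : W.FunctionField} (h : ∀ P : W.Point, RegAt W P f) :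
    ∃ c : k, f = algebraMap k W.FunctionField c := by
  sorry

/-- a function without zeros is constant -/
theorem const_of_no_zero {f : W.FunctionField} (hf : f ≠ 0)
    (h : ∀ P : W.Point, ¬ VanAt W P f) : ∃ c : k, f = algebraMap k W.FunctionField c := by
  sorry

/-! ## The invariant derivation -/

-- `dd`, `dd_xg`, `dd_yg`, `dd_const`, `dd_polynomial` are PROVED in `Deriv.lean` (same names).

/-- `∂` commutes with translations. -/
theorem dd_transl (T : W.Point) (f : W.FunctionField) :
    dd W (transl W T f) = transl W T (dd W f) := by
  sorry

/-- `∂` anticommutes with negation. -/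
theorem dd_negF (f : W.FunctionField) : dd W (negF W f) = -negF W (dd W f) := by
  sorry

/-- `∂` lowers the order at `O` by at most one. -/
theorem vO_dd_le (f : W.FunctionField) : vO W (dd W f) ≤ vO W f * WithZero.exp (1 : ℤ) := by
  sorry

/-- `∂` lowers the order at `O` by exactly one, if the order is prime to the characteristic. -/
theorem vO_dd_eq [CharZero k] {f : W.FunctionField} {n : ℤ} (hn : n ≠ 0)
    (hf : vO W f = WithZero.exp n) : vO W (dd W f) = WithZero.exp (n + 1) := by
  sorry

end Transl

end

end Fermat.Agent.Velu
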