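import Mathlib

/-!
# Vélu (V1), infrastructure I1: the generic point and translations of the function field

`k` a field, `W` a Weierstrass curve over `k` with `Δ ≠ 0`, `F = W.FunctionField`.
* `xg W`, `yg W : F` the coordinate functions, `genPt W hΔ : (W⁄F).Point` the generic point;
* `constPt W : W.Point →+ (W⁄F).Point` the constant points.
-/

set_option autoImplicit false

open WeierstrassCurve Polynomial
open scoped Polynomial.Bivariate WeierstrassCurve.Affine

namespace Fermat.Agent.Velu

noncomputable section

variable {k : Type*} [Field k] (W : Affine k)

/-- The coordinate function `x` in the function field. -/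
def xg : W.FunctionField :=
  algebraMap W.CoordinateRing W.FunctionField (Affine.CoordinateRing.mk W (C X))

/-- The coordinate function `y` in the function field. -/
def yg : W.FunctionField :=
  algebraMap W.CoordinateRing W.FunctionField (Affine.CoordinateRing.mk W Y)

instance instFiniteCoordinateRing : Module.Finite k[X] W.CoordinateRing :=
  Module.Finite.of_basis (Affine.CoordinateRing.basis W)

/-- Evaluating a bivariate polynomial at the classes of `X`, `Y` in the coordinate ring. -/
theorem evalEval_mk (p : k[X][Y]) :
    (p.map (mapRingHom (algebraMap k W.CoordinateRing))).evalEval
      (Affine.CoordinateRing.mk W (C X)) (Affine.CoordinateRing.mk W Y)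
      = Affine.CoordinateRing.mk W p := by
  induction p using Polynomial.induction_on' with
  | add p q hp hq => simp only [Polynomial.map_add, evalEval_add, hp, hq, map_add]
  | monomial n a =>
    rw [← C_mul_X_pow_eq_monomial]
    simp only [Polynomial.map_mul, Polynomial.map_pow, Polynomial.map_C, Polynomial.map_X,
      evalEval_mul, evalEval_pow, evalEval_X, evalEval_C, map_mul, map_pow, coe_mapRingHom]
    congr 1
    induction a using Polynomial.induction_on' with
    | add p q hp hq => simp only [Polynomial.map_add, eval_add, hp, hq, map_add]
    | monomial m c =>
      rw [← C_mul_X_pow_eq_monomial]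
      simp only [Polynomial.map_mul, Polynomial.map_pow, Polynomial.map_C, Polynomial.map_X,
        eval_mul, eval_pow, eval_X, eval_C, map_mul, map_pow]
      rfl

/-- The generic point satisfies the Weierstrass equation over the coordinate ring. -/
theorem equation_mk :
    (W.map (algebraMap k W.CoordinateRing)).toAffine.Equation
      (Affine.CoordinateRing.mk W (C X)) (Affine.CoordinateRing.mk W Y) := by
  rw [Affine.Equation, Affine.map_polynomial, evalEval_mk]
  exact AdjoinRoot.mk_self

/-- The generic point satisfies the Weierstrass equation over the function field. -/
theorem equation_gen : (W⁄W.FunctionField).Equation (xg W) (yg W) := by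
  have h := (equation_mk W).map (algebraMap W.CoordinateRing W.FunctionField)
  have e : ((W.map (algebraMap k W.CoordinateRing)).toAffine.map
      (algebraMap W.CoordinateRing W.FunctionField)) = W⁄W.FunctionField := by
    show (WeierstrassCurve.map (WeierstrassCurve.map W _) _) = WeierstrassCurve.baseChange W _
    rw [WeierstrassCurve.map_map, ← IsScalarTower.algebraMap_eq]
    rfl
  rw [e] at h
  exact h

instance instIsEllipticBaseChangeFF [W.IsElliptic] : (W⁄W.FunctionField).IsElliptic :=
  inferInstanceAs (WeierstrassCurve.map W (algebraMap k W.FunctionField)).IsElliptic

/-- The generic point is nonsingular. -/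
theorem nonsingular_gen [W.IsElliptic] : (W⁄W.FunctionField).Nonsingular (xg W) (yg W) :=
  ((W⁄W.FunctionField).equation_iff_nonsingular).1 (equation_gen W)

/-- The generic point of `W` over its function field. -/
def genPt [W.IsElliptic] : (W⁄W.FunctionField).Point :=
  .some (xg W) (yg W) (nonsingular_gen W)

variable [DecidableEq k]

/-- Constant points. -/
def constPt : W.Point →+ (W⁄W.FunctionField).Point where
  toFun P := Affine.Point.map (W' := W) (Algebra.ofId k W.FunctionField) P
  map_zero' := rfl
  map_add' P Q := map_add (Affine.Point.map (W' := W) (Algebra.ofId k W.FunctionField)) P Q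

theorem constPt_zero : constPt W 0 = 0 := rfl

theorem constPt_some {c d : k} (h : W.Nonsingular c d) :
    constPt W (.some c d h) = .some (algebraMap k W.FunctionField c)
      (algebraMap k W.FunctionField d)
      ((Affine.map_nonsingular W (algebraMap k W.FunctionField).injective c d).2 h) := rfl

/-- An algebra endomorphism of the function field fixes the constant points. -/
theorem map_constPt (f : W.FunctionField →ₐ[k] W.FunctionField) (P : W.Point) :
    Affine.Point.map (W' := W) f (constPt W P) = constPt W P := by
  cases P with
  | zero => rfl
  | some c d h =>
    rw [constPt_some, Affine.Point.map_some]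
    congr 1
    · exact f.commutes c
    · exact f.commutes d

end

end Fermat.Agent.Velu
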